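import Fermat.Agent.Entry.Descent.Move
import Fermat.Agent.Entry.Gluing.Basic

/-!
# The moves of the normalising elements

A normalising element acts on the fraction field of the cover; it commutes with the norms, fixes
the functions of level `q²M'` and carries a point to the moved one.
-/

set_option autoImplicit false
set_option linter.unusedSectionVars false
set_option linter.style.haveILetI false
set_option synthInstance.maxHeartbeats 400000
set_option maxHeartbeats 1000000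

noncomputable section

open UpperHalfPlane hiding I I_re I_im
open Filter Topology Complex Function FLTAgent.ModEq FLTAgent.GoodModel ModularCurve
open scoped MatrixGroups Manifold Classical

namespace FLTAgent.Carayol

local notation "QA" => AlgebraicClosure ℚ

namespace Ctx

variable {q M0 N' : ℕ} [NeZero M0] [NeZero N'] [NeZero q] [Fact q.Prime] (C : Ctx q M0 N')
variable {γ : SL(2, ℤ)}

theorem fh_alg' (σ : SL(2, ℤ)) (a : C.R) :
    C.fh σ (algebraMap C.R C.KR a) = sIncl C.S (ser (trComp σ (Subring.inclusion C.R_le a))) :=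
  C.fh_alg σ a

theorem fh_congr {σ σ' : SL(2, ℤ)}
    (h : ∀ a : C.R, compg σ (a : ℍ → ℂ) = compg σ' (a : ℍ → ℂ)) : C.fh σ = C.fh σ' :=
  IsLocalization.ringHom_ext (nonZeroDivisors C.R) (RingHom.ext fun a => by
    rw [RingHom.comp_apply, RingHom.comp_apply, C.fh_alg, C.fh_alg, C.embAt_congr a (h a)])

theorem fh_alg_mul (ρ γ : SL(2, ℤ)) {a a' d : C.R}
    (h : Subring.inclusion C.R_le d * C.movEl γ a = Subring.inclusion C.R_le a') :
    C.fh ρ (algebraMap C.R C.KR d) * C.fh (γ * ρ) (algebraMap C.R C.KR a) =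
      C.fh ρ (algebraMap C.R C.KR a') := by
  have e : trComp ρ (C.movEl γ a) = trComp (γ * ρ) (Subring.inclusion C.R_le a) :=
    Subtype.ext (compg_compg ρ γ _)
  rw [C.fh_alg', C.fh_alg', C.fh_alg', ← h, ← map_mul, ← map_mul, map_mul (trComp ρ), e]

theorem mem_range_fh (hF : C.FixedPart) (hγ : C.Mov γ) (z : C.KR) : C.fh γ z ∈ (C.fh 1).range := by
  obtain ⟨a, e, he, rfl⟩ := C.exists_alg_div z
  rw [map_div₀]
  refine (C.fh 1).fieldRange.div_mem ?_ ?_ <;>
  · obtain ⟨a', d, hd, h⟩ := C.exists_mov_frac hF hγ _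
    refine ⟨algebraMap _ _ a' / algebraMap _ _ d, ?_⟩
    rw [map_div₀, div_eq_iff ((map_ne_zero _).2 (C.alg_ne hd)), mul_comm,
      ← C.fh_alg_mul 1 γ h, mul_one]

/-- The action of a normalising element on the fraction field. -/
def del (hF : C.FixedPart) (hγ : C.Mov γ) : C.KR →+* C.KR :=
  (RingEquiv.ofBijective (C.fh 1).rangeRestrict
    ⟨fun _ _ h => C.fh_injective 1 (congrArg Subtype.val h),
      (C.fh 1).rangeRestrict_surjective⟩).symm.toRingHom.comp
    ((C.fh γ).codRestrict (C.fh 1).range (C.mem_range_fh hF hγ))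

theorem fh_one_del (hF : C.FixedPart) (hγ : C.Mov γ) (z : C.KR) :
    C.fh 1 (C.del hF hγ z) = C.fh γ z := by
  have h := (RingEquiv.ofBijective (C.fh 1).rangeRestrict
    ⟨fun _ _ h => C.fh_injective 1 (congrArg Subtype.val h),
      (C.fh 1).rangeRestrict_surjective⟩).apply_symm_apply
      ((C.fh γ).codRestrict (C.fh 1).range (C.mem_range_fh hF hγ) z)
  exact congrArg Subtype.val h

theorem fh_del (hF : C.FixedPart) (hγ : C.Mov γ) (ρ : SL(2, ℤ)) (z : C.KR) :
    C.fh ρ (C.del hF hγ z) = C.fh (γ * ρ) z := by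
  suffices h : (C.fh ρ).comp (C.del hF hγ) = C.fh (γ * ρ) from DFunLike.congr_fun h z
  refine IsLocalization.ringHom_ext (nonZeroDivisors C.R) (RingHom.ext fun a => ?_)
  obtain ⟨a', d, hd, h⟩ := C.exists_mov_frac hF hγ a
  have e : C.del hF hγ (algebraMap C.R C.KR a) = algebraMap _ _ a' / algebraMap _ _ d := by
    refine C.fh_injective 1 ?_
    rw [C.fh_one_del, map_div₀, eq_div_iff ((map_ne_zero _).2 (C.alg_ne hd)), mul_comm,
      ← C.fh_alg_mul 1 γ h, mul_one]
  rw [RingHom.comp_apply, RingHom.comp_apply, RingHom.comp_apply, e, map_div₀,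
    div_eq_iff ((map_ne_zero _).2 (C.alg_ne hd)), mul_comm, C.fh_alg_mul ρ γ h]

theorem triple_conj_congr (hγ : C.Mov γ) {a b : SL(2, ℤ)} (ha : a ∈ CongruenceSubgroup.Gamma M0)
    (hb : b ∈ CongruenceSubgroup.Gamma M0) (h : C.triple a = C.triple b) :
    C.triple (γ * a * γ⁻¹) = C.triple (γ * b * γ⁻¹) := by
  have hfix : ∀ f : ℍ → ℂ, compg a f = compg b f → compg (b * a⁻¹) f = f := fun f hf => by
    rw [← compg_compg, ← hf, compg_compg, mul_inv_cancel, compg_one]
  simp only [triple, Prod.mk.injEq] at h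
  obtain ⟨h1, h2, h3⟩ := h
  have h' : C.triple (γ * (b * a⁻¹) * γ⁻¹) = C.triple 1 :=
    C.triple_conj hγ (mul_mem hb (inv_mem ha)) (by
      simp only [triple, compg_one, Prod.mk.injEq]
      exact ⟨hfix _ h1, hfix _ h2, hfix _ h3⟩)
  simp only [triple, compg_one, Prod.mk.injEq] at h' ⊢
  have e : γ * b * γ⁻¹ = γ * (b * a⁻¹) * γ⁻¹ * (γ * a * γ⁻¹) := by group
  simp only [e, ← compg_compg, h'.1, h'.2.1, h'.2.2, and_self]

/-- The permutation of the embeddings by conjugation. -/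
def conjIdx (γ : SL(2, ℤ)) (l : C.Idx) : C.Idx := C.idx (conj_mem γ (C.rep_mem l))

theorem conjIdx_inv (hγ : C.Mov γ) (l : C.Idx) : C.conjIdx γ (C.conjIdx γ⁻¹ l) = l := by
  refine Subtype.ext ?_
  show C.triple _ = _
  rw [C.triple_conj_congr hγ (C.rep_mem _) (conj_mem γ⁻¹ (C.rep_mem l)) (C.triple_rep _),
    show γ * (γ⁻¹ * C.rep l * γ⁻¹⁻¹) * γ⁻¹ = C.rep l by group, C.triple_rep]

theorem mem_fib_one' {b : Bool} {l : C.Idx} : l ∈ C.fib b C.one' ↔
    compg (C.rep l) (C.etaR : ℍ → ℂ) = C.etaR ∧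
      compg (C.rep l) (C.xR b : ℍ → ℂ) = C.xR b := by
  rw [C.mem_fib, C.emb_eq_iff, C.emb_eq_iff, show C.one' = C.idx (one_mem _) from rfl, C.compg_rep_idx, C.compg_rep_idx, compg_one,
    compg_one]

theorem conjIdx_fib (hγ : C.Mov γ) {b : Bool} {l : C.Idx} (hl : l ∈ C.fib b C.one') :
    C.conjIdx γ l ∈ C.fib b C.one' := by
  rw [C.mem_fib_one'] at hl ⊢
  obtain ⟨h1, h2, h3⟩ := C.fix_conj hγ (C.rep_mem l)
  rw [conjIdx, C.compg_rep_idx, C.compg_rep_idx]
  refine ⟨h1 hl.1, ?_⟩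
  cases b
  · rw [show ((C.xR false : C.R) : ℍ → ℂ) = C.sX by simp [xR, sb, rX, gr, compg_one]] at hl ⊢
    exact h2 hl.2
  · exact h3 hl.2

theorem fh_conjIdx (γ : SL(2, ℤ)) (l : C.Idx) :
    C.fh (C.rep (C.conjIdx γ l) * γ) = C.fh (γ * C.rep l) :=
  C.fh_congr fun a => by
    rw [← compg_compg γ, conjIdx, C.compg_rep_idx, compg_compg, inv_mul_cancel_right]

theorem del_Nf (hF : C.FixedPart) (hγ : C.Mov γ) (b : Bool) (z : C.KR) :
    C.Nf hF b (C.del hF hγ z) = C.del hF hγ (C.Nf hF b z) := by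
  refine C.fh_injective 1 ?_
  rw [C.fh_Nf, C.fh_one_del]
  have key : ∀ x : C.R, C.fh γ (C.Nf hF b (algebraMap C.R C.KR x)) =
      ∏ l ∈ C.fib b C.one', C.fh (C.rep l * γ) (algebraMap C.R C.KR x) := fun x => by
    obtain ⟨A, D, hD, hA⟩ := C.exists_fib_frac hF b x
    have e : Subring.inclusion C.R_le D * ∏ l' ∈ C.fib b C.one', C.trEl l' x =
        Subring.inclusion C.R_le A := ser_injective (by
      rw [map_mul, map_prod, Finset.prod_congr rfl fun l' _ => C.ser_trEl l' x]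
      have h := hA C.one'
      rw [C.emb_one', C.emb_one', C.embAt_apply, C.embAt_apply] at h
      simpa [show trComp (1 : SL(2, ℤ)) (Subring.inclusion C.R_le D) = Subring.inclusion C.R_le D from
          Subtype.ext (compg_one _),
        show trComp (1 : SL(2, ℤ)) (Subring.inclusion C.R_le A) = Subring.inclusion C.R_le A from
          Subtype.ext (compg_one _)] using h)
    have h2 := congrArg (fun w => sIncl C.S (ser (trComp γ w))) e
    simp only [map_mul, map_prod] at h2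
    rw [show C.Nf hF b (algebraMap C.R C.KR x) = algebraMap _ _ A / algebraMap _ _ D by
        rw [eq_div_iff (C.alg_ne hD), mul_comm, C.Nf_alg hF b hA],
      map_div₀, div_eq_iff ((map_ne_zero _).2 (C.alg_ne hD)), C.fh_alg', C.fh_alg', ← h2, mul_comm (∏ l ∈ _, _)]
    congr 1
    refine Finset.prod_congr rfl fun l _ => ?_
    rw [C.fh_alg']
    exact congrArg (fun w => sIncl C.S (ser w)) (Subtype.ext (compg_compg γ (C.rep l) _))
  obtain ⟨a, d, hd, rfl⟩ := C.exists_alg_div z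
  have hN : C.Nf hF b (algebraMap C.R C.KR a / algebraMap C.R C.KR d) =
      C.Nf hF b (algebraMap C.R C.KR a) / C.Nf hF b (algebraMap C.R C.KR d) := by
    rw [eq_div_iff (C.Nf_ne hF b (C.alg_ne hd)), ← map_mul, div_mul_cancel₀ _ (C.alg_ne hd)]
  rw [hN, map_div₀ (C.fh γ), key, key, ← Finset.prod_div_distrib]
  refine Finset.prod_nbij' (C.conjIdx γ) (C.conjIdx γ⁻¹) (fun l hl => C.conjIdx_fib hγ hl)
    (fun l hl => C.conjIdx_fib hγ.inv hl)
    (fun l _ => by simpa using C.conjIdx_inv hγ.inv l) (fun l _ => C.conjIdx_inv hγ l)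
    fun l _ => ?_
  rw [C.fh_del, C.fh_conjIdx γ l, map_div₀]

end Ctx

namespace Pull

variable {q M0 N' : ℕ} [NeZero M0] [NeZero N'] [NeZero q] [Fact q.Prime]
variable {C : Ctx q M0 N'} {M' : ℕ} [NeZero M'] (P : Pull C M')

theorem fn_mov (hM' : M' ∣ N') {γ : SL(2, ℤ)} (hγ : C.Mov γ) (a : X0Fn.XA QA (q * M' * q)) :
    compg γ (P.fn a : ℍ → ℂ) = P.fn a := by
  obtain ⟨x, hx⟩ := a
  induction hx using Algebra.adjoin_induction with
  | mem y hy =>
    obtain ⟨_, ⟨d, hne, hd, rfl⟩, rfl⟩ := hy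
    have hd' : d ∣ q * q * M' := hd.trans (dvd_of_eq (by ring))
    have e : coeffEmb QA (qExpand ℚ d jq) = qExpand QA d (jqModC QA) := by
      rw [coeffEmb, coeffMap_qExpand, ← jqModC_rat, coeffMap_jqModC]
    simp only [e]
    rw [P.fn_gen hd']
    funext τ
    show jd q d (γ • τ) = jd q d τ
    refine jd_invariant' (dvd_mul_of_dvd_right hγ.q01 _) ?_ τ
    have hcop : IsCoprime ((q : ℕ) : ℤ) ((M' : ℕ) : ℤ) := by
      rw [Int.isCoprime_iff_nat_coprime]
      simpa using (C.hq.coprime_iff_not_dvd.2 fun h => C.hqm (h.trans P.hN))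
    have h4 : ((q * M' : ℕ) : ℤ) ∣ γ 1 0 := by
      push_cast
      exact hcop.mul_dvd hγ.q10 ((Int.natCast_dvd_natCast.2 hM').trans hγ.dN)
    refine (Int.natCast_dvd_natCast.2 hd').trans ?_
    push_cast at h4 ⊢
    rw [mul_assoc]
    exact mul_dvd_mul_left _ h4
  | algebraMap r =>
    rw [show (⟨algebraMap QA (LaurentSeries QA) r, _⟩ : X0Fn.XA QA (q * M' * q)) = algebraMap QA _ r from rfl,
      P.fn_algebraMap]
    rfl
  | add x y hx hy ihx ihy =>
    rw [show (⟨x + y, _⟩ : X0Fn.XA QA (q * M' * q)) = ⟨x, hx⟩ + ⟨y, hy⟩ from rfl]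
    simp only [map_add, Subring.coe_add, ihx, ihy]
  | mul x y hx hy ihx ihy =>
    rw [show (⟨x * y, _⟩ : X0Fn.XA QA (q * M' * q)) = ⟨x, hx⟩ * ⟨y, hy⟩ from rfl]
    simp only [map_mul, Subring.coe_mul, ihx, ihy]

theorem Theta_mov (hM' : M' ∣ N') {γ : SL(2, ℤ)} (hγ : C.Mov γ)
    (f : modularFunctionFieldBar (q * M' * q)) : P.Theta γ f = P.Theta 1 f := by
  obtain ⟨a, b, rfl⟩ := X0Fn.exists_incA_div f
  have h : ∀ c, P.big γ (P.fn c) = P.big 1 (P.fn c) := fun c => by
    have e : trComp γ (P.fn c) = trComp 1 (P.fn c) :=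
      Subtype.ext ((P.fn_mov hM' hγ c).trans (compg_one _).symm)
    simp only [Pull.big, RingHom.comp_apply, e]
  rw [map_div₀, map_div₀, P.Theta_incA, P.Theta_incA, P.Theta_incA, P.Theta_incA, h, h]

variable {k : Type} [Field k] [IsAlgClosed k] [IsNoetherianRing C.W] {Ω : Res C k}

/-- The moved point is reached by a move. -/
theorem nonempty_move (hM' : M' ∣ N') {γ : SL(2, ℤ)} (hγ : C.Mov γ) {p p' : Pt Ω}
    (h : (p.mov hγ).π = p'.π) : Nonempty (P.Move p p') := by
  refine ⟨⟨C.del Ω.fixed hγ, fun b z => C.del_Nf Ω.fixed hγ b z, fun z hz => ?_, fun a => ?_⟩⟩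
  · obtain ⟨f, hf⟩ := hz
    refine C.fh_injective 1 ?_
    rw [C.fh_one_del, P.fh_of_fix hf, P.Theta_mov hM' hγ, hf]
  · obtain ⟨⟨x, s⟩, hx⟩ := IsLocalization.surj p.ideal.primeCompl (p.movLoc hγ a)
    change p.movLoc hγ a * algebraMap C.R p.Loc s.1 = algebraMap C.R p.Loc x at hx
    refine ⟨x, s.1, fun h0 => s.2 (p.mem_ideal.2 h0), ?_, ?_⟩
    · obtain ⟨a', d, hd, ha⟩ := C.exists_mov_frac Ω.fixed hγ a
      have e : d * x = a' * s.1 := IsLocalization.injective p.Loc
        (Ideal.primeCompl_le_nonZeroDivisors p.ideal) (by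
          rw [map_mul (algebraMap C.R p.Loc), map_mul (algebraMap C.R p.Loc), ← hx,
            ← p.movLoc_spec hγ ha, mul_assoc])
      refine mul_left_cancel₀ (C.alg_ne hd) ?_
      rw [← map_mul (algebraMap C.R C.KR) d x, e, map_mul, mul_left_comm, mul_comm _ (algebraMap C.R C.KR s.1)]
      congr 1
      refine C.fh_injective 1 ?_
      rw [map_mul, C.fh_one_del, ← C.fh_alg_mul 1 γ ha, mul_one]
    · have h1 := congrArg p.πL hx
      rw [map_mul, p.πL_alg, p.πL_alg, mul_comm] at h1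
      rw [← h, p.mov_π, ← h1]

end Pull

end FLTAgent.Carayol
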