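import Fermat.Agent.Entry.Descent.Level
import Fermat.Agent.Entry.Descent.Moves

/-!
# Supersingular points with the same node are connected by a move

The product over the translates of a function of level `M₀ M'` vanishing at one supersingular point
separates it from the points not connected to it by a normalising element.
-/

set_option autoImplicit false
set_option linter.unusedSectionVars false
set_option linter.style.haveILetI false
set_option synthInstance.maxHeartbeats 400000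
set_option maxHeartbeats 1000000

noncomputable section

open UpperHalfPlane hiding I I_re I_im
open Function AlgebraicCurve ModularCurve IsLocalRing FLTAgent.ModEq FLTAgent.GoodModel
open FLTAgent.BadRed FLTAgent.Curves FLTAgent.Specialization
open FLTAgent.Lowering.P7 (fullCAlgebra laurentAlgebra x0BarAlgebra)
open CongruenceSubgroup (Gamma Gamma0)
open scoped MatrixGroups Manifold Classical

namespace FLTAgent.Carayol

local notation "QA" => AlgebraicClosure ℚ

namespace Ctx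

variable {q M0 N' : ℕ} [NeZero M0] [NeZero N'] [NeZero q] [Fact q.Prime] (C : Ctx q M0 N')

theorem mem_gamma0_of_mem {δ : SL(2, ℤ)} (hδ : δ ∈ Gamma (M0 * N')) : δ ∈ Gamma M0 := by
  rw [CongruenceSubgroup.Gamma_mem] at hδ ⊢
  obtain ⟨a, b, c, d⟩ := hδ
  have key : ∀ (x y : ℤ), (x : ZMod (M0 * N')) = (y : ZMod (M0 * N')) → (x : ZMod M0) = y := by
    intro x y h
    rw [ZMod.intCast_eq_intCast_iff_dvd_sub] at h ⊢
    exact (Int.natCast_dvd_natCast.2 (dvd_mul_right M0 N')).trans h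
  exact ⟨by simpa using key _ 1 (by simpa using a), by simpa using key _ 0 (by simpa using b),
    by simpa using key _ 0 (by simpa using c), by simpa using key _ 1 (by simpa using d)⟩

theorem eta_inv {δ : SL(2, ℤ)} (hδ : δ ∈ Gamma (M0 * N')) : compg δ C.eta = C.eta := by
  have hmem : δ ∈ Gamma M0 := mem_gamma0_of_mem hδ
  have hnz := (level_nz (n := M0 * N') C.hM rfl).2.2.2.2
  rw [eta, f0, compg_fvv (n := M0 * N') rfl hmem]
  refine (fvv_congr_iff C.hM rfl (hnz.vmul δ) hnz).2 (Or.inl ?_)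
  obtain ⟨-, -, c, d⟩ := CongruenceSubgroup.Gamma_mem.mp hδ
  exact ⟨by simpa [vmul] using c, by simpa [vmul] using d⟩

/-- The normalising elements modulo the level. -/
def MovCls : Type :=
  {x : SL(2, ZMod (M0 * N')) // ∃ γ, C.Mov γ ∧
    Matrix.SpecialLinearGroup.map (Int.castRingHom (ZMod (M0 * N'))) γ = x}

instance : Finite C.MovCls := by
  haveI : NeZero (M0 * N') := ⟨mul_ne_zero (NeZero.ne _) (NeZero.ne _)⟩
  unfold MovCls
  infer_instance

/-- A representative. -/
def movRep (x : C.MovCls) : SL(2, ℤ) := x.2.choose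

theorem mov_movRep (x : C.MovCls) : C.Mov (C.movRep x) := x.2.choose_spec.1

theorem map_movRep (x : C.MovCls) :
    Matrix.SpecialLinearGroup.map (Int.castRingHom (ZMod (M0 * N'))) (C.movRep x) = x.1 :=
  x.2.choose_spec.2

theorem compg_eq_of_map_eq {φ : ℍ → ℂ} (hφ : ∀ δ ∈ Gamma (M0 * N'), compg δ φ = φ)
    {γ γ' : SL(2, ℤ)}
    (h : Matrix.SpecialLinearGroup.map (Int.castRingHom (ZMod (M0 * N'))) γ =
      Matrix.SpecialLinearGroup.map (Int.castRingHom (ZMod (M0 * N'))) γ') :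
    compg γ φ = compg γ' φ := by
  have hd : γ' * γ⁻¹ ∈ Gamma (M0 * N') := by
    rw [CongruenceSubgroup.Gamma, MonoidHom.mem_ker, map_mul, map_inv, h]
    exact mul_inv_cancel _
  conv_lhs => rw [← hφ _ hd]
  rw [compg_compg, inv_mul_cancel_right]

/-- Translates by `Γ₀(N')` are translates by normalising elements. -/
theorem exists_mov_congr {g : SL(2, ℤ)} (hg : g ∈ Gamma0 N') :
    ∃ k, C.Mov k ∧ Matrix.SpecialLinearGroup.map (Int.castRingHom (ZMod (M0 * N'))) k =
      Matrix.SpecialLinearGroup.map (Int.castRingHom (ZMod (M0 * N'))) g := by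
  obtain ⟨k, hk, hk'⟩ := Lowering.P3.Levels.exists_congr (n := q) (l := M0 * N')
    (C.hq.coprime_iff_not_dvd.2 C.hqm) g
  have hmap : Matrix.SpecialLinearGroup.map (Int.castRingHom (ZMod (M0 * N'))) k =
      Matrix.SpecialLinearGroup.map (Int.castRingHom (ZMod (M0 * N'))) g := by
    rw [CongruenceSubgroup.Gamma, MonoidHom.mem_ker, map_mul, map_inv, inv_mul_eq_one] at hk'
    exact hk'
  obtain ⟨-, b, c, -⟩ := CongruenceSubgroup.Gamma_mem.mp hk
  refine ⟨k, ⟨?_, (ZMod.intCast_zmod_eq_zero_iff_dvd _ _).1 b,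
    (ZMod.intCast_zmod_eq_zero_iff_dvd _ _).1 c⟩, hmap⟩
  have h1 := congrArg (fun x : SL(2, ZMod (M0 * N')) => x 1 0) hmap
  simp only [Matrix.SpecialLinearGroup.map_apply_coe, RingHom.mapMatrix_apply, Matrix.map_apply,
    eq_intCast] at h1
  rw [ZMod.intCast_eq_intCast_iff_dvd_sub] at h1
  have h2 : (N' : ℤ) ∣ g 1 0 := (ZMod.intCast_zmod_eq_zero_iff_dvd _ _).1
    (CongruenceSubgroup.Gamma0_mem.mp hg)
  have h3 := dvd_sub h2 ((Int.natCast_dvd_natCast.2 (dvd_mul_left N' M0)).trans h1)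
  rwa [sub_sub_cancel] at h3

/-- The permutation of the classes by a normalising element. -/
def movPerm {k : SL(2, ℤ)} (hk : C.Mov k) : C.MovCls ≃ C.MovCls :=
  Equiv.ofBijective
    (fun x => ⟨x.1 * Matrix.SpecialLinearGroup.map (Int.castRingHom (ZMod (M0 * N'))) k,
      C.movRep x * k, (C.mov_movRep x).mul hk, by rw [map_mul, C.map_movRep]⟩)
    (Finite.injective_iff_bijective.1 fun x y h =>
      Subtype.ext (mul_right_cancel (congrArg Subtype.val h)))

end Ctx

namespace Model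

attribute [local instance 2000] fullCAlgebra laurentAlgebra x0BarAlgebra

variable {A : ValuationSubring QA} {q M0 M' : ℕ} [Fact q.Prime] [NeZero q] [NeZero M0]
  [NeZero M'] [NeZero (M' * q)] (hqM : ¬ q ∣ M') (hA : A.LiesOverPrime q)
  [IsAlgClosed (ResidueField A)] [CharP (ResidueField A) q]
  [Curves.IsFunctionField (ResidueField A) (modularFunctionFieldFullC (ResidueField A) M')]
  (m : Model A q M0 M' M') [IsNoetherianRing m.C.W]

local notation "kk" => ResidueField A
local notation "SS" => sheetAt hqM hA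

variable (N : Sheet.Nodes (sheetAt (q := q) hqM hA))

theorem movLoc_congr (p : Pt m.Ω) {γ γ' : SL(2, ℤ)} (hγ : m.C.Mov γ) (hγ' : m.C.Mov γ')
    {a : m.C.R} (h : compg γ (a : ℍ → ℂ) = compg γ' (a : ℍ → ℂ)) :
    p.movLoc hγ a = p.movLoc hγ' a := by
  have e : m.C.movEl γ a = m.C.movEl γ' a := Subtype.ext h
  have h1 := p.val_mov m.P hγ' a
  rw [← e] at h1
  exact p.val_unique m.P (p.val_mov m.P hγ a) h1

/-- Points with equal values are connected. -/
theorem exists_mov_of_vanish (E : Eqs m.Ω) {p p' : Pt m.Ω} (hp : p.π E.OmR = 0)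
    (hp' : p'.π E.OmR = 0) (h : ∀ G : admRing hqM hA, m.evPt hqM hA p G = 0 →
      m.evPt hqM hA p' G = 0) :
    ∃ (γ : SL(2, ℤ)) (hγ : m.C.Mov γ), (p'.mov hγ).π = p.π := by
  haveI : NeZero (M0 * M') := ⟨mul_ne_zero (NeZero.ne _) (NeZero.ne _)⟩
  letI : Fintype m.C.MovCls := Fintype.ofFinite _
  by_contra hne
  push Not at hne
  obtain ⟨wy, hwy⟩ := m.Ω.surjW (p.π m.C.yR)
  obtain ⟨we, hwe⟩ := m.Ω.surjW (p.π m.C.etaR)
  set Y : m.C.MovCls → kk := fun x => (p'.mov (m.C.mov_movRep x)).π m.C.yR - p.π m.C.yR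
  set Z : m.C.MovCls → kk := fun x => (p'.mov (m.C.mov_movRep x)).π m.C.etaR - p.π m.C.etaR
  obtain ⟨c0, hc0⟩ := Infinite.exists_notMem_finset (Finset.univ.image fun x => -(Y x / Z x))
  obtain ⟨w, hw⟩ := m.Ω.surjW c0
  set a : m.C.R := (m.C.yR - m.C.cW wy) + m.C.cW w * (m.C.etaR - m.C.cW we) with hadef
  have hφW : ∀ x : m.C.W, m.Ω.φW x = (m.Ω.φ.comp m.C.inc) x := fun _ => rfl
  have hπa : ∀ pt : Pt m.Ω, pt.π a =
      (pt.π m.C.yR - p.π m.C.yR) + c0 * (pt.π m.C.etaR - p.π m.C.etaR) := fun pt => by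
    simp only [hadef, map_add, map_sub, map_mul, pt.π_cW, hφW, hwy, hwe, hw]
  -- the function is of level `M₀ M'`
  have hconst : ∀ x : m.C.W, (fun _ : ℍ => (x : ℂ)) ∈ trRing m.C.W (M0 * M') := fun x =>
    mem_trRing.mpr fun σ => ⟨HahnSeries.C x, sPairs_const x⟩
  have hamem : (a : ℍ → ℂ) ∈ trRing m.C.W (M0 * M') := by
    rw [show (a : ℍ → ℂ) = (m.C.T - fun _ => (wy : ℂ)) + (fun _ => (w : ℂ)) *
      (m.C.eta - fun _ => (we : ℂ)) from rfl]
    exact add_mem (sub_mem (mem_trRing_of_level le_rfl (k := M') rfl m.C.T_mem0) (hconst _))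
      (mul_mem (hconst _) (sub_mem (m.C.node_mem0 m.C.eta_mem_nodes) (hconst _)))
  have hainv : ∀ δ ∈ Gamma (M0 * M'), compg δ (a : ℍ → ℂ) = a := fun δ hδ => by
    have hδ0 : δ ∈ Gamma M0 := Ctx.mem_gamma0_of_mem hδ
    rw [show (a : ℍ → ℂ) = (m.C.T - fun _ => (wy : ℂ)) + (fun _ => (w : ℂ)) *
      (m.C.eta - fun _ => (we : ℂ)) from rfl, map_add, map_sub, map_mul, map_sub,
      m.C.T_inv δ hδ0, m.C.eta_inv hδ]
    rfl
  -- the product over the translates
  set φ : ℍ → ℂ := ∏ x : m.C.MovCls, compg (m.C.movRep x) (a : ℍ → ℂ) with hφ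
  have hφmem : φ ∈ trRing m.C.W (M0 * M') :=
    prod_mem fun x _ => compg_mem_trRing hamem _
  have hφinv : ∀ g ∈ Gamma0 M', compg g φ = φ := fun g hg => by
    obtain ⟨k, hk, hkm⟩ := m.C.exists_mov_congr hg
    rw [hφ, map_prod]
    refine Fintype.prod_equiv (m.C.movPerm hk) _ _ fun x => ?_
    rw [compg_compg]
    refine Ctx.compg_eq_of_map_eq (M0 := M0) (N' := M') hainv ?_
    rw [map_mul, m.C.map_movRep, m.C.map_movRep, ← hkm]
    rfl
  obtain ⟨G, -, -, hG⟩ := m.exists_level_fn hqM hA hφmem hφinv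
  set Φ : trRing m.C.S (M0 * (M' * q)) := ∏ x : m.C.MovCls, m.C.movEl (m.C.movRep x) a
  have hΦ : (Φ : ℍ → ℂ) = φ := by
    rw [hφ]
    simp only [Φ, SubmonoidClass.coe_finsetProd, Ctx.coe_movEl]
  have hval : ∀ pt : Pt m.Ω,
      m.evPt hqM hA pt G = ∏ x : m.C.MovCls, (pt.mov (m.C.mov_movRep x)).π a := fun pt => by
    have h1 : (m.P.lev Φ, ∏ x : m.C.MovCls, pt.movLoc (m.C.mov_movRep x) a) ∈
        pt.valPairs m.P := by
      have h2 := prod_mem (S := pt.valPairs m.P) (t := Finset.univ)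
        (f := fun x : m.C.MovCls =>
          (m.P.lev (m.C.movEl (m.C.movRep x) a), pt.movLoc (m.C.mov_movRep x) a))
        fun x _ => pt.val_mov m.P _ a
      convert h2 using 1
      exact Prod.ext (by rw [Prod.fst_prod, map_prod]) (by rw [Prod.snd_prod])
    rw [hG Φ hΦ] at h1
    rw [evPt, RingHom.comp_apply, pt.val_unique m.P (m.evLoc_spec hqM hA pt G) h1, map_prod]
    rfl
  have hz : m.evPt hqM hA p G = 0 := by
    rw [hval]
    set x1 : m.C.MovCls := ⟨1, 1, Ctx.Mov.one, map_one _⟩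
    refine Finset.prod_eq_zero (Finset.mem_univ x1) ?_
    have e : compg (m.C.movRep x1) (a : ℍ → ℂ) = a := by
      rw [Ctx.compg_eq_of_map_eq (M0 := M0) (N' := M') hainv (γ' := 1) (by rw [m.C.map_movRep, map_one])]
      exact compg_one _
    rw [p.mov_π, p.movLoc_of_coe (m.C.mov_movRep x1) e, p.πL_alg, hπa]
    simp
  have h2 := h G hz
  rw [hval, Finset.prod_eq_zero_iff] at h2
  obtain ⟨x, -, hx⟩ := h2
  rw [hπa] at hx
  change Y x + c0 * Z x = 0 at hx
  rcases eq_or_ne (Z x) 0 with hz0 | hz0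
  · refine hne _ (m.C.mov_movRep x) ?_
    rw [hz0, mul_zero, add_zero] at hx
    exact (p'.mov _).eq_of_coord p E (p'.mov_ss _ E hp') hp (sub_eq_zero.1 hx) (sub_eq_zero.1 hz0)
  · refine hc0 (Finset.mem_image.2 ⟨x, Finset.mem_univ _, ?_⟩)
    rw [← neg_div, div_eq_iff hz0]
    linear_combination -hx

include N in
/-- **Supersingular points are classified by the nodes up to moves.** -/
theorem exists_cls (E : Eqs m.Ω) :
    ∃ cls : {p : Pt m.Ω // p.π E.OmR = 0} → Fin N.n,
      ∀ p p', cls p = cls p' → Nonempty (m.P.Move p.1 p'.1) := by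
  choose t ht using fun p : {p : Pt m.Ω // p.π E.OmR = 0} =>
    m.exists_node hqM hA N E p.1 p.2
  refine ⟨t, fun p p' he => ?_⟩
  obtain ⟨γ, hγ, h⟩ := m.exists_mov_of_vanish hqM hA E p'.2 p.2 fun G hG => by
    obtain ⟨y, hy⟩ := G.2.2.2
    rw [ht p G y hy, he, ← ht p' G y hy, hG]
  exact m.P.nonempty_move dvd_rfl hγ h

end Model

end FLTAgent.Carayol
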