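import Fermat.Agent.Entry.Descent.Rational

/-!
# A root on the cover kills the class

The character by which the normalising elements act on a root of a power of the function is
killed by both norms; so the root comes from level `q²M'`.
-/

set_option autoImplicit false
set_option linter.unusedSectionVars false
set_option linter.style.haveILetI false
set_option synthInstance.maxHeartbeats 400000
set_option maxHeartbeats 1000000

noncomputable section

open UpperHalfPlane hiding I I_re I_im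
open Function AlgebraicCurve ModularCurve IsLocalRing FLTAgent.ModEq FLTAgent.GoodModel
open scoped MatrixGroups Manifold Classical

namespace FLTAgent.Carayol

local notation "QA" => AlgebraicClosure ℚ

namespace Pull

variable {q M0 M' : ℕ} [NeZero M0] [NeZero M'] [NeZero q] [Fact q.Prime]
variable {C : Ctx q M0 M'} (P : Pull C M')

/-- A field element with `p`th power a constant is a constant. -/
theorem eq_const_of_pow {p : ℕ} (hp : p ≠ 0) {x : LaurentSeries ℂ} {c : QA}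
    (h : x ^ p = HahnSeries.C (P.κ c)) : ∃ d : QA, d ^ p = c ∧ x = HahnSeries.C (P.κ d) := by
  rcases eq_or_ne c 0 with rfl | hc
  · rw [map_zero, map_zero, pow_eq_zero_iff hp] at h
    exact ⟨0, zero_pow hp, by rw [h, map_zero, map_zero]⟩
  haveI : NeZero (p : QA) := ⟨Nat.cast_ne_zero.2 hp⟩
  haveI : NeZero p := ⟨hp⟩
  obtain ⟨d0, hd0⟩ := IsAlgClosed.exists_pow_nat_eq c (Nat.pos_of_ne_zero hp)
  obtain ⟨z, hz⟩ := HasEnoughRootsOfUnity.exists_primitiveRoot QA p
  set φ : QA →+* LaurentSeries ℂ := (HahnSeries.C : ℂ →+* LaurentSeries ℂ).comp P.κ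
  have hd : φ d0 ≠ 0 := (map_ne_zero φ).2 fun h0 => hc (by rw [← hd0, h0, zero_pow hp])
  obtain ⟨i, -, hi⟩ := (hz.map_of_injective (f := φ) φ.injective).eq_pow_of_pow_eq_one
    (ξ := x / φ d0) (by
      rw [div_pow, h, ← map_pow, hd0]
      exact div_self ((map_ne_zero φ).2 hc))
  refine ⟨d0 * z ^ i, by rw [mul_pow, hd0, ← pow_mul, mul_comm i, pow_mul, hz.pow_eq_one, one_pow,
    mul_one], ?_⟩
  show x = φ (d0 * z ^ i)
  rw [map_mul, map_pow, hi, mul_div_cancel₀ _ hd]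

theorem theta_incA_div {f : modularFunctionFieldBar (q * M' * q)} (hf : f ≠ 0) :
    ∃ u v : P.Fn, u ≠ 0 ∧ v ≠ 0 ∧ (∀ γ, P.big γ u = P.Theta γ f * P.big γ v) ∧
      ∀ γ, C.Mov γ → P.tr γ u = u ∧ P.tr γ v = v := by
  obtain ⟨a, b, rfl⟩ := X0Fn.exists_incA_div f
  have hb : b ≠ 0 := fun h => hf (by rw [h, map_zero, div_zero])
  have ha : a ≠ 0 := fun h => hf (by rw [h, map_zero, zero_div])
  refine ⟨P.fn a, P.fn b, (map_ne_zero_iff _ P.fn_injective).2 ha,
    (map_ne_zero_iff _ P.fn_injective).2 hb, fun γ => ?_, fun γ hγ =>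
      ⟨Subtype.ext (P.fn_mov dvd_rfl hγ a), Subtype.ext (P.fn_mov dvd_rfl hγ b)⟩⟩
  rw [map_div₀, P.Theta_incA, P.Theta_incA,
    div_mul_cancel₀ _ (P.fn_ne ((map_ne_zero_iff _ P.fn_injective).2 hb) γ)]

/-- The root is fixed by the normalising elements. -/
theorem mov_fix_of_norm {p E : ℕ} (hp : p.Prime) (hpq : p ≠ q)
    {f : modularFunctionFieldBar (q * M' * q)} (hf : f ≠ 0) {a b : P.Fn} (ha : a ∈ P.tripFn)
    (hb : b ∈ P.tripFn) (ha0 : a ≠ 0) (hb0 : b ≠ 0)
    (hab : P.big 1 a ^ p = P.Theta 1 f ^ E * P.big 1 b ^ p)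
    {g : modularFunctionFieldBar (q * M')} (hg : g ≠ 0) {c : QA}
    (hn : letI := algebraAlong (deg q M' false)
      Algebra.norm (modularFunctionFieldBar (q * M')) f =
        algebraMap QA (modularFunctionFieldBar (q * M')) c * g ^ p)
    {γ : SL(2, ℤ)} (hγ : C.Mov γ) : P.tr γ a * b = P.tr γ b * a := by
  haveI := P.isDomain_Fn
  -- the translate differs by a constant
  obtain ⟨u, v, hu, hv, huv, hmov⟩ := P.theta_incA_div hf
  have h1 : a ^ p * v ^ E = u ^ E * b ^ p := P.big_injective 1 (by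
    simp only [map_mul, map_pow, huv, hab]
    ring)
  have h2 := congrArg (P.tr γ) h1
  simp only [map_mul, map_pow, (hmov γ hγ).1, (hmov γ hγ).2] at h2
  have h3 : (P.tr γ a * b) ^ p * v ^ E = (P.tr γ b * a) ^ p * v ^ E := by
    rw [mul_pow, mul_pow]
    linear_combination b ^ p * h2 - (P.tr γ b) ^ p * h1
  have hY : P.big 1 (P.tr γ b * a) ≠ 0 := P.fn_ne (mul_ne_zero (P.tr_ne hb0 γ) ha0) 1
  obtain ⟨d, hd, hXY⟩ := P.eq_const_of_pow hp.ne_zero (c := 1)
    (x := P.big 1 (P.tr γ a * b) / P.big 1 (P.tr γ b * a)) (by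
      rw [div_pow, ← map_pow, ← map_pow, mul_right_cancel₀ (pow_ne_zero E hv) h3, map_one, map_one]
      exact div_self (by rw [map_pow]; exact pow_ne_zero _ hY))
  rw [div_eq_iff hY, ← P.big_cst 1 d, ← map_mul] at hXY
  have hX : P.tr γ a * b = P.cst d * (P.tr γ b * a) := P.big_injective 1 hXY
  -- the norm
  set s := C.fib false C.one'
  set An := ∏ l ∈ s, P.tr (C.rep l) a
  set Bn := ∏ l ∈ s, P.tr (C.rep l) b
  have hAn : An ≠ 0 := Finset.prod_ne_zero_iff.2 fun l _ => P.tr_ne ha0 _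
  have hBn : Bn ≠ 0 := Finset.prod_ne_zero_iff.2 fun l _ => P.tr_ne hb0 _
  set Φ := deg q M' false g
  have hnorm : ∏ l ∈ s, P.Theta (C.rep l) f = HahnSeries.C (P.κ c) * P.Theta 1 Φ ^ p := by
    rw [← P.Theta_norm false f, hn, map_mul, map_mul, AlgHom.commutes, map_pow, map_pow,
      P.Theta_algebraMap]
  have h4 : P.big 1 An ^ p =
      (HahnSeries.C (P.κ c) * P.Theta 1 Φ ^ p) ^ E * P.big 1 Bn ^ p := by
    rw [← hnorm, map_prod, map_prod, ← Finset.prod_pow, ← Finset.prod_pow, ← Finset.prod_pow,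
      ← Finset.prod_mul_distrib]
    refine Finset.prod_congr rfl fun l _ => ?_
    rw [P.big_one_tr, P.big_one_tr]
    have h5 := congrArg (P.big (C.rep l)) h1
    simp only [map_mul, map_pow, huv] at h5
    exact mul_right_cancel₀ (pow_ne_zero E (P.fn_ne hv (C.rep l))) (by rw [h5]; ring)
  have hΦ : P.Theta 1 Φ ≠ 0 := (map_ne_zero _).2 ((map_ne_zero _).2 hg)
  obtain ⟨y, -, hyT⟩ := P.eq_const_of_pow hp.ne_zero (c := c ^ E)
    (x := P.big 1 An / (P.big 1 Bn * P.Theta 1 Φ ^ E)) (by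
      rw [div_pow, div_eq_iff (pow_ne_zero _ (mul_ne_zero (P.fn_ne hBn 1) (pow_ne_zero _ hΦ))), h4,
        map_pow, map_pow]
      ring)
  rw [div_eq_iff (mul_ne_zero (P.fn_ne hBn 1) (pow_ne_zero _ hΦ))] at hyT
  set h' := algebraMap QA (modularFunctionFieldBar (q * M' * q)) y * Φ ^ E
  have hy0 : y ≠ 0 := fun h0 => P.fn_ne hAn 1 (by
    rw [hyT, h0, map_zero, map_zero, zero_mul])
  obtain ⟨u', v', hu', hv', huv', hmov'⟩ := P.theta_incA_div (f := h')
    (mul_ne_zero ((map_ne_zero _).2 hy0) (pow_ne_zero _ ((map_ne_zero _).2 hg)))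
  have h6 : An * v' = u' * Bn := P.big_injective 1 (by
    rw [map_mul, map_mul, huv', map_mul (P.Theta 1), map_pow, P.Theta_algebraMap, hyT]
    ring)
  have h7 := congrArg (P.tr γ) h6
  rw [map_mul, map_mul, (hmov' γ hγ).1, (hmov' γ hγ).2] at h7
  have h8 : P.tr γ An * Bn = P.tr γ Bn * An := mul_left_cancel₀ hv' (by
    linear_combination Bn * h7 - P.tr γ Bn * h6)
  have htr : ∀ w ∈ P.tripFn, P.tr γ (∏ l ∈ s, P.tr (C.rep l) w) =
      ∏ l ∈ s, P.tr (C.rep l) (P.tr γ w) := fun w hw => by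
    rw [map_prod]
    refine (Finset.prod_nbij' (C.conjIdx γ) (C.conjIdx γ⁻¹) (fun l hl => C.conjIdx_fib hγ hl)
      (fun l hl => C.conjIdx_fib hγ.inv hl)
      (fun l _ => by simpa using C.conjIdx_inv hγ.inv l) (fun l _ => C.conjIdx_inv hγ l)
      fun l _ => ?_).symm
    rw [P.tr_tr, P.tr_tr, P.tr_conjIdx hγ hw]
  have hcst : ∀ σ, P.tr σ (P.cst d) = P.cst d := fun σ => Subtype.ext rfl
  have h9 : P.tr γ An * Bn = P.cst d ^ q * (P.tr γ Bn * An) := by
    rw [htr a ha, htr b hb, ← Finset.prod_mul_distrib, ← Finset.prod_mul_distrib,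
      show P.cst d ^ q = ∏ l ∈ s, P.cst d by rw [Finset.prod_const, Ctx.card_fib],
      ← Finset.prod_mul_distrib]
    refine Finset.prod_congr rfl fun l _ => ?_
    have h10 := congrArg (P.tr (C.rep l)) hX
    simp only [map_mul, hcst] at h10
    exact h10
  rw [h8] at h9
  have h11 : P.cst d ^ q = 1 := mul_right_cancel₀ (mul_ne_zero (P.tr_ne hBn γ) hAn)
    (by rw [one_mul]; exact h9.symm)
  have hdq : d ^ q = 1 := by
    have h12 := congrArg (P.big 1) h11
    rw [map_pow, P.big_cst, map_one, ← map_pow, ← map_pow] at h12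
    exact P.κ.injective (HahnSeries.C_injective (h12.trans (by rw [map_one, map_one])))
  have hd1 : d = 1 := by
    have h13 := Nat.Coprime.gcd_eq_one ((Nat.coprime_primes hp (Fact.out : q.Prime)).2 hpq)
    have h14 := pow_gcd_eq_one.2 ⟨hd, hdq⟩
    rwa [h13, pow_one] at h14
  rw [hX, hd1, show P.cst (1 : QA) = 1 from P.big_injective 1 (by
    rw [P.big_cst, map_one, map_one, map_one]), one_mul]

end Pull

namespace Model

variable {A : ValuationSubring QA} {q M0 M' : ℕ} [Fact q.Prime] [NeZero q] [NeZero M0]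
  [NeZero M'] (m : Model A q M0 M' M')

/-- **Descent.** -/
theorem descends {p : ℕ} [Fact p.Prime] (hpq : p ≠ q) (hp1 : ¬ p ∣ q - 1) : m.Descends p := by
  intro f hf _ D hD hnorm G hG hGf
  have hp : p.Prime := Fact.out
  obtain ⟨a, ha, b, hb, hb0, hab⟩ := m.P.exists_tripFn_div hG
  have hG0 : G ≠ 0 := fun h0 => by
    rw [h0, zero_pow hp.ne_zero] at hGf
    exact pow_ne_zero _ ((map_ne_zero _).2 hf) hGf.symm
  have ha0 : a ≠ 0 := fun h0 => by
    rw [h0, map_zero, mul_eq_zero] at hab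
    exact hab.elim hG0 (m.P.fn_ne hb0 1)
  have habp : m.P.big 1 a ^ p = m.P.Theta 1 f ^ expS q * m.P.big 1 b ^ p := by
    rw [← hab, mul_pow, hGf]
  obtain ⟨g, hg, c, -, hn⟩ := hnorm false
  have hfix := fun γ (hγ : m.C.Mov γ) =>
    m.P.mov_fix_of_norm hp hpq hf ha hb ha0 hb0 habp hg hn hγ
  obtain ⟨x, hx, hκx⟩ : ∃ x : QA, IsPrimitiveRoot x (M0 * (M' * q) * q) ∧
      Kronecker.complexEmb x = zetaN (M0 * (M' * q) * q) := by
    haveI : NeZero (M0 * (M' * q) * q) := ⟨mul_ne_zero (mul_ne_zero (NeZero.ne _)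
      (mul_ne_zero (NeZero.ne _) (NeZero.ne _))) (NeZero.ne _)⟩
    exact exists_preimage_zetaN _
  have hn0 : M0 * (M' * q) * q ≠ 0 := mul_ne_zero (mul_ne_zero (NeZero.ne _)
    (mul_ne_zero (NeZero.ne _) (NeZero.ne _))) (NeZero.ne _)
  set ζ : (m.P.κ.range)ˣ := Units.ofPowEqOne ⟨m.P.κ x, x, rfl⟩ (M0 * (M' * q) * q)
    (Subtype.ext (by
      push_cast
      rw [← map_pow, hx.pow_eq_one, map_one])) hn0
  obtain ⟨z, hz⟩ := m.P.exists_theta_eq ζ (by
    show (m.P.κ x : ℂ) = _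
    rw [m.hκ]
    exact hκx) ha hb hb0 hfix
  have hGz : G = m.P.Theta 1 z :=
    mul_right_cancel₀ (m.P.fn_ne hb0 1) (hab.trans hz.symm)
  have hz0 : z ≠ 0 := fun h0 => hG0 (by rw [hGz, h0, map_zero])
  have hzp : z ^ p = f ^ expS q := (m.P.Theta 1).injective (by rw [map_pow, map_pow, ← hGz, hGf])
  have hE : expS q • Pic0.mk D = 0 := by
    rw [← Kronecker.pic0_mk_nsmul]
    refine (QuotientAddGroup.eq_zero_iff _).2 ⟨z, hz0, fun v => ?_⟩
    have h1 := congrArg v.ord hzp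
    rw [Curves.ord_pow, Curves.ord_pow, ← hD v] at h1
    have h2 : v.ord z = ((expS q : ℕ) : ℤ) * (D : Divisor QA _) v :=
      mul_left_cancel₀ (Int.natCast_ne_zero.2 hp.ne_zero) (by rw [h1]; ring)
    rw [h2]
    simp
  have hpD : p • Pic0.mk D = 0 := by
    rw [← Kronecker.pic0_mk_nsmul]
    refine (QuotientAddGroup.eq_zero_iff _).2 ⟨f, hf, fun v => ?_⟩
    rw [← hD v]
    simp
  have hcop : Nat.Coprime (expS q) p :=
    Nat.Coprime.mul_left ((hp.coprime_iff_not_dvd.2 hp1).symm) ((hp.coprime_iff_not_dvd.2 hp1).symm)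
  have h3 := AddMonoid.addOrderOf_eq_one_iff (x := Pic0.mk D)
  refine h3.1 (Nat.eq_one_of_dvd_coprimes hcop ?_ ?_) <;>
    exact addOrderOf_dvd_iff_nsmul_eq_zero.2 (by assumption)

end Model

end FLTAgent.Carayol
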