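import Fermat.Agent.BadRed.Galois
import Fermat.Agent.BadRed.Symmetry
import Fermat.Agent.BadRed.Top
import Fermat.Agent.BadRed.Integral
import Fermat.Agent.X0Fn.Field
import Fermat.Agent.Lowering.P7.Shortcuts
import Fermat.Agent.Places.Basic

/-!
# Integral functions on the two sheets and their norms under inertia

A function regular off the poles of `X` with reductions on both sheets satisfies a monic equation
with coefficients in `A[X]`; the product over its finitely many conjugates under inertia is fixed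
by inertia and has the powers of its reductions as reductions.
-/

set_option autoImplicit false
set_option linter.style.haveILetI false
set_option linter.unusedSectionVars false
set_option synthInstance.maxHeartbeats 400000
set_option maxHeartbeats 1000000

noncomputable section

open AlgebraicCurve ModularCurve IsLocalRing
open FLTAgent.Lowering.P7 (fullCAlgebra laurentAlgebra x0BarAlgebra)

namespace FLTAgent.BadRed

open FLTAgent.Curves FLTAgent.Specialization Polynomial IntermediateField

namespace Sheet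

variable {L k : Type*} [Field L] [Field k] {A : ValuationSubring L} {π : A →+* k}
  {FC Fb F : Type*} [Field FC] [Field Fb] [Field F] [Algebra L FC]
  [Algebra k Fb] [Algebra L F] [IsAlgClosed L] [IsFunctionField L FC] [IsFunctionField L F]
  [IsAlgClosed k] [IsFunctionField k Fb] {q : ℕ} (S : Sheet π FC Fb F q)

/-- Evaluation of integral polynomials at the coordinate. -/
def evA : A[X] →+* F := eval₂RingHom ((algebraMap L F).comp A.subtype) S.X

theorem evA_eq (p : A[X]) : S.evA p = aeval S.X (p.map A.subtype) := by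
  rw [evA, coe_eval₂RingHom, aeval_def, eval₂_map]

/-- Integral elements over `A[X]` are regular off the poles of `X`. -/
theorem integralWrt_of_isInt {f : F} (h : S.evA.IsIntegralElem f) : IntegralWrt L S.X f := by
  obtain ⟨P, hP, h0⟩ := h
  refine integralWrt_of_relation (n := P.natDegree) (p := fun i => (P.coeff i).map A.subtype) ?_
  rw [eval₂_eq_sum_range, Finset.sum_range_succ, hP.coeff_natDegree, map_one, one_mul] at h0
  rw [add_comm]
  refine Eq.trans ?_ h0
  congr 1
  exact Finset.sum_congr rfl fun i _ => by rw [evA_eq]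

/-- Regular functions with reductions on both sheets are integral over `A[X]`. -/
theorem isInt_of_integralWrt {f : F} (hf : IntegralWrt L S.X f) {g : Fb × Fb}
    (h : (S.pair 1).Res f g) : S.evA.IsIntegralElem f := by
  classical
  obtain ⟨e, he⟩ := S.exists_idempotent
  have he' : (S.pair 1).Res (1 - e) (0, 1) := by
    have := LRed.res_sub S.pair_one he
    convert this using 1
    exact Prod.ext (by simp) (by simp)
  obtain ⟨v, w, hG⟩ := S.exists_goodBasis_of he he'
  have hxL := S.transcendental_X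
  haveI := finiteDimensional_adjoin (K := L) (F := F) hxL
  obtain ⟨B⟩ := nonempty_reducedBasis (K := L) hxL
  let b : Module.Basis S.Idx L⟮S.X⟯ F :=
    Module.Basis.mk (hG.linearIndependent S) (hG.span_eq_top S).ge
  let T : F →ₗ[L⟮S.X⟯] F := Algebra.lmul L⟮S.X⟯ F f
  let φα : L⟮S.MC.x⟯ →+* L⟮S.X⟯ := RingHom.codRestrict
    (S.α.toRingHom.comp (algebraMap L⟮S.MC.x⟯ FC)) L⟮S.X⟯ fun a => (S.mem_adjoin_X).2 ⟨a, rfl⟩
  have hent : ∀ i j, ∃ a : L⟮S.MC.x⟯, (a : FC) ∈ S.MC.O ∧
      LinearMap.toMatrix b b T i j = φα a := by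
    intro i j
    choose a ha using fun l => (S.mem_adjoin_X).1 (b.repr (T (b j)) l).2
    refine ⟨a i, hG.coord_mem S ?_ i, Subtype.ext ?_⟩
    · have hsum : ∑ l, S.α (a l) * v l = f * v j := by
        have := b.sum_repr (T (b j))
        simpa [ha, b, T, IntermediateField.smul_def] using this
      rw [hsum]
      have := S.pair_mul h (hG.1 j)
      rw [one_mul] at this
      exact ⟨_, this⟩
    · rw [LinearMap.toMatrix_apply]; exact (ha i).symm
  choose M₀ hM₀ hM using hent
  set O₀ : Subring L⟮S.MC.x⟯ := S.MC.O.comap (algebraMap L⟮S.MC.x⟯ FC)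
  let M₁ : Matrix S.Idx S.Idx O₀ := Matrix.of fun i j => ⟨M₀ i j, hM₀ i j⟩
  set χ := T.charpoly with hχdef
  have hχ : χ = M₁.charpoly.map (φα.comp O₀.subtype) := by
    rw [hχdef, ← LinearMap.charpoly_toMatrix T b, ← Matrix.charpoly_map]
    exact congrArg Matrix.charpoly (Matrix.ext hM)
  let φ : L[X] →ₐ[L] L⟮S.X⟯ := aeval (AdjoinSimple.gen L S.X)
  have hpoly : ∀ i, ∃ p : L[X], (χ.coeff i : F) = aeval S.X p := by
    have hp : ∀ i j, ∃ p : L[X],
        (LinearMap.toMatrix (B.wBasis hxL) (B.wBasis hxL) T) i j = φ p := by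
      intro i j
      obtain ⟨p, hp⟩ := B.exists_polynomial_coord hxL (f := f * B.w j) fun v hv => by
        simpa using (hf v hv).mul (B.integral j v hv)
      refine ⟨p i, Subtype.ext ?_⟩
      rw [LinearMap.toMatrix_apply, ReducedBasis.coe_wBasis]
      have h2 : (φ (p i) : F) = aeval S.X (p i) := by
        simpa [φ] using (aeval_algHom_apply L⟮S.X⟯.val (AdjoinSimple.gen L S.X) (p i)).symm
      rw [h2, ← hp i]
      rfl
    choose p hp using hp
    intro i
    refine ⟨(Matrix.of p).charpoly.coeff i, ?_⟩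
    rw [hχdef, ← LinearMap.charpoly_toMatrix T (B.wBasis hxL),
      show LinearMap.toMatrix (B.wBasis hxL) (B.wBasis hxL) T = (Matrix.of p).map φ.toRingHom from
        Matrix.ext hp, Matrix.charpoly_map, coeff_map]
    simpa [φ] using (aeval_algHom_apply L⟮S.X⟯.val (AdjoinSimple.gen L S.X) _).symm
  have hq : ∀ i, ∃ p : A[X], (χ.coeff i : F) = S.evA p := fun i => by
    obtain ⟨p, hp⟩ := hpoly i
    set a := M₁.charpoly.coeff i
    have h1 : (χ.coeff i : F) = S.α ((a : L⟮S.MC.x⟯) : FC) := by rw [hχ, coeff_map]; rfl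
    have h2 : ((a : L⟮S.MC.x⟯) : FC) = aeval S.MC.x p :=
      S.α.toRingHom.injective (show S.α _ = S.α _ by
        rw [← h1, hp, X, aeval_algHom_apply])
    have hm : aeval S.MC.x p ∈ S.MC.O := h2 ▸ a.2
    rw [Reduction.aeval_eq_sum_fin] at hm
    have hco := Reduction.coord_mem (Reduction.compat_base S.MC.surj _)
      (fun i : Fin (p.natDegree + 1) => S.MC.x_res.pow i) (Reduction.base_total S.MC.surj)
      (Reduction.linearIndependent_pow_res S.MC.transcendental _)
      (a := fun i : Fin (p.natDegree + 1) => p.coeff i) hm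
    obtain ⟨p', hp'⟩ : ∃ p' : A[X], p'.map A.subtype = p := by
      refine (Polynomial.mem_map_range A.subtype).2 fun j => ?_
      by_cases hj : j < p.natDegree + 1
      · exact ⟨⟨p.coeff j, hco ⟨j, hj⟩⟩, rfl⟩
      · rw [coeff_eq_zero_of_natDegree_lt (by omega)]
        exact zero_mem _
    exact ⟨p', by rw [evA_eq, hp', hp]⟩
  choose p hp using hq
  have hCH : aeval f χ = 0 := by
    have h1 : Algebra.lmul L⟮S.X⟯ F (aeval f χ) = 0 := by
      rw [← aeval_algHom_apply, hχdef]
      exact LinearMap.aeval_self_charpoly T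
    simpa using LinearMap.congr_fun h1 1
  have hlc : (χ.coeff χ.natDegree : F) = 1 := by
    rw [show χ.coeff χ.natDegree = 1 from (LinearMap.charpoly_monic T).coeff_natDegree]; rfl
  rw [aeval_eq_sum_range, Finset.sum_range_succ] at hCH
  simp only [IntermediateField.smul_def, smul_eq_mul, hlc, one_mul] at hCH
  set n := χ.natDegree
  refine ⟨Polynomial.X ^ n + ∑ i : Fin n, Polynomial.C (p i) * Polynomial.X ^ (i : ℕ),
    Polynomial.monic_X_pow_add ((Polynomial.degree_sum_fin_lt _)), ?_⟩
  rw [eval₂_add, eval₂_pow, eval₂_X, eval₂_finsetSum, add_comm]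
  refine Eq.trans ?_ hCH
  congr 1
  rw [Finset.sum_range]
  exact Finset.sum_congr rfl fun i _ => by rw [eval₂_mul, eval₂_pow, eval₂_X, eval₂_C, hp]

/-- A power of a function reducing to zero on both sheets is divisible by any given constant. -/
theorem exists_pow_smul {f : F} (hf : IntegralWrt L S.X f) (h : (S.pair 1).Res f 0) {ϖ : L}
    (hϖ : ϖ ≠ 0) : ∃ (N : ℕ) (f' : F) (g : Fb × Fb), N ≠ 0 ∧ IntegralWrt L S.X f' ∧
      (S.pair 1).Res f' g ∧ f ^ N = ϖ • f' := by
  rcases eq_or_ne f 0 with rfl | hf0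
  · exact ⟨1, 0, 0, one_ne_zero, hf, (S.pair 1).res_zero, by simp⟩
  obtain ⟨c, g, hg, hc⟩ := LRed.exists_scale S.orth_one S.MC.surj hf0
  have hcA : c ∉ A := fun hmem => hg (by
    have h1 := (S.pair 1).res_smul ⟨c, hmem⟩ h
    rw [smul_zero] at h1
    exact (S.pair 1).unique hc h1)
  have hc0 : c ≠ 0 := fun e => hcA (e ▸ A.zero_mem)
  have hti : c⁻¹ ∈ A := (A.mem_or_inv_mem c).resolve_left hcA
  obtain ⟨N, hN, -⟩ := S.arch ⟨c⁻¹, hti⟩ ϖ⁻¹
    (Reduction.map_eq_zero_of_inv_notMem S.MC.surj (by simpa using hcA))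
  set a : A := ⟨ϖ⁻¹ * c⁻¹ ^ (N + 1), by
    rw [pow_succ, ← mul_assoc]; exact A.mul_mem _ _ hN hti⟩
  have hp : (S.pair 1).Res ((c • f) ^ (N + 1)) (g ^ (N + 1)) := by
    simpa using S.pair_pow hc (N + 1)
  refine ⟨N + 1, (a : L) • (c • f) ^ (N + 1), π a • g ^ (N + 1), Nat.succ_ne_zero N, ?_,
    (S.pair 1).res_smul a hp, ?_⟩
  · rw [Algebra.smul_def, Algebra.smul_def c]
    exact integralWrt_mul (integralWrt_algebraMap _ _)
      (integralWrt_pow (integralWrt_mul (integralWrt_algebraMap _ _) hf) _)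
  · show _ = ϖ • ((ϖ⁻¹ * c⁻¹ ^ (N + 1)) • (c • f) ^ (N + 1))
    rw [_root_.smul_pow, smul_smul, smul_smul, ← mul_assoc, mul_inv_cancel₀ hϖ, one_mul, ← mul_pow,
      inv_mul_cancel₀ hc0, one_pow, one_smul]

end Sheet

/-! ### Orbits -/

section Orbit

variable {G B : Type*} [CommRing B] (ψ : G → (B →+* B))

/-- A finite orbit. -/
def FinOrb (b : B) : Prop := (Set.range fun g => ψ g b).Finite

theorem FinOrb.add {a b : B} (ha : FinOrb ψ a) (hb : FinOrb ψ b) : FinOrb ψ (a + b) :=
  (Set.Finite.image2 (· + ·) ha hb).subset (by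
    rintro _ ⟨g, rfl⟩
    exact ⟨_, ⟨g, rfl⟩, _, ⟨g, rfl⟩, (map_add (ψ g) a b).symm⟩)

theorem FinOrb.mul {a b : B} (ha : FinOrb ψ a) (hb : FinOrb ψ b) : FinOrb ψ (a * b) :=
  (Set.Finite.image2 (· * ·) ha hb).subset (by
    rintro _ ⟨g, rfl⟩
    exact ⟨_, ⟨g, rfl⟩, _, ⟨g, rfl⟩, (map_mul (ψ g) a b).symm⟩)

theorem FinOrb.of_fixed {b : B} (h : ∀ g, ψ g b = b) : FinOrb ψ b :=
  (Set.finite_singleton b).subset (by rintro _ ⟨g, rfl⟩; exact h g)

theorem FinOrb.pow {a : B} (ha : FinOrb ψ a) : ∀ n : ℕ, FinOrb ψ (a ^ n)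
  | 0 => by rw [pow_zero]; exact FinOrb.of_fixed ψ fun g => map_one (ψ g)
  | n + 1 => by rw [pow_succ]; exact FinOrb.mul ψ (FinOrb.pow ha n) ha

/-- The product over a finite orbit is fixed. -/
theorem exists_orbit_prod [Group G] (hψ : ∀ g g' b, ψ g (ψ g' b) = ψ (g * g') b)
    (hψ1 : ∀ b, ψ 1 b = b) {b : B} (hb : FinOrb ψ b) :
    b ∈ hb.toFinset ∧ ∀ g, ψ g (∏ x ∈ hb.toFinset, x) = ∏ x ∈ hb.toFinset, x := by
  classical
  refine ⟨hb.mem_toFinset.2 ⟨1, hψ1 b⟩, fun g => ?_⟩
  have hinj : Function.Injective (ψ g) := fun x y h => by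
    have h1 := congrArg (ψ g⁻¹) h
    rwa [hψ, hψ, inv_mul_cancel, hψ1, hψ1] at h1
  have himg : hb.toFinset.image (ψ g) = hb.toFinset := by
    refine Finset.eq_of_subset_of_card_le (fun x hx => ?_)
      (Finset.card_image_of_injective _ hinj).ge
    obtain ⟨y, hy, rfl⟩ := Finset.mem_image.1 hx
    obtain ⟨g', rfl⟩ := hb.mem_toFinset.1 hy
    exact hb.mem_toFinset.2 ⟨g * g', (hψ g g' b).symm⟩
  rw [map_prod]
  conv_rhs => rw [← himg]
  rw [Finset.prod_image fun x _ y _ h => hinj h]

end Orbit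

/-! ### The modular sheets -/

section Modular

local notation "QA" => AlgebraicClosure ℚ
local notation "GG" => (AlgebraicClosure ℚ ≃ₐ[ℚ] AlgebraicClosure ℚ)

attribute [local instance 2000] fullCAlgebra laurentAlgebra x0BarAlgebra

variable {q : ℕ} [Fact q.Prime] [NeZero q] {M : ℕ} [NeZero M] [NeZero (M * q)] (hqM : ¬ q ∣ M)
  {A : ValuationSubring QA} [IsAlgClosed (ResidueField A)] [CharP (ResidueField A) q]
  [Curves.IsFunctionField (ResidueField A) (modularFunctionFieldFullC (ResidueField A) M)]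
  (hA : A.LiesOverPrime q)

local notation "kk" => ResidueField A
local notation "galN" => arithmeticGalois (modularFunctionFieldFull (M * q))

/-- Functions fixed by inertia. -/
def InertiaFixed (A : ValuationSubring QA) (f : X0Bar (M * q)) : Prop :=
  ∀ g : A.inertiaSubgroup ℚ, galN ((g : A.decompositionSubgroup ℚ) : GG) • f = f

theorem coeff_mem_of_fixed {f : X0Bar (M * q)} (h : InertiaFixed A f) {σ : GG}
    (hσ : σ ∈ A.inertiaSubgroupIn ℚ) (i : ℤ) :
    σ ((f : LaurentSeries QA).coeff i) = (f : LaurentSeries QA).coeff i := by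
  obtain ⟨g, hg, rfl⟩ := Subgroup.mem_map.1 hσ
  have h1 : coeffMap ((((g : A.decompositionSubgroup ℚ) : GG)) : QA →+* QA) (f : LaurentSeries QA) =
      (f : LaurentSeries QA) := by
    rw [← coe_arithmeticGalois_smul, h ⟨g, hg⟩]
  exact congrArg (fun z : LaurentSeries QA => z.coeff i) h1

/-- The conjugates of a modular function are finitely many. -/
theorem finite_conjugates (f : X0Bar (M * q)) :
    (Set.range fun σ : GG => coeffMap (σ : QA →+* QA) (f : LaurentSeries QA)).Finite := by
  have key : ∀ x ∈ X0Fn.XF QA (M * q),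
      FinOrb (fun σ : GG => coeffMap (σ : QA →+* QA)) x := by
    intro x hx
    rw [X0Fn.XF_eq_adjoin] at hx
    induction hx using IntermediateField.adjoin_induction with
    | mem y hy =>
      obtain ⟨z, -, rfl⟩ := hy
      refine FinOrb.of_fixed _ fun σ => ?_
      rw [coeffEmb, coeffMap_coeffMap]
      exact coeffMap_congr (RingHom.ext fun r => σ.commutes r) _
    | algebraMap c =>
      refine ((((minpoly ℚ c).rootSet_finite QA).image
        (algebraMap QA (LaurentSeries QA)))).subset ?_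
      rintro _ ⟨σ, rfl⟩
      refine ⟨σ c, ?_, ?_⟩
      · refine Polynomial.mem_rootSet.2
          ⟨minpoly.ne_zero ((AlgebraicClosure.isAlgebraic ℚ).isAlgebraic c).isIntegral, ?_⟩
        refine (Polynomial.aeval_algHom_apply (σ : QA →ₐ[ℚ] QA) c _).trans ?_
        rw [minpoly.aeval, map_zero]
      · beta_reduce
        rw [algebraMap_laurentSeries_eq_single, algebraMap_laurentSeries_eq_single, coeffMap_single]
        rfl
    | add a b _ _ ha hb => exact FinOrb.add _ ha hb
    | inv a _ ha =>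
      refine (ha.image (·⁻¹)).subset ?_
      rintro _ ⟨σ, rfl⟩
      exact ⟨_, ⟨σ, rfl⟩, (map_inv₀ (coeffMap (σ : QA →+* QA)) a).symm⟩
    | mul a b _ _ ha hb => exact FinOrb.mul _ ha hb
  exact key _ f.2

/-- The action of inertia on integral constants. -/
def inA (g : A.inertiaSubgroup ℚ) : A →+* A :=
  MulSemiringAction.toRingHom (A.decompositionSubgroup ℚ) A (g : A.decompositionSubgroup ℚ)

theorem coe_inA (g : A.inertiaSubgroup ℚ) (a : A) :
    ((inA g a : A) : QA) = ((g : A.decompositionSubgroup ℚ) : GG) a := rfl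

theorem galN_evA (g : A.inertiaSubgroup ℚ) (p : A[X]) :
    galN ((g : A.decompositionSubgroup ℚ) : GG) • (sheetAt hqM hA).evA p =
      (sheetAt hqM hA).evA (p.map (inA g)) := by
  set S := sheetAt hqM hA
  set σ := galN ((g : A.decompositionSubgroup ℚ) : GG)
  have hσX : σ • S.X = S.X := (symAt hqM hA (g : A.decompositionSubgroup ℚ)).σX
  show SemilinearAut.toRingAut σ (S.evA p) = _
  rw [Sheet.evA, coe_eval₂RingHom, eval₂_map, ← RingEquiv.coe_toRingHom, Polynomial.hom_eval₂]
  congr 1
  refine RingHom.ext fun a => ?_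
  show σ • algebraMap QA (X0Bar (M * q)) (a : QA) = _
  rw [SemilinearAut.smul_algebraMap]
  rfl

theorem res_galN (g : A.inertiaSubgroup ℚ) {f : X0Bar (M * q)}
    {y : modularFunctionFieldFullC kk M × modularFunctionFieldFullC kk M}
    (h : ((sheetAt hqM hA).pair 1).Res f y) :
    ((sheetAt hqM hA).pair 1).Res (galN ((g : A.decompositionSubgroup ℚ) : GG) • f) y := by
  have h2 := h.2
  rw [one_smul] at h2
  have e := symAt_inertia hqM hA (g := (g : A.decompositionSubgroup ℚ)) g.2
  have r1 := (symAt hqM hA (g : A.decompositionSubgroup ℚ)).res₁ _ _ h.1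
  have r2 := (symAt hqM hA (g : A.decompositionSubgroup ℚ)).res₂ _ _ h2
  rw [e] at r1 r2
  exact ⟨r1, by rw [one_smul]; exact r2⟩

/-- An integral function satisfies a monic equation with coefficients fixed by inertia. -/
theorem exists_fixed_poly {f : X0Bar (M * q)} (hf : IntegralWrt QA (sheetAt hqM hA).X f)
    {y : modularFunctionFieldFullC kk M × modularFunctionFieldFullC kk M}
    (h : ((sheetAt hqM hA).pair 1).Res f y) :
    ∃ Q : Polynomial A[X], Q.Monic ∧ Q.eval₂ (sheetAt hqM hA).evA f = 0 ∧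
      ∀ i j, ∀ σ ∈ A.inertiaSubgroupIn ℚ, σ (((Q.coeff i).coeff j : A) : QA) =
        (((Q.coeff i).coeff j : A) : QA) := by
  classical
  obtain ⟨P, hP, hP0⟩ := (sheetAt hqM hA).isInt_of_integralWrt hf h
  set ψ : A.inertiaSubgroup ℚ → (Polynomial A[X] →+* Polynomial A[X]) := fun g =>
    mapRingHom (mapRingHom (inA g))
  have hA' : ∀ a : A, FinOrb (inA (A := A)) a := fun a => by
    refine ((((minpoly ℚ (a : QA)).rootSet_finite QA).preimage
      Subtype.val_injective.injOn)).subset ?_
    rintro _ ⟨g, rfl⟩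
    rw [Set.mem_preimage, coe_inA]
    refine Polynomial.mem_rootSet.2
      ⟨minpoly.ne_zero ((AlgebraicClosure.isAlgebraic ℚ).isAlgebraic _).isIntegral, ?_⟩
    refine (Polynomial.aeval_algHom_apply
      (((g : A.decompositionSubgroup ℚ) : GG) : QA →ₐ[ℚ] QA) (a : QA) _).trans ?_
    rw [minpoly.aeval, map_zero]
  have hB : ∀ p : A[X], FinOrb (fun g => mapRingHom (inA (A := A) g)) p := fun p => by
    induction p using Polynomial.induction_on' with
    | add a b ha hb => exact FinOrb.add _ ha hb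
    | monomial n a =>
      refine ((hA' a).image (monomial n)).subset ?_
      rintro _ ⟨g, rfl⟩
      exact ⟨_, ⟨g, rfl⟩, by simp⟩
  have hC : FinOrb ψ P := by
    clear hP hP0
    induction P using Polynomial.induction_on' with
    | add a b ha hb => exact FinOrb.add _ ha hb
    | monomial n a =>
      refine ((hB a).image (monomial n)).subset ?_
      rintro _ ⟨g, rfl⟩
      exact ⟨_, ⟨g, rfl⟩, by simp [ψ]⟩
  have hA1 : ∀ (g g' : A.inertiaSubgroup ℚ) (a : A), inA g (inA g' a) = inA (g * g') a := fun g g' a =>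
    Subtype.ext rfl
  obtain ⟨hmem, hfix⟩ := exists_orbit_prod (G := A.inertiaSubgroup ℚ) (B := Polynomial A[X]) ψ
    (fun g g' (b : Polynomial A[X]) => by
      show (b.map _).map _ = b.map _
      rw [Polynomial.map_map, mapRingHom_comp]
      exact congrArg (fun φ => b.map (mapRingHom φ)) (RingHom.ext (hA1 g g')))
    (fun (b : Polynomial A[X]) => by
      show b.map _ = b
      rw [show inA (1 : A.inertiaSubgroup ℚ) = RingHom.id A from RingHom.ext fun a => Subtype.ext rfl,
        mapRingHom_id, Polynomial.map_id])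
    hC
  refine ⟨∏ x ∈ hC.toFinset, x, monic_prod_of_monic _ _ fun x hx => ?_, ?_, fun i j σ hσ => ?_⟩
  · obtain ⟨g, rfl⟩ := hC.mem_toFinset.1 hx
    exact hP.map _
  · rw [eval₂_finsetProd]
    exact Finset.prod_eq_zero hmem hP0
  · obtain ⟨g, hg, rfl⟩ := Subgroup.mem_map.1 hσ
    have h1 := congrArg (fun Q : Polynomial A[X] => ((Q.coeff i).coeff j : QA)) (hfix ⟨g, hg⟩)
    simp only [ψ, coe_mapRingHom, Polynomial.coeff_map, coe_inA] at h1
    exact h1

/-- The norm under inertia of a regular function with two reductions. -/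
theorem exists_fixed_norm {f : X0Bar (M * q)} (hf : IntegralWrt QA (sheetAt hqM hA).X f)
    {y : modularFunctionFieldFullC kk M × modularFunctionFieldFullC kk M}
    (h : ((sheetAt hqM hA).pair 1).Res f y) :
    ∃ (e : ℕ) (N : X0Bar (M * q)), e ≠ 0 ∧ InertiaFixed A N ∧
      IntegralWrt QA (sheetAt hqM hA).X N ∧ ((sheetAt hqM hA).pair 1).Res N (y ^ e) := by
  classical
  set S := sheetAt hqM hA
  set ψ : A.inertiaSubgroup ℚ → (X0Bar (M * q) →+* X0Bar (M * q)) := fun g =>
    (SemilinearAut.toRingAut (galN ((g : A.decompositionSubgroup ℚ) : GG))).toRingHom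
  have hfin : FinOrb ψ f := by
    refine Set.Finite.of_finite_image (f := Subtype.val) ((finite_conjugates f).subset ?_)
      Subtype.val_injective.injOn
    rintro _ ⟨_, ⟨g, rfl⟩, rfl⟩
    exact ⟨((g : A.decompositionSubgroup ℚ) : GG), (coe_arithmeticGalois_smul _ _ _).symm⟩
  obtain ⟨hmem, hfix⟩ := exists_orbit_prod ψ
    (fun g g' (b : X0Bar (M * q)) => by
      show galN ((g : A.decompositionSubgroup ℚ) : GG) •
          galN ((g' : A.decompositionSubgroup ℚ) : GG) • b =
        galN (((g * g' : A.inertiaSubgroup ℚ) : A.decompositionSubgroup ℚ) : GG) • b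
      rw [← mul_smul, ← map_mul]
      rfl)
    (fun (b : X0Bar (M * q)) => by
      show galN ((1 : GG)) • b = b
      rw [map_one, one_smul])
    hfin
  refine ⟨hfin.toFinset.card, ∏ x ∈ hfin.toFinset, x, Finset.card_ne_zero.2 ⟨f, hmem⟩,
    fun g => hfix g, ?_, ?_⟩
  · refine S.integralWrt_of_isInt ?_
    obtain ⟨P, hP, hP0⟩ := S.isInt_of_integralWrt hf h
    refine Finset.prod_induction _ (fun x => S.evA.IsIntegralElem x)
      (fun a b ha hb => RingHom.IsIntegralElem.mul _ ha hb) S.evA.isIntegralElem_one fun x hx => ?_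
    obtain ⟨g, rfl⟩ := hfin.mem_toFinset.1 hx
    refine ⟨P.map (mapRingHom (inA g)), hP.map _, ?_⟩
    have h1 := congrArg (ψ g) hP0
    rw [map_zero, Polynomial.hom_eval₂] at h1
    rw [eval₂_map]
    refine Eq.trans ?_ h1
    congr 1
    exact RingHom.ext fun p => (galN_evA hqM hA g p).symm
  · have key : ∀ O : Finset (X0Bar (M * q)), (∀ x ∈ O, (S.pair 1).Res x y) →
        (S.pair 1).Res (∏ x ∈ O, x) (y ^ O.card) := by
      intro O
      induction O using Finset.induction with
      | empty => intro _; simpa using S.pair_one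
      | insert a O ha ih =>
        intro hO
        rw [Finset.prod_insert ha, Finset.card_insert_of_notMem ha, pow_succ']
        simpa using S.pair_mul (hO a (Finset.mem_insert_self _ _))
          (ih fun x hx => hO x (Finset.mem_insert_of_mem hx))
    refine key _ fun x hx => ?_
    obtain ⟨g, rfl⟩ := hfin.mem_toFinset.1 hx
    exact res_galN hqM hA g h

end Modular

end FLTAgent.BadRed
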