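import Fermat.Agent.Entry.Descent.Sep
import Fermat.Agent.Entry.Descent.Norms
import Fermat.Agent.Carayol.Bound
import Fermat.Agent.BadRed.Nodes

/-!
# Evaluation of functions of level `M q` at supersingular points of the cover

A function of level `M' q` with constants fixed by inertia, regular off the poles of `j` and with
two reductions has a value at every point of the cover. At a supersingular point this value only
depends on the values at the nodes of the first reduction; this attaches a node to each point.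
-/

set_option autoImplicit false
set_option linter.unusedSectionVars false
set_option linter.style.haveILetI false
set_option synthInstance.maxHeartbeats 400000
set_option maxHeartbeats 1000000

noncomputable section

open UpperHalfPlane hiding I I_re I_im
open Function AlgebraicCurve ModularCurve IsLocalRing FLTAgent.ModEq FLTAgent.GoodModel
open FLTAgent.BadRed FLTAgent.Curves FLTAgent.Specialization
open FLTAgent.Lowering.P7 (fullCAlgebra laurentAlgebra x0BarAlgebra)
open scoped Classical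

namespace FLTAgent.Carayol

local notation "QA" => AlgebraicClosure ℚ

/-- Series with coefficients in the field fixed by inertia. -/
def serK0 (A : ValuationSubring QA) : Subfield (LaurentSeries QA) :=
  (coeffMap (K0 A).val.toRingHom).fieldRange

theorem mem_serK0 {A : ValuationSubring QA} {x : LaurentSeries QA} :
    x ∈ serK0 A ↔ ∀ i, x.coeff i ∈ K0 A := by
  constructor
  · rintro ⟨y, rfl⟩ i
    rw [coeffMap_coeff]
    exact (y.coeff i).2
  · intro h
    obtain ⟨G, hG⟩ := coeffMap_range (K0 A).val.toRingHom (K0 A).val.injective (G := x)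
      fun i => ⟨⟨_, h i⟩, rfl⟩
    exact ⟨G, hG⟩

namespace Pt

variable {q M0 N' : ℕ} [NeZero M0] [NeZero N'] [NeZero q] [Fact q.Prime]
variable {C : Ctx q M0 N'} {M' : ℕ} [NeZero M'] (P : Pull C M')
variable {k : Type} [Field k] [IsAlgClosed k] [IsNoetherianRing C.W] {Ω : Res C k} (p : Pt Ω)

/-- The series having values at the point. -/
def valS : Subring (LaurentSeries ℂ) := (p.valPairs P).map (RingHom.fst _ _)

theorem mem_valS {X : LaurentSeries ℂ} : X ∈ p.valS P ↔ ∃ z, (X, z) ∈ p.valPairs P :=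
  ⟨by rintro ⟨⟨_, z⟩, h, rfl⟩; exact ⟨z, h⟩, fun ⟨z, h⟩ => ⟨_, h, rfl⟩⟩

/-- Quotients integral over series with values have values. -/
theorem mem_valS_of_root {X : LaurentSeries ℂ} {a d : C.R} (hd : d ≠ 0)
    (hX : P.eps 1 d * X = P.eps 1 a) {Q : Polynomial (p.valPairs P)} (hQ : Q.Monic)
    (h0 : Q.eval₂ ((RingHom.fst _ _).comp (p.valPairs P).subtype) X = 0) : X ∈ p.valS P := by
  haveI := p.isNoetherian_loc
  haveI := p.ufd_loc
  haveI := p.isIntegrallyClosed_loc
  set f1 : p.valPairs P →+* LaurentSeries ℂ := (RingHom.fst _ _).comp (p.valPairs P).subtype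
  have hf1 : Injective f1 := fun x y h => Subtype.ext (Prod.ext h
    (p.val_unique P x.2 (by rw [show (x : LaurentSeries ℂ × p.Loc).1 = (y : LaurentSeries ℂ × p.Loc).1 from h]; exact y.2)))
  set a' : p.valPairs P := ⟨_, p.val_self P a⟩
  set d' : p.valPairs P := ⟨_, p.val_self P d⟩
  have heq : (Polynomial.scaleRoots Q d').eval a' = 0 := by
    refine hf1 ?_
    rw [map_zero, ← Polynomial.eval₂_at_apply, show f1 a' = f1 d' * X from hX.symm]
    exact Polynomial.scaleRoots_eval₂_eq_zero _ h0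
  obtain ⟨z, hz⟩ := exists_quot_of_scaleRoots ((RingHom.snd _ _).comp (p.valPairs P).subtype)
    (p.loc_alg_ne hd) hQ heq
  exact (p.mem_valS P).2 ⟨z, a, d, hd, hX, hz⟩

end Pt

namespace Model

attribute [local instance 2000] fullCAlgebra laurentAlgebra x0BarAlgebra

variable {A : ValuationSubring QA} {q M0 M' : ℕ} [Fact q.Prime] [NeZero q] [NeZero M0]
  [NeZero M'] [NeZero (M' * q)] (hqM : ¬ q ∣ M') (hA : A.LiesOverPrime q)
  [IsAlgClosed (ResidueField A)] [CharP (ResidueField A) q]
  [Curves.IsFunctionField (ResidueField A) (modularFunctionFieldFullC (ResidueField A) M')]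
  (m : Model A q M0 M' M') [IsNoetherianRing m.C.W]

local notation "kk" => ResidueField A
local notation "SS" => sheetAt hqM hA

/-- The functions evaluated at the points. -/
def admRing : Subring (X0Bar (M' * q)) where
  carrier := {G | (G : LaurentSeries QA) ∈ serK0 A ∧ IntegralWrt QA (SS).X G ∧
    ∃ y, ((SS).pair 1).Res G y}
  zero_mem' := ⟨(serK0 A).zero_mem, (by
      simpa using integralWrt_algebraMap (F := X0Bar (M' * q)) (x := (SS).X) (0 : QA)), 0, ((SS).pair 1).res_zero⟩
  one_mem' := ⟨(serK0 A).one_mem, (by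
      simpa using integralWrt_algebraMap (F := X0Bar (M' * q)) (x := (SS).X) (1 : QA)), 1, (SS).pair_one⟩
  add_mem' := fun {a b} ⟨a1, a2, y, a3⟩ ⟨b1, b2, z, b3⟩ =>
    ⟨(serK0 A).add_mem a1 b1, integralWrt_add a2 b2, y + z, ((SS).pair 1).res_add a3 b3⟩
  mul_mem' := fun {a b} ⟨a1, a2, y, a3⟩ ⟨b1, b2, z, b3⟩ =>
    ⟨(serK0 A).mul_mem a1 b1, integralWrt_mul a2 b2, y * z, by
      have := (SS).pair_mul a3 b3
      rwa [one_mul] at this⟩
  neg_mem' := fun {a} ⟨a1, a2, y, a3⟩ =>
    ⟨(serK0 A).neg_mem a1, (by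
      simpa using integralWrt_mul (integralWrt_algebraMap (F := X0Bar (M' * q)) (SS).X (-1 : QA)) a2),
      -y, LRed.res_neg a3⟩

theorem qExpand_mem (f : X0Bar (M' * q)) :
    qExpand QA q (f : LaurentSeries QA) ∈ modularFunctionFieldBar (q * M' * q) := by
  have h : qExpand QA q (f : LaurentSeries QA) ∈ X0Bar (M' * q * q) := by
    rw [← coe_heckeBetaBar]
    exact (heckeBetaBar QA (M' * q) q f).2
  exact X0Bar_mono (dvd_of_eq (by ring)) h

/-- A function of level `M' q` as a series on the cover. -/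
def th : X0Bar (M' * q) →+* LaurentSeries ℂ :=
  (m.P.theta.comp (qExpand QA q)).comp (X0Bar (M' * q)).val.toRingHom

theorem th_const (c : QA) :
    m.th (algebraMap QA (X0Bar (M' * q)) c) = HahnSeries.C (m.P.κ c) := by
  show m.P.theta (qExpand QA q (algebraMap QA (LaurentSeries QA) c)) = _
  rw [Kronecker.qExpand_algebraMap, m.P.theta_algebraMap]

theorem th_alpha {u : m.C.R} (hu : ∀ τ, (u : ℍ → ℂ) τ = jd q q τ) :
    m.th (heckeAlphaBar QA M' q (Kronecker.jEl M')) = m.P.eps 1 u := by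
  rw [th, RingHom.comp_apply, RingHom.comp_apply]
  rw [show ((X0Bar (M' * q)).val.toRingHom (heckeAlphaBar QA M' q (Kronecker.jEl M')) :
      LaurentSeries QA) = jqModC QA from
        (coe_heckeAlphaBar M' q (Kronecker.jEl M')).trans (Kronecker.coe_jEl M'), m.P.theta_gen,
    ← m.P.big_jf q (dvd_mul_of_dvd_left (dvd_mul_right q q) _)]
  exact congrArg (m.P.big 1) (Subtype.ext (funext fun τ => (hu τ).symm))

theorem th_beta {v : m.C.R} (hv : ∀ τ, (v : ℍ → ℂ) τ = jd q (q * q) τ) :
    m.th (heckeBetaBar QA M' q (Kronecker.jEl M')) = m.P.eps 1 v := by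
  show m.P.theta (qExpand QA q _) = _
  rw [show ((X0Bar (M' * q)).val.toRingHom (heckeBetaBar QA M' q (Kronecker.jEl M')) :
      LaurentSeries QA) = qExpand QA q (jqModC QA) from rfl, qExpand_qExpand,
    m.P.theta_gen, ← m.P.big_jf (q * q) (dvd_mul_right _ _)]
  exact congrArg (m.P.big 1) (Subtype.ext (funext fun τ => (hv τ).symm))

theorem sheetX : (SS).X = heckeAlphaBar QA M' q (Kronecker.jEl M') :=
  congrArg (heckeAlphaBar QA M' q) (modelX_eq residue_surjective (natCast_ne_zero hqM kk))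

theorem sheetY : (SS).β (SS).MC.x = heckeBetaBar QA M' q (Kronecker.jEl M') :=
  congrArg (heckeBetaBar QA M' q) (modelX_eq residue_surjective (natCast_ne_zero hqM kk))

theorem integralWrt_beta :
    IntegralWrt QA (SS).X (heckeBetaBar QA M' q (Kronecker.jEl M')) := by
  rw [sheetX hqM hA]
  set Φ := (modularPolynomialData q).Φ
  set X := heckeAlphaBar QA M' q (Kronecker.jEl M')
  set Y := heckeBetaBar QA M' q (Kronecker.jEl M')
  refine integralWrt_of_relation (n := Φ.natDegree)
    (p := fun i => (Φ.coeff i).map (Int.castRingHom QA)) ?_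
  have h : (Φ.map (evalAt X)).eval Y = 0 := modularRel
  have hev : ∀ a : Polynomial ℤ, evalAt X a = Polynomial.aeval X (a.map (Int.castRingHom QA)) :=
    fun a => by
      rw [evalAt_apply, Polynomial.aeval_def, Polynomial.eval₂_map]
      congr 1
      exact RingHom.ext_int _ _
  rw [Polynomial.eval_eq_sum_range, (modularPolynomialData q).monic.natDegree_map,
    Finset.sum_range_succ] at h
  simp only [Polynomial.coeff_map, hev] at h
  rw [show Φ.coeff Φ.natDegree = 1 from (modularPolynomialData q).monic.coeff_natDegree,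
    Polynomial.map_one, map_one, one_mul, add_comm] at h
  exact h

include hA in
/-- A constant fixed by inertia has a value. -/
theorem const_mem_valS (p : Pt m.Ω) {c : QA} (hcA : c ∈ A) (hc : c ∈ K0 A) :
    HahnSeries.C (m.P.κ c) ∈ p.valS m.P := by
  haveI := m.dvr
  obtain ⟨w, w', hw', h⟩ := m.small.frac c hc
  obtain ⟨v, w'', rfl, hw''⟩ := m.ρ.exists_q_pow hw'
  obtain ⟨w1, h1⟩ : ∃ w1 : m.C.W, m.P.κ c * (w'' : ℂ) = w1 := by
    clear hw'
    induction v generalizing w with
    | zero => exact ⟨w, by simpa using h⟩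
    | succ v ih =>
      have hq : (q : QA) * (c * ((m.jO (m.C.inc ((q : m.C.W) ^ v * w'')) : A) : QA)) =
          ((m.jO (m.C.inc w) : A) : QA) := (Kronecker.complexEmb).injective (by
        rw [map_mul, map_mul, m.hjκ, m.hjκ, map_natCast, ← m.hκ]
        show _ = (w : ℂ)
        rw [← h]
        simp only [Subring.coe_inclusion]
        push_cast
        ring)
      have h0 : m.Ω.φW w = 0 := by
        have e : m.jO (m.C.inc w) =
            (q : A) * (⟨c, hcA⟩ * m.jO (m.C.inc ((q : m.C.W) ^ v * w''))) :=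
          Subtype.ext (by push_cast; exact hq.symm)
        show m.Ω.φ (m.C.inc w) = 0
        rw [← m.hjφ, RingHom.comp_apply, e, map_mul, map_natCast, CharP.cast_eq_zero, zero_mul]
      obtain ⟨w0, rfl⟩ := m.Ω.kerW w h0
      refine ih w0 (mul_left_cancel₀ (Nat.cast_ne_zero.2 (NeZero.ne q) : (q : ℂ) ≠ 0) ?_)
      push_cast at h ⊢
      rw [← h]
      ring
  have hπ : p.π (m.C.cW w'') ≠ 0 := by rwa [p.π_cW]
  refine (p.mem_valS m.P).2 ⟨algebraMap m.C.R p.Loc (m.C.cW w1) *
    ↑(p.isUnit_algebraMap hπ).unit⁻¹, m.C.cW w1, m.C.cW w'', Ctx.cW_ne (fun h0 => hw'' (by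
      rw [h0, map_zero])), ?_, ?_⟩
  · rw [m.P.eps_cW, m.P.eps_cW, ← map_mul, mul_comm]
    exact congrArg HahnSeries.C h1
  · rw [mul_left_comm, IsUnit.mul_val_inv, mul_one]

include hA in
theorem th_mem_valS (p : Pt m.Ω) {G : X0Bar (M' * q)} (hG : G ∈ admRing hqM hA) :
    m.th G ∈ p.valS m.P := by
  obtain ⟨hG1, hG2, y, hG3⟩ := hG
  obtain ⟨u, v, Q0, s, hu, hv, -, -⟩ := m.P.exists_jR
  obtain ⟨a, d, hd, had⟩ := m.P.mem_Kf_iff.1 (m.P.theta_mem m.small
    ⟨_, qExpand_mem G⟩ fun i => by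
      show (qExpand QA q (G : LaurentSeries QA)).coeff i ∈ K0 A
      by_cases hi : (q : ℤ) ∣ i
      · obtain ⟨j, rfl⟩ := hi
        rw [qExpand_coeff_mul]
        exact mem_serK0.1 hG1 j
      · rw [qExpand_coeff_of_not_dvd q _ hi]
        exact zero_mem _)
  obtain ⟨Q, hQ, hQ0, hQc⟩ := exists_fixed_poly hqM hA hG2 hG3
  have hmem : ∀ i, m.th ((SS).evA (Q.coeff i)) ∈ p.valS m.P := fun i => by
    rw [Sheet.evA, Polynomial.coe_eval₂RingHom, Polynomial.eval₂_eq_sum_range, map_sum]
    refine sum_mem fun j _ => ?_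
    rw [map_mul, map_pow, RingHom.comp_apply, m.th_const, sheetX hqM hA, m.th_alpha hu]
    exact mul_mem (const_mem_valS hA m p ((Q.coeff i).coeff j).2
      (mem_K0.2 fun σ hσ => hQc i j σ hσ)) (pow_mem ((p.mem_valS m.P).2 ⟨_, p.val_self m.P u⟩) _)
  choose z hz using fun i => (p.mem_valS m.P).1 (hmem i)
  refine p.mem_valS_of_root m.P hd had (Q := Polynomial.X ^ Q.natDegree +
      ∑ i : Fin Q.natDegree, Polynomial.C (⟨_, hz i⟩ : p.valPairs m.P) * Polynomial.X ^ (i : ℕ))
    (Polynomial.monic_X_pow_add (Polynomial.degree_sum_fin_lt _)) ?_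
  have h := congrArg m.th hQ0
  rw [map_zero, Polynomial.eval₂_eq_sum_range, Finset.sum_range_succ, hQ.coeff_natDegree, map_one,
    one_mul, map_add, map_pow, map_sum, Finset.sum_range, add_comm] at h
  rw [Polynomial.eval₂_add, Polynomial.eval₂_pow, Polynomial.eval₂_X, Polynomial.eval₂_finsetSum]
  refine Eq.trans ?_ h
  congr 1
  refine Finset.sum_congr rfl fun i _ => ?_
  rw [Polynomial.eval₂_mul, Polynomial.eval₂_pow, Polynomial.eval₂_X, Polynomial.eval₂_C, map_mul,
    map_pow]
  rfl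

/-- The value in the local ring of a function. -/
def valAt (p : Pt m.Ω) (G : admRing hqM hA) : p.Loc :=
  Classical.choose ((p.mem_valS m.P).1 (th_mem_valS hqM hA m p G.2))

theorem valAt_spec (p : Pt m.Ω) (G : admRing hqM hA) :
    (m.th (G : X0Bar (M' * q)), m.valAt hqM hA p G) ∈ p.valPairs m.P :=
  Classical.choose_spec ((p.mem_valS m.P).1 (th_mem_valS hqM hA m p G.2))

theorem valAt_one (p : Pt m.Ω) : m.valAt hqM hA p 1 = 1 := by
  refine p.val_unique m.P (m.valAt_spec hqM hA p 1) ?_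
  rw [OneMemClass.coe_one, map_one]
  exact (p.valPairs m.P).one_mem

theorem valAt_mul (p : Pt m.Ω) (x y : admRing hqM hA) :
    m.valAt hqM hA p (x * y) = m.valAt hqM hA p x * m.valAt hqM hA p y := by
  refine p.val_unique m.P (m.valAt_spec hqM hA p (x * y)) ?_
  rw [MulMemClass.coe_mul, map_mul]
  have h := (p.valPairs m.P).mul_mem (m.valAt_spec hqM hA p x) (m.valAt_spec hqM hA p y)
  rw [Prod.mk_mul_mk] at h
  exact h

theorem valAt_add (p : Pt m.Ω) (x y : admRing hqM hA) :
    m.valAt hqM hA p (x + y) = m.valAt hqM hA p x + m.valAt hqM hA p y := by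
  refine p.val_unique m.P (m.valAt_spec hqM hA p (x + y)) ?_
  rw [AddMemClass.coe_add, map_add]
  have h := (p.valPairs m.P).add_mem (m.valAt_spec hqM hA p x) (m.valAt_spec hqM hA p y)
  rw [Prod.mk_add_mk] at h
  exact h

/-- The value in the local ring. -/
def evLoc (p : Pt m.Ω) : admRing hqM hA →+* p.Loc :=
  RingHom.mk' ⟨⟨m.valAt hqM hA p, m.valAt_one hqM hA p⟩, m.valAt_mul hqM hA p⟩
    (m.valAt_add hqM hA p)

theorem evLoc_spec (p : Pt m.Ω) (G : admRing hqM hA) :
    (m.th (G : X0Bar (M' * q)), m.evLoc hqM hA p G) ∈ p.valPairs m.P :=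
  m.valAt_spec hqM hA p G

theorem evLoc_of_th (p : Pt m.Ω) (G : admRing hqM hA) {x : m.C.R}
    (h : m.th (G : X0Bar (M' * q)) = m.P.eps 1 x) :
    m.evLoc hqM hA p G = algebraMap m.C.R p.Loc x :=
  p.val_unique m.P (m.evLoc_spec hqM hA p G) (h ▸ p.val_self m.P x)

/-- The value at the point. -/
def evPt (p : Pt m.Ω) : admRing hqM hA →+* kk := p.πL.comp (m.evLoc hqM hA p)

theorem rsLoc_evLoc_eq_zero (p : Pt m.Ω) {g : m.C.Sheet} {j : Fin 3}
    (hle : RingHom.ker (m.Ω.rs g j) ≤ p.ideal) (G : admRing hqM hA)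
    (h : ((SS).pair 1).Res (G : X0Bar (M' * q)) 0) : p.rsLoc hle (m.evLoc hqM hA p G) = 0 := by
  obtain ⟨N, f', y, hN, hf1, hf2, hf⟩ := (SS).exists_pow_smul G.2.2.1 h
    (ϖ := (q : QA)) (Nat.cast_ne_zero.2 (NeZero.ne q))
  have hf' : f' ∈ admRing hqM hA := by
    refine ⟨?_, hf1, y, hf2⟩
    have h1 := congrArg (Subtype.val : X0Bar (M' * q) → LaurentSeries QA) hf
    rw [SubmonoidClass.coe_pow, Algebra.smul_def, MulMemClass.coe_mul, map_natCast] at h1
    have hq : ((q : ℕ) : LaurentSeries QA) ≠ 0 := by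
      rw [← map_natCast (algebraMap QA (LaurentSeries QA))]
      exact (map_ne_zero _).2 (Nat.cast_ne_zero.2 (NeZero.ne q))
    have h2 : (f' : LaurentSeries QA) = (q : LaurentSeries QA)⁻¹ *
        ((G : X0Bar (M' * q)) : LaurentSeries QA) ^ N := by
      rw [h1]
      push_cast
      rw [← mul_assoc, inv_mul_cancel₀ hq, one_mul]
    rw [h2]
    exact (serK0 A).mul_mem ((serK0 A).inv_mem (natCast_mem _ q)) (pow_mem G.2.1 N)
  have hG : G ^ N = (q : admRing hqM hA) * ⟨f', hf'⟩ := Subtype.ext (by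
    rw [SubmonoidClass.coe_pow, hf, Algebra.smul_def, map_natCast]
    push_cast
    rfl)
  have h3 := congrArg ((p.rsLoc hle).comp (m.evLoc hqM hA p)) hG
  rw [map_pow, map_mul, map_natCast] at h3
  have hq0 : ((q : ℕ) : LaurentSeries kk) = 0 := by
    rw [← map_natCast (m.Ω.rs g j), show m.Ω.rs g j (q : m.C.R) = 0 from m.Ω.red_natCast _]
  rw [hq0, zero_mul] at h3
  exact pow_eq_zero_iff hN |>.1 h3

theorem evPt_eq_zero_of_mul (p : Pt m.Ω) {g : m.C.Sheet} {j : Fin 3}
    (hle : RingHom.ker (m.Ω.rs g j) ≤ p.ideal) {G E : admRing hqM hA} {x : m.C.R}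
    (hE : m.th (E : X0Bar (M' * q)) = m.P.eps 1 x) (hx : m.Ω.rs g j x ≠ 0)
    (h : ((SS).pair 1).Res ((G * E : admRing hqM hA) : X0Bar (M' * q)) 0) :
    m.evPt hqM hA p G = 0 := by
  have h1 := m.rsLoc_evLoc_eq_zero hqM hA p hle (G * E) h
  rw [map_mul, map_mul, m.evLoc_of_th hqM hA p E hE, p.rsLoc_alg hle] at h1
  exact p.πL_eq_zero_of_rsLoc hle ((mul_eq_zero.1 h1).resolve_right hx)

theorem regular_of_res {G : X0Bar (M' * q)} (hG : IntegralWrt QA (SS).X G)
    {y : modularFunctionFieldFullC kk M' × modularFunctionFieldFullC kk M'}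
    (h : ((SS).pair 1).Res G y) : ∃ n : ℕ, y ∈ (SS).rimg n := by
  obtain ⟨n, hn⟩ := exists_mem_poles hG
  exact ⟨n, LRed.mem_image_of_res hn h⟩

/-- A prescribed reduction is realised up to a power. -/
theorem exists_adm_of_rimg {n : ℕ}
    {y : modularFunctionFieldFullC kk M' × modularFunctionFieldFullC kk M'}
    (hy : y ∈ (SS).rimg n) : ∃ (e : ℕ) (G : admRing hqM hA), e ≠ 0 ∧
      ((SS).pair 1).Res (G : X0Bar (M' * q)) (y ^ e) := by
  obtain ⟨f, hf, hfy⟩ := (LRed.mem_image residue_surjective).1 hy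
  obtain ⟨e, Nm, he, hfix, hint, hres⟩ :=
    exists_fixed_norm hqM hA (mem_rrSpace_poles.1 hf).1 hfy
  exact ⟨e, ⟨Nm, mem_serK0.2 fun i => mem_K0.2 fun σ hσ => coeff_mem_of_fixed hfix hσ i, hint, _,
    hres⟩, he, hres⟩

variable (N : Sheet.Nodes (sheetAt (q := q) hqM hA))

/-- A function vanishing at all nodes vanishes at the supersingular points. -/
theorem evPt_eq_zero_of_nodes (E : Eqs m.Ω) (p : Pt m.Ω) (hss : p.π E.OmR = 0)
    {G : admRing hqM hA} {y : modularFunctionFieldFullC kk M' × modularFunctionFieldFullC kk M'}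
    (h : ((SS).pair 1).Res (G : X0Bar (M' * q)) y) (h0 : ∀ i, N.s i y.1 = 0) :
    m.evPt hqM hA p G = 0 := by
  obtain ⟨g, hg⟩ := p.exists_branches E hss
  obtain ⟨u, v, Q, s, hu, hv, h1, h2⟩ := m.P.exists_jR
  obtain ⟨hs0, hs1⟩ := m.Ω.rs_sep m.P hu h1 h2 g
  obtain ⟨n, hn⟩ := regular_of_res hqM hA G.2.2.1 h
  set n' := max n N.m₀
  have hy1 : (y.1, (0 : modularFunctionFieldFullC kk M')) ∈ (SS).rimg n' :=
    N.char n' (le_max_right _ _) _ ⟨poles_mono (le_max_left _ _) ((SS).rimg_le_targ n hn).1,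
      Submodule.zero_mem _⟩ fun i => by simp [h0 i]
  obtain ⟨e, G0, he, hG0⟩ := exists_adm_of_rimg hqM hA hy1
  -- the two separating functions
  have hjb := (SS).MC.x_res
  have hX := (SS).pair_α hjb
  have hY := (SS).pair_β hjb
  rw [(SS).V_xb] at hX hY
  have hXa : (SS).α (SS).MC.x ∈ admRing hqM hA := ⟨by
    rw [show (SS).α (SS).MC.x = (SS).X from rfl, sheetX hqM hA, coe_heckeAlphaBar]
    refine mem_serK0.2 fun i => ?_
    show (jqModC QA).coeff i ∈ K0 A
    rw [← coeffMap_jqModC (Rat.castHom QA), coeffMap_coeff]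
    simp, integralWrt_self _, _, hX⟩
  have hYa : (SS).β (SS).MC.x ∈ admRing hqM hA := ⟨by
    rw [sheetY hqM hA, coe_heckeBetaBar]
    refine mem_serK0.2 fun i => ?_
    show (qExpand QA q (jqModC QA)).coeff i ∈ K0 A
    rw [← coeffMap_jqModC (Rat.castHom QA), ← coeffMap_qExpand, coeffMap_coeff]
    simp,
    sheetY hqM hA ▸ integralWrt_beta hqM hA, _, hY⟩
  set X' : admRing hqM hA := ⟨_, hXa⟩
  set Y' : admRing hqM hA := ⟨_, hYa⟩
  have hpow : ∀ {a : X0Bar (M' * q)}
      {z : modularFunctionFieldFullC kk M' × modularFunctionFieldFullC kk M'},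
      ((SS).pair 1).Res a z → ∀ d : ℕ, ((SS).pair 1).Res (a ^ d) (z ^ d) := fun ha d => by
    have := (SS).pair_pow ha d
    rwa [one_pow] at this
  have hmul : ∀ {a b : X0Bar (M' * q)}
      {z z' : modularFunctionFieldFullC kk M' × modularFunctionFieldFullC kk M'},
      ((SS).pair 1).Res a z → ((SS).pair 1).Res b z' → ((SS).pair 1).Res (a * b) (z * z') :=
    fun ha hb => by have := (SS).pair_mul ha hb; rwa [one_mul] at this
  have hE1 : m.th ((Y' - X' ^ q : admRing hqM hA) : X0Bar (M' * q)) = m.P.eps 1 (v - u ^ q) := by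
    push_cast
    rw [map_sub, map_pow, show ((Y' : admRing hqM hA) : X0Bar (M' * q)) = _ from sheetY hqM hA,
      show ((X' : admRing hqM hA) : X0Bar (M' * q)) = _ from sheetX hqM hA, m.th_alpha hu,
      m.th_beta hv, map_sub, map_pow]
  have hE2 : m.th ((X' - Y' ^ q : admRing hqM hA) : X0Bar (M' * q)) = m.P.eps 1 (u - v ^ q) := by
    push_cast
    rw [map_sub, map_pow, show ((Y' : admRing hqM hA) : X0Bar (M' * q)) = _ from sheetY hqM hA,
      show ((X' : admRing hqM hA) : X0Bar (M' * q)) = _ from sheetX hqM hA, m.th_alpha hu,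
      m.th_beta hv, map_sub, map_pow]
  have e1 : m.evPt hqM hA p G0 = 0 := by
    refine m.evPt_eq_zero_of_mul hqM hA p (hg 1) hE1 hs1 ?_
    push_cast
    have := hmul hG0 (LRed.res_sub hY (hpow hX q))
    convert this using 1
    refine Prod.ext ?_ ?_
    · simp
    · simp [zero_pow he]
  have e2 : m.evPt hqM hA p (G ^ e - G0) = 0 := by
    refine m.evPt_eq_zero_of_mul hqM hA p (hg 0) hE2 hs0 ?_
    push_cast
    have := hmul (LRed.res_sub (hpow h e) hG0) (LRed.res_sub hX (hpow hY q))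
    convert this using 1
    refine Prod.ext ?_ ?_
    · simp
    · simp [zero_pow he]
  rw [map_sub, map_pow, e1, sub_zero] at e2
  exact pow_eq_zero_iff he |>.1 e2

/-- The value at a supersingular point is the value at a node. -/
theorem exists_node (E : Eqs m.Ω) (p : Pt m.Ω) (hss : p.π E.OmR = 0) :
    ∃ t : Fin N.n, ∀ (G : admRing hqM hA)
      (y : modularFunctionFieldFullC kk M' × modularFunctionFieldFullC kk M'),
      ((SS).pair 1).Res (G : X0Bar (M' * q)) y → m.evPt hqM hA p G = N.s t y.1 := by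
  have hreg : ∀ {G : admRing hqM hA}
      {y : modularFunctionFieldFullC kk M' × modularFunctionFieldFullC kk M'},
      ((SS).pair 1).Res (G : X0Bar (M' * q)) y → y.1 ∈ (SS).regular := fun {G y} h => by
    obtain ⟨n, hn⟩ := regular_of_res hqM hA G.2.2.1 h
    exact ((SS).regular_of_rimg hn).1
  have hd : ∀ t, ∃ (T : admRing hqM hA)
      (y : modularFunctionFieldFullC kk M' × modularFunctionFieldFullC kk M'),
      ((SS).pair 1).Res (T : X0Bar (M' * q)) y ∧ ∀ i, N.s i y.1 = if i = t then 1 else 0 := by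
    intro t
    obtain ⟨a, ha, hai⟩ := N.surj N.m₀ le_rfl fun i => if i = t then 1 else 0
    have har : a ∈ (SS).regular := (mem_rrSpace_poles.1 ha).1
    obtain ⟨n1, hn1⟩ := exists_mem_poles ((SS).V_mem_regular har)
    set n := max N.m₀ n1
    have hy : (a, (SS).V a) ∈ (SS).rimg n := N.char n (le_max_left _ _) _
      ⟨poles_mono (le_max_left _ _) ha,
        poles_mono (show n1 ≤ q * n from le_trans (le_max_right _ _)
          (Nat.le_mul_of_pos_left _ (Nat.pos_of_ne_zero (NeZero.ne q)))) hn1⟩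
      fun i => (N.s_V i a har).symm
    obtain ⟨e, T, he, hT⟩ := exists_adm_of_rimg hqM hA hy
    refine ⟨T, _, hT, fun i => ?_⟩
    rw [Prod.pow_fst, N.s_pow i har, hai]
    split_ifs <;> simp [zero_pow he]
  choose T yT hT hTs using hd
  have hsum : ((SS).pair 1).Res ((∑ t, T t - 1 : admRing hqM hA) : X0Bar (M' * q))
      (∑ t, yT t - 1) := by
    push_cast
    exact LRed.res_sub (LRed.res_sum fun t _ => hT t) (SS).pair_one
  have h1 := m.evPt_eq_zero_of_nodes hqM hA N E p hss hsum fun i => by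
    rw [Prod.fst_sub, Prod.fst_sum, map_sub, map_sum, Prod.fst_one, N.s_one]
    simp [hTs]
  obtain ⟨t, ht⟩ : ∃ t, m.evPt hqM hA p (T t) ≠ 0 := by
    by_contra hall
    push Not at hall
    rw [map_sub, map_sum, Finset.sum_eq_zero fun t _ => hall t, map_one, zero_sub, neg_eq_zero] at h1
    exact one_ne_zero h1
  refine ⟨t, fun G y hy => ?_⟩
  obtain ⟨w, hw⟩ := m.Ω.surjW (N.s t y.1)
  obtain ⟨c, hc, hcw⟩ := m.small.mem w
  have hcA : c = ((m.jO (m.C.inc w) : A) : QA) := (Kronecker.complexEmb).injective (by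
    rw [m.hjκ, ← m.hκ, hcw]; rfl)
  set a : A := m.jO (m.C.inc w)
  have hra : residue A a = N.s t y.1 := by
    rw [← hw, ← m.hjφ]; rfl
  have hcadm : algebraMap QA (X0Bar (M' * q)) (a : QA) ∈ admRing hqM hA := by
    refine ⟨mem_serK0.2 fun i => ?_, integralWrt_algebraMap _ _,
      residue A a • (1 : modularFunctionFieldFullC kk M' × modularFunctionFieldFullC kk M'), ?_⟩
    · show (algebraMap QA (LaurentSeries QA) (a : QA)).coeff i ∈ K0 A
      rw [algebraMap_laurentSeries_eq_single, HahnSeries.coeff_single]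
      split_ifs
      · exact hcA ▸ hc
      · exact zero_mem _
    · rw [Algebra.algebraMap_eq_smul_one]
      exact ((SS).pair 1).res_smul a (SS).pair_one
  set cE : admRing hqM hA := ⟨_, hcadm⟩
  have hcE : m.evPt hqM hA p cE = N.s t y.1 := by
    have e : m.th (cE : X0Bar (M' * q)) = m.P.eps 1 (m.C.cW w) := by
      rw [m.th_const, m.P.eps_cW, ← hcA, hcw]
    rw [evPt, RingHom.comp_apply, m.evLoc_of_th hqM hA p cE e, p.πL_alg, p.π_cW]
    exact hw
  have h2 := m.evPt_eq_zero_of_nodes hqM hA N E p hss (G := (G - cE) * T t)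
    (y := (y - residue A a • 1) * yT t) (by
      push_cast
      have hc1 : ((SS).pair 1).Res (cE : X0Bar (M' * q)) (residue A a • 1) := by
        show ((SS).pair 1).Res (algebraMap QA _ (a : QA)) _
        rw [Algebra.algebraMap_eq_smul_one]
        exact ((SS).pair 1).res_smul a (SS).pair_one
      have := (SS).pair_mul (LRed.res_sub hy hc1) (hT t)
      rwa [one_mul] at this) fun i => by
    have hr1 : (y - residue A a • 1).1 ∈ (SS).regular := by
      rw [Prod.fst_sub, Prod.smul_fst]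
      exact (SS).regular.sub_mem (hreg hy) ((SS).regular.smul_mem ((SS).regular.one_mem) _)
    rw [Prod.fst_mul, N.s_mul i _ _ hr1 (hreg (hT t)), hTs]
    split_ifs with hi
    · subst hi
      rw [Prod.fst_sub, Prod.smul_fst, map_sub, map_smul, Prod.fst_one, N.s_one, hra, smul_eq_mul,
        mul_one, mul_one, sub_self]
    · rw [mul_zero]
  rw [map_mul, map_sub, hcE, mul_eq_zero, sub_eq_zero] at h2
  exact h2.resolve_right ht

end Model

end FLTAgent.Carayol
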