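import Fermat.Agent.Entry.Descent.Eval
import Fermat.Agent.TorsionHom.Interp
import Fermat.Agent.Lowering.P3.Levels.Comp
import Fermat.Agent.Lowering.P3.Levels.Groups
import Fermat.Agent.Mazur.PointFam

/-!
# Functions of level `M₀ M'` invariant under `Γ₀(M')` as functions of the two sheets

A function of level `M₀ M'` on the cover invariant under `Γ₀(M')` is a function of `X₀(M')` with
coefficients fixed by inertia and integral, regular off the poles of `j`.
-/

set_option autoImplicit false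
set_option linter.unusedSectionVars false
set_option linter.style.haveILetI false
set_option synthInstance.maxHeartbeats 400000
set_option maxHeartbeats 1000000

noncomputable section

open UpperHalfPlane hiding I I_re I_im
open Function AlgebraicCurve ModularCurve IsLocalRing FLTAgent.ModEq FLTAgent.GoodModel
open FLTAgent.BadRed FLTAgent.Curves FLTAgent.Specialization
open FLTAgent.Lowering.P7 (fullCAlgebra laurentAlgebra x0BarAlgebra)
open CongruenceSubgroup (Gamma Gamma0)
open scoped MatrixGroups Manifold Classical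

namespace FLTAgent.Carayol

local notation "QA" => AlgebraicClosure ℚ

namespace Model

attribute [local instance 2000] fullCAlgebra laurentAlgebra x0BarAlgebra

variable {A : ValuationSubring QA} {q M0 M' : ℕ} [Fact q.Prime] [NeZero q] [NeZero M0]
  [NeZero M'] [NeZero (M' * q)] (hqM : ¬ q ∣ M') (hA : A.LiesOverPrime q)
  [IsAlgClosed (ResidueField A)] [CharP (ResidueField A) q]
  [Curves.IsFunctionField (ResidueField A) (modularFunctionFieldFullC (ResidueField A) M')]
  (m : Model A q M0 M' M') [IsNoetherianRing m.C.W]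

local notation "kk" => ResidueField A
local notation "SS" => sheetAt hqM hA

/-- The constants of the cover as algebraic numbers. -/
def wQ : m.C.W →+* QA := (A.subtype.comp m.jO).comp m.C.inc

theorem κ_wQ (w : m.C.W) : m.P.κ (m.wQ w) = (w : ℂ) := by
  rw [m.hκ]
  exact m.hjκ (m.C.inc w)

theorem wQ_mem_K0 (w : m.C.W) : m.wQ w ∈ K0 A := by
  obtain ⟨c, hc, hcw⟩ := m.small.mem w
  rwa [← m.P.κ.injective (hcw.trans (m.κ_wQ w).symm)]

theorem periodic_of_gamma0 {φ : ℍ → ℂ} (hinv : ∀ g ∈ Gamma0 M', compg g φ = φ) (g : SL(2, ℤ))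
    (τ : ℍ) : φ (g • ((ModularGroup.T ^ ((M' : ℕ) : ℤ)) • τ)) = φ (g • τ) := by
  have hT : ModularGroup.T ^ ((M' : ℕ) : ℤ) ∈ Gamma M' := by
    rw [CongruenceSubgroup.Gamma_mem, ModularGroup.coe_T_zpow]
    simp
  have h := hinv _ (Lowering.P3.Levels.Gamma_le_Gamma0' M'
    ((CongruenceSubgroup.Gamma_normal M').conj_mem _ hT g))
  have h2 := congrFun h (g • τ)
  rw [compg_apply, ← mul_smul, inv_mul_cancel_right, mul_smul] at h2
  exact h2

/-- An invariant function of level `M₀ M'` is a function of `X₀(M')`. -/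
theorem exists_level_fn {φ : ℍ → ℂ} (hφ : φ ∈ trRing m.C.W (M0 * M'))
    (hinv : ∀ g ∈ Gamma0 M', compg g φ = φ) :
    ∃ (G : admRing hqM hA) (a : modularFunctionFieldFullC kk M'),
      ((SS).pair 1).Res (G : X0Bar (M' * q)) (a, (SS).V a) ∧
      ∀ Φ : trRing m.C.S (M0 * (M' * q)), (Φ : ℍ → ℂ) = φ →
        m.P.lev Φ = m.th (G : X0Bar (M' * q)) := by
  haveI : NeZero (M0 * M') := ⟨mul_ne_zero (NeZero.ne _) (NeZero.ne _)⟩
  haveI : NeZero (1 * (M0 * M')) := ⟨by rw [one_mul]; exact NeZero.ne _⟩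
  haveI : NeZero (M' * M0) := ⟨mul_ne_zero (NeZero.ne _) (NeZero.ne _)⟩
  obtain ⟨G0, hG0⟩ := mem_trRing.mp hφ 1
  rw [compg_one] at hG0
  obtain ⟨G1, hG1, -⟩ := Lowering.P3.Levels.sPairs_lower (N := 1) (l := M0 * M') m.C.ζm
    (by simpa only [one_mul] using m.C.hζm) (φ := φ) (G := G0) (by simpa only [one_mul] using hG0)
    fun τ => by
      have hT : ModularGroup.T ^ ((1 : ℕ) : ℤ) ∈ Gamma0 M' := by
        rw [CongruenceSubgroup.Gamma0_mem, ModularGroup.coe_T_zpow]
        simp
      exact congrFun (hinv _ hT) τ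
  have hmd : MDiff φ := (mem_sPairs.mp hG1).1
  -- membership in the ring of level `M'`
  have hperl : ∀ g : SL(2, ℤ), (fun τ => φ (g • τ)) ∈ X0Fn.PerL (M' : ℝ) := by
    intro g
    obtain ⟨G2, hG2⟩ := mem_trRing.mp hφ g
    rw [mul_comm M0 M'] at hG2
    obtain ⟨G3, hG3, -⟩ := Lowering.P3.Levels.sPairs_lower (N := M') (l := M0) m.C.ζm
      (by simpa only [mul_comm M' M0] using m.C.hζm) hG2 fun τ =>
        periodic_of_gamma0 hinv g τ
    refine Mazur.mem_PerL_of_hasExp (mem_sPairs.mp hG3).1 (fun τ => ?_) (mem_sPairs.mp hG3).2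
    have e : ((M' : ℕ) : ℝ) +ᵥ τ = (ModularGroup.T ^ ((M' : ℕ) : ℤ)) • τ := by
      rw [UpperHalfPlane.modular_T_zpow_smul]
      simp
    rw [e]
    exact periodic_of_gamma0 hinv g τ
  set f : X0Fn.W0 M' := ⟨φ, hmd, fun γ hγ τ => congrFun (hinv γ hγ) τ, hperl⟩
  set z : LaurentSeries QA := coeffMap m.wQ G1
  have hκz : coeffMap m.P.κ z = sIncl m.C.W G1 := by
    rw [coeffMap_coeffMap]
    exact coeffMap_congr (RingHom.ext m.κ_wQ) _
  have hexp : X0Fn.expW M' f = X0Fn.iota (N := M') m.P.κ z := by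
    refine (Mazur.hasExp_expL (N := M') ⟨φ, X0Fn.W0_le_PerL f.2⟩).unique ?_
    have h := (mem_sPairs.mp (sPairs_refine (k := M') (one_mul M') hG1)).2
    rw [sIncl, coeffMap_qExpand] at h
    rw [X0Fn.iota, RingHom.comp_apply, hκz]
    exact h
  have h10 : (1 : X0Fn.W0 M') ≠ 0 := fun h => one_ne_zero (congrFun
    (congrArg (fun g : X0Fn.W0 M' => (g : ℍ → ℂ)) h) UpperHalfPlane.I)
  have hz : z ∈ X0Bar M' := TorsionHom.mem_XF_of_W0 (N := M') m.P.κ (A := f) h10 (by
    rw [map_one, mul_one, hexp])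
  set zM : X0Bar M' := ⟨z, hz⟩
  -- integrality
  set n := Fintype.card (X0Fn.Cos M')
  obtain ⟨r, hr⟩ := TorsionHom.exists_monic_relation (K := QA) (N := M') m.P.κ f
  letI : Algebra QA ℂ := m.P.κ.toAlgebra
  obtain ⟨l, hl⟩ := (Algebra.linearMap QA ℂ).exists_leftInverse_of_injective
    (LinearMap.ker_eq_bot.2 m.P.κ.injective)
  have hl1 : l 1 = 1 := by
    have h := LinearMap.congr_fun hl (1 : QA)
    simpa using h
  let Q : ℕ → Polynomial QA := fun j => if hj : j < n then
    ∑ i ∈ Finset.range ((r ⟨j, hj⟩).natDegree + 1),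
      Polynomial.C (l ((r ⟨j, hj⟩).coeff i)) * Polynomial.X ^ i else 0
  have hrel : z ^ n + ∑ j ∈ Finset.range n, Polynomial.aeval (coeffEmb QA jq) (Q j) * z ^ j = 0 := by
    have h := congrArg (X0Fn.expW M') hr
    have e := X0Fn.expW_toW (N := M') m.P.κ (X0Fn.jA QA M')
    simp only [map_add, map_sum, map_mul, map_pow, map_zero, hexp, ← Polynomial.aeval_algHom_apply,
      e] at h
    have hD : ∀ (c : ℂ) (b : LaurentSeries QA), X0Fn.descend (N := M') l
        (algebraMap ℂ (LaurentSeries ℂ) c * X0Fn.iota (N := M') m.P.κ b) =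
          algebraMap QA (LaurentSeries QA) (l c) * b := fun c b => by
      ext i
      show l ((algebraMap ℂ (LaurentSeries ℂ) c * X0Fn.iota (N := M') m.P.κ b).coeff
          ((M' : ℤ) * i)) = (algebraMap QA (LaurentSeries QA) (l c) * b).coeff i
      rw [algebraMap_laurentSeries_eq_single, algebraMap_laurentSeries_eq_single,
        HahnSeries.coeff_single_mul, HahnSeries.coeff_single_mul, sub_zero, sub_zero, X0Fn.iota,
        RingHom.comp_apply, qExpand_coeff_mul, coeffMap_coeff, mul_comm c,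
        show m.P.κ (b.coeff i) * c = (b.coeff i) • c from rfl, map_smul, smul_eq_mul, mul_comm]
    have h2 := congrArg (X0Fn.descend (N := M') l) h
    rw [map_add, map_zero, map_sum, ← map_pow] at h2
    refine Eq.trans ?_ h2
    congr 1
    · have h3 := hD 1 (z ^ n)
      rw [map_one, one_mul, hl1, map_one, one_mul] at h3
      exact h3.symm
    · rw [Finset.sum_range]
      refine Finset.sum_congr rfl fun j _ => ?_
      simp only [Q, dif_pos j.2, Fin.eta]
      simp only [map_sum, map_mul, Polynomial.aeval_C, map_pow, Polynomial.aeval_X, Finset.sum_mul]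
      rw [Polynomial.aeval_eq_sum_range, Finset.sum_mul, map_sum]
      refine Finset.sum_congr rfl fun i _ => ?_
      rw [Algebra.smul_def, show coeffEmb QA jq = ((X0Fn.jA QA M' : X0Fn.XA QA M') : LaurentSeries QA)
        from rfl, mul_assoc (algebraMap ℂ (LaurentSeries ℂ) _), ← map_pow (X0Fn.iota (N := M') m.P.κ),
        ← map_pow (X0Fn.iota (N := M') m.P.κ), ← map_mul, hD,
        mul_assoc]
  have hzX : IntegralWrt QA (Kronecker.jEl M') zM := by
    refine integralWrt_of_relation (n := n) (p := Q) ((X0Bar M').val.toRingHom.injective ?_)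
    simp only [map_add, map_sum, map_mul, map_pow, map_zero]
    refine Eq.trans ?_ hrel
    congr 1
    refine Finset.sum_congr rfl fun j _ => ?_
    congr 1
    show (X0Bar M').val (Polynomial.aeval (Kronecker.jEl M') (Q j)) = _
    rw [← Polynomial.aeval_algHom_apply]
    congr 2
    show jqModC QA = coeffEmb QA jq
    rw [coeffEmb, ← jqModC_rat, coeffMap_jqModC]
  -- the reduction
  obtain ⟨a, ha⟩ : ∃ a, (SS).MC.Res zM a := by
    have h1 : coeffMap A.subtype (coeffMap (m.jO.comp m.C.inc) G1) = z := coeffMap_coeffMap _ _ _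
    have hy : coeffMap A.subtype (coeffMap (m.jO.comp m.C.inc) G1) ∈ X0Bar M' := h1 ▸ hz
    have h2 := laurentReduction_res (π := residue A) (E := X0Bar M') hy
    rw [show (⟨_, hy⟩ : X0Bar M') = zM from Subtype.ext h1] at h2
    exact ⟨⟨_, res_mem_full residue_surjective M' (natCast_ne_zero hqM kk) h2⟩,
      (modularModel_res residue_surjective M' (natCast_ne_zero hqM kk)).2 h2⟩
  have hint : IntegralWrt QA (SS).X ((SS).α zM) := by
    rw [sheetX hqM hA]
    exact integralWrt_map (SS).α (transcendental_coe (transcendental_jq QA)) hzX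
  refine ⟨⟨(SS).α zM, mem_serK0.2 fun i => ?_, hint, _, (SS).pair_α ha⟩, a, (SS).pair_α ha, ?_⟩
  · rw [show (((SS).α zM : X0Bar (M' * q)) : LaurentSeries QA) = z from
      (coe_heckeAlphaBar M' q zM), coeffMap_coeff]
    exact m.wQ_mem_K0 _
  intro Φ hΦ
  refine (m.P.lev_spec Φ).unique ?_
  haveI : NeZero (M0 * M' * q) := ⟨mul_ne_zero (NeZero.ne _) (NeZero.ne _)⟩
  have h := (mem_sPairs.mp (sPairs_refine (k := M0 * (M' * q)) (one_mul _) hG1)).2
  rw [sIncl, coeffMap_qExpand] at h
  rw [hΦ]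
  have e : m.th ((SS).α zM) = qExpand ℂ (M0 * (M' * q)) (sIncl m.C.W G1) := by
    show m.P.theta (qExpand QA q _) = _
    rw [show ((X0Bar (M' * q)).val.toRingHom ((SS).α zM) : LaurentSeries QA) = z from
      coe_heckeAlphaBar M' q zM, Pull.theta, RingHom.comp_apply, coeffMap_qExpand, hκz,
      qExpand_qExpand]
    exact qExpand_congr (mul_assoc _ _ _) _
  rw [e]
  exact h

end Model

end FLTAgent.Carayol
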