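import Fermat.Agent.Entry.Descent.Normal
import Fermat.Agent.Carayol.Glue

/-!
# The moved points and branches

A normalising element maps the cover into its local rings over `q`, hence moves its points and
branches; supersingular points and the kinds of branches are preserved.
-/

set_option autoImplicit false
set_option linter.unusedSectionVars false
set_option linter.style.haveILetI false

noncomputable section

open UpperHalfPlane hiding I I_re I_im
open Filter Topology Complex Function FLTAgent.ModEq FLTAgent.GoodModel ModularCurve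
open scoped MatrixGroups Manifold Classical

namespace FLTAgent.Carayol

open IsLocalRing (maximalIdeal)

variable {q M0 N' : ℕ} [NeZero M0] [NeZero N'] [NeZero q] [Fact q.Prime]

/-- A quotient which is a root of a monic polynomial lies in an integrally closed ring. -/
theorem exists_quot_of_scaleRoots {R L : Type*} [CommRing R] [CommRing L] [IsDomain L]
    [IsIntegrallyClosed L] (φ : R →+* L) {P : Polynomial R} {a d : R} (hd : φ d ≠ 0) (hP : P.Monic)
    (h : (Polynomial.scaleRoots P d).eval a = 0) : ∃ z : L, φ d * z = φ a := by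
  set K := FractionRing L
  set ψ : R →+* K := (algebraMap L K).comp φ with hψ
  have hd' : ψ d ≠ 0 := (map_ne_zero_iff _ (IsFractionRing.injective L K)).2 hd
  have hint : IsIntegral L (ψ a / ψ d) := by
    refine ⟨P.map φ, hP.map _, ?_⟩
    rw [Polynomial.eval₂_map, ← hψ]
    have h2 := congrArg ψ h
    rw [map_zero, ← Polynomial.eval₂_at_apply,
      show ψ a = ψ d * (ψ a / ψ d) from (mul_div_cancel₀ _ hd').symm,
      Polynomial.scaleRoots_eval₂_mul] at h2
    exact (mul_eq_zero.1 h2).resolve_left (pow_ne_zero _ hd')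
  obtain ⟨z, hz⟩ := IsIntegrallyClosed.isIntegral_iff.1 hint
  exact ⟨z, IsFractionRing.injective L K (by rw [map_mul, hz]; exact mul_div_cancel₀ _ hd')⟩

namespace Ctx

variable (C : Ctx q M0 N')

/-- A translate of an element in the big ring. -/
def movEl (γ : SL(2, ℤ)) : C.R →+* trRing C.S (M0 * (N' * q)) :=
  (trComp γ).comp (Subring.inclusion C.R_le)

theorem coe_movEl (γ : SL(2, ℤ)) (a : C.R) : (C.movEl γ a : ℍ → ℂ) = compg γ (a : ℍ → ℂ) := rfl

theorem movEl_of_coe {γ : SL(2, ℤ)} {a b : C.R} (h : compg γ (a : ℍ → ℂ) = b) :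
    C.movEl γ a = Subring.inclusion C.R_le b := Subtype.ext h

theorem exists_mov_frac (hF : C.FixedPart) {γ : SL(2, ℤ)} (hγ : C.Mov γ) (a : C.R) :
    ∃ a' d : C.R, d ≠ 0 ∧
      Subring.inclusion C.R_le d * C.movEl γ a = Subring.inclusion C.R_le a' := by
  haveI := C.isDomain_trRing
  have hexact : ∀ x : C.R, compg γ (x : ℍ → ℂ) ∈ C.R → ∃ a' d : C.R, d ≠ 0 ∧
      Subring.inclusion C.R_le d * C.movEl γ x = Subring.inclusion C.R_le a' := fun x hx =>
    ⟨⟨_, hx⟩, 1, one_ne_zero, by rw [map_one, one_mul]; exact C.movEl_of_coe rfl⟩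
  have hlevel : ∀ x : C.R, (x : ℍ → ℂ) ∈ trRing C.W (M0 * N') → ∃ a' d : C.R, d ≠ 0 ∧
      Subring.inclusion C.R_le d * C.movEl γ x = Subring.inclusion C.R_le a' := fun x hx => by
    refine C.exists_frac_of_ser hF (C.movEl γ x) (C.stab_mov hγ x) fun i => ?_
    obtain ⟨G, hG⟩ := mem_trRing.mp hx γ
    rw [sPairs_unique (ser_spec (C.movEl γ x))
      (sPairs_refine (k := q) (mul_assoc M0 N' q) (sPairs_mono C.hWS hG)), ← coeffMap_qExpand,
      coeffMap_coeff]
    exact ⟨_, rfl⟩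
  obtain ⟨φ, hφ⟩ := a
  induction hφ using Subring.closure_induction with
  | mem f hf =>
    rcases hf with ⟨w, rfl⟩ | hf
    · exact hexact (C.cW w) (C.cW w).2
    · rcases hf with rfl | rfl | rfl | rfl | rfl | rfl | rfl | rfl | rfl | rfl | rfl | rfl
      · refine hexact _ ?_
        obtain ⟨u, -, hu⟩ := C.exists_U_of_level (compg_mem_trRing C.T_mem0 γ)
          (C.compg_invariant γ C.T_inv)
        exact hu ▸ u.2
      · refine hexact _ ?_
        obtain ⟨u, -, hu⟩ := C.exists_U_of_level (compg_mem_trRing C.dlt_inv_mem0 γ)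
          (C.compg_invariant γ C.dlt_inv_inv)
        exact hu ▸ u.2
      · exact hlevel _ (C.node_mem0 C.eta_mem_nodes)
      · exact hlevel _ (C.rhoOf_mem0 C.eta_mem_nodes)
      · refine hexact _ ?_
        simpa [xR, sb, rX, gr, compg_one] using (C.side_mov hγ false).1
      · obtain ⟨e, e', -, h, -⟩ := (C.side_mov hγ false).2.2
        refine hexact _ ?_
        have h' : compg γ C.sW = ((e * C.wR false : C.R) : ℍ → ℂ) := by
          simpa [wR, sb, rW, gr, compg_one] using h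
        exact h' ▸ (e * C.wR false : C.R).2
      · obtain ⟨e, e', -, -, h⟩ := (C.side_mov hγ false).2.2
        refine hexact _ ?_
        have h' : compg γ C.sV = ((e' * C.vR false : C.R) : ℍ → ℂ) := by
          simpa [vR, sb, rV, gr, compg_one] using h
        exact h' ▸ (e' * C.vR false : C.R).2
      · refine hexact _ ?_
        simpa [uR, sb, rU, gr, compg_one] using (C.side_mov hγ false).2.1
      · exact hexact _ (C.side_mov hγ true).1
      · obtain ⟨e, e', -, h, -⟩ := (C.side_mov hγ true).2.2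
        exact hexact _ (by
          show compg γ (C.rW (some 0)) ∈ C.R
          rw [show compg γ (C.rW (some 0)) = ((e * C.wR true : C.R) : ℍ → ℂ) from h]
          exact (e * C.wR true : C.R).2)
      · obtain ⟨e, e', -, -, h⟩ := (C.side_mov hγ true).2.2
        exact hexact _ (by
          show compg γ (C.rV (some 0)) ∈ C.R
          rw [show compg γ (C.rV (some 0)) = ((e' * C.vR true : C.R) : ℍ → ℂ) from h]
          exact (e' * C.vR true : C.R).2)
      · exact hexact _ (C.side_mov hγ true).2.1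
  | zero => exact ⟨0, 1, one_ne_zero, by rw [show (⟨0, _⟩ : C.R) = 0 from rfl]; simp⟩
  | one => exact ⟨1, 1, one_ne_zero, by rw [show (⟨1, _⟩ : C.R) = 1 from rfl]; simp⟩
  | add x y hx hy ihx ihy =>
    obtain ⟨a₁, d₁, hd₁, h₁⟩ := ihx
    obtain ⟨a₂, d₂, hd₂, h₂⟩ := ihy
    refine ⟨a₁ * d₂ + a₂ * d₁, d₁ * d₂, mul_ne_zero hd₁ hd₂, ?_⟩
    rw [show (⟨x + y, _⟩ : C.R) = ⟨x, hx⟩ + ⟨y, hy⟩ from rfl]
    simp only [map_add, map_mul, ← h₁, ← h₂]
    ring
  | neg x hx ihx =>
    obtain ⟨a₁, d₁, hd₁, h₁⟩ := ihx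
    refine ⟨-a₁, d₁, hd₁, ?_⟩
    rw [show (⟨-x, _⟩ : C.R) = -⟨x, hx⟩ from rfl, map_neg, map_neg, mul_neg, h₁]
  | mul x y hx hy ihx ihy =>
    obtain ⟨a₁, d₁, hd₁, h₁⟩ := ihx
    obtain ⟨a₂, d₂, hd₂, h₂⟩ := ihy
    refine ⟨a₁ * a₂, d₁ * d₂, mul_ne_zero hd₁ hd₂, ?_⟩
    rw [show (⟨x * y, _⟩ : C.R) = ⟨x, hx⟩ * ⟨y, hy⟩ from rfl]
    simp only [map_mul, ← h₁, ← h₂]
    ring

/-- A translate is a root of a monic polynomial over the cover. -/
theorem exists_mov_poly (hF : C.FixedPart) (γ : SL(2, ℤ)) (a : C.R) :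
    ∃ P : Polynomial C.R, P.Monic ∧
      P.eval₂ (Subring.inclusion C.R_le) (C.movEl γ a) = 0 := by
  obtain ⟨p, hp, -, hk, h0, -⟩ := C.exists_charpoly hF a
  have hlift : p.map (C.movEl γ) ∈ Polynomial.lifts (Subring.inclusion C.R_le) :=
    (Polynomial.lifts_iff_coeff_lifts _).2 fun i => by
      obtain ⟨u', -, hu'⟩ := C.line_mov γ (hk i)
      exact ⟨u', by rw [Polynomial.coeff_map, C.movEl_of_coe hu']⟩
  obtain ⟨P, hP, -, hPm⟩ := Polynomial.lifts_and_natDegree_eq_and_monic hlift (hp.map _)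
  refine ⟨P, hPm, ?_⟩
  rw [← Polynomial.eval_map, hP, Polynomial.eval_map, Polynomial.eval₂_at_apply, h0, map_zero]

end Ctx

namespace Pt

variable {C : Ctx q M0 N'} {k : Type} [Field k] [IsAlgClosed k] [IsNoetherianRing C.W]
variable {Ω : Res C k} (p : Pt Ω) {γ : SL(2, ℤ)}

theorem loc_alg_ne {d : C.R} (hd : d ≠ 0) : algebraMap C.R p.Loc d ≠ 0 :=
  (map_ne_zero_iff _ (IsLocalization.injective p.Loc
    (Ideal.primeCompl_le_nonZeroDivisors p.ideal))).2 hd

set_option synthInstance.maxHeartbeats 400000 in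
/-- A translate lies in the local rings over `q`. -/
theorem exists_mov_loc (hγ : C.Mov γ) (a : C.R) : ∃ z : p.Loc, ∀ a' d : C.R,
    Subring.inclusion C.R_le d * C.movEl γ a = Subring.inclusion C.R_le a' →
      algebraMap C.R p.Loc d * z = algebraMap C.R p.Loc a' := by
  haveI := C.isDomain_trRing
  haveI := p.isNoetherian_loc
  haveI := p.ufd_loc
  haveI := p.isIntegrallyClosed_loc
  obtain ⟨a₀, d₀, hd₀, h₀⟩ := C.exists_mov_frac Ω.fixed hγ a
  obtain ⟨P, hP, hP0⟩ := C.exists_mov_poly Ω.fixed γ a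
  have hinc := Subring.inclusion_injective C.R_le
  have heq : (Polynomial.scaleRoots P d₀).eval a₀ = 0 := by
    refine hinc ?_
    rw [map_zero, ← Polynomial.eval₂_at_apply, ← h₀]
    exact Polynomial.scaleRoots_eval₂_eq_zero _ hP0
  obtain ⟨z, hz0⟩ := exists_quot_of_scaleRoots (algebraMap C.R p.Loc) (p.loc_alg_ne hd₀) hP heq
  refine ⟨z, fun a' d h => mul_left_cancel₀ (p.loc_alg_ne hd₀) ?_⟩
  have hx : d * a₀ = d₀ * a' := hinc (by rw [map_mul, map_mul, ← h₀, ← h]; ring)
  rw [mul_left_comm, hz0, ← map_mul, ← map_mul, hx]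

/-- The translate in the local ring, as a ring homomorphism. -/
def movLoc (hγ : C.Mov γ) : C.R →+* p.Loc :=
  RingHom.mk'
    { toFun := fun a => (p.exists_mov_loc hγ a).choose
      map_one' := by
        have h := (p.exists_mov_loc hγ 1).choose_spec 1 1 (by rw [map_one, map_one, one_mul])
        rwa [map_one, one_mul] at h
      map_mul' := fun a b => by
        obtain ⟨a₁, d₁, hd₁, h₁⟩ := C.exists_mov_frac Ω.fixed hγ a
        obtain ⟨a₂, d₂, hd₂, h₂⟩ := C.exists_mov_frac Ω.fixed hγ b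
        have h := (p.exists_mov_loc hγ (a * b)).choose_spec (a₁ * a₂) (d₁ * d₂) (by
          rw [map_mul (Subring.inclusion C.R_le) d₁, map_mul (C.movEl γ) a,
            map_mul (Subring.inclusion C.R_le) a₁, ← h₁, ← h₂]
          ring)
        refine mul_left_cancel₀ (p.loc_alg_ne (mul_ne_zero hd₁ hd₂)) ?_
        rw [h, map_mul (algebraMap C.R p.Loc) a₁, map_mul (algebraMap C.R p.Loc) d₁,
          ← (p.exists_mov_loc hγ a).choose_spec a₁ d₁ h₁,
          ← (p.exists_mov_loc hγ b).choose_spec a₂ d₂ h₂]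
        ring }
    fun a b => by
      obtain ⟨a₁, d₁, hd₁, h₁⟩ := C.exists_mov_frac Ω.fixed hγ a
      obtain ⟨a₂, d₂, hd₂, h₂⟩ := C.exists_mov_frac Ω.fixed hγ b
      have h := (p.exists_mov_loc hγ (a + b)).choose_spec (a₁ * d₂ + a₂ * d₁) (d₁ * d₂) (by
        rw [map_mul (Subring.inclusion C.R_le) d₁, map_add (C.movEl γ) a,
          map_add (Subring.inclusion C.R_le), map_mul (Subring.inclusion C.R_le) a₁,
          map_mul (Subring.inclusion C.R_le) a₂, ← h₁, ← h₂]
        ring)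
      refine mul_left_cancel₀ (p.loc_alg_ne (mul_ne_zero hd₁ hd₂)) ?_
      show _ * (p.exists_mov_loc hγ (a + b)).choose = _ * ((p.exists_mov_loc hγ a).choose +
        (p.exists_mov_loc hγ b).choose)
      rw [h, map_add (algebraMap C.R p.Loc), map_mul (algebraMap C.R p.Loc) a₁,
        map_mul (algebraMap C.R p.Loc) a₂, map_mul (algebraMap C.R p.Loc) d₁,
        ← (p.exists_mov_loc hγ a).choose_spec a₁ d₁ h₁,
        ← (p.exists_mov_loc hγ b).choose_spec a₂ d₂ h₂]
      ring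

theorem movLoc_spec (hγ : C.Mov γ) {a a' d : C.R}
    (h : Subring.inclusion C.R_le d * C.movEl γ a = Subring.inclusion C.R_le a') :
    algebraMap C.R p.Loc d * p.movLoc hγ a = algebraMap C.R p.Loc a' :=
  (p.exists_mov_loc hγ a).choose_spec a' d h

theorem movLoc_of_coe (hγ : C.Mov γ) {a b : C.R} (h : compg γ (a : ℍ → ℂ) = b) :
    p.movLoc hγ a = algebraMap C.R p.Loc b := by
  have := p.movLoc_spec hγ (a := a) (a' := b) (d := 1)
    (by rw [map_one, one_mul]; exact C.movEl_of_coe h)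
  rwa [map_one, one_mul] at this

theorem movLoc_cW (hγ : C.Mov γ) (w : C.W) :
    p.movLoc hγ (C.cW w) = algebraMap C.R p.Loc (C.cW w) := p.movLoc_of_coe hγ rfl

/-- The moved point. -/
def mov (hγ : C.Mov γ) : Pt Ω :=
  ⟨p.πL.comp (p.movLoc hγ), RingHom.ext fun w => by
    simp only [RingHom.comp_apply, p.movLoc_cW hγ, p.πL_alg, p.π_cW]⟩

theorem mov_π (hγ : C.Mov γ) (a : C.R) : (p.mov hγ).π a = p.πL (p.movLoc hγ a) := rfl

theorem mov_side (hγ : C.Mov γ) (b : Bool) : ∃ e e' : C.R, e * e' = 1 ∧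
    p.movLoc hγ (C.wR b) = algebraMap C.R p.Loc (e * C.wR b) ∧
    p.movLoc hγ (C.vR b) = algebraMap C.R p.Loc (e' * C.vR b) := by
  obtain ⟨e, e', he, hw, hv⟩ := (C.side_mov hγ b).2.2
  exact ⟨e, e', he, p.movLoc_of_coe hγ hw, p.movLoc_of_coe hγ hv⟩

theorem mov_ss (hγ : C.Mov γ) (E : Eqs Ω) (hss : p.π E.OmR = 0) : (p.mov hγ).π E.OmR = 0 := by
  by_contra h
  obtain ⟨e, e', -, hw, hv⟩ := p.mov_side hγ false
  obtain ⟨s1, s2⟩ := p.side_zero E hss false
  rcases (p.mov hγ).side_ne E h false with ⟨h1, -⟩ | ⟨h1, -⟩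
  · exact h1 (by rw [p.mov_π, hw, p.πL_alg, map_mul, s1, mul_zero])
  · exact h1 (by rw [p.mov_π, hv, p.πL_alg, map_mul, s2, mul_zero])

variable {g : C.Sheet} {j : Fin 3} (hle : RingHom.ker (Ω.rs g j) ≤ p.ideal)
include hle

/-- The reduction on a branch through a point, on its local ring. -/
def rsLoc : p.Loc →+* LaurentSeries k :=
  IsLocalization.lift (M := p.ideal.primeCompl) (g := Ω.rs g j) fun s =>
    IsUnit.mk0 _ fun h => s.2 (hle (RingHom.mem_ker.2 h))

theorem rsLoc_alg (x : C.R) : p.rsLoc hle (algebraMap C.R p.Loc x) = Ω.rs g j x :=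
  IsLocalization.lift_eq _ x

/-- The reduction on the moved branch. -/
def movRs (hγ : C.Mov γ) : C.R →+* LaurentSeries k := (p.rsLoc hle).comp (p.movLoc hγ)

theorem movRs_spec (hγ : C.Mov γ) {a a' d : C.R}
    (h : Subring.inclusion C.R_le d * C.movEl γ a = Subring.inclusion C.R_le a') :
    Ω.rs g j d * p.movRs hle hγ a = Ω.rs g j a' := by
  rw [movRs, RingHom.comp_apply, ← p.rsLoc_alg hle, ← map_mul, p.movLoc_spec hγ h, p.rsLoc_alg hle]

theorem movRs_value (hγ : C.Mov γ) (a : C.R) :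
    (p.movRs hle hγ a, (p.mov hγ).π a) ∈ p.EV g j := by
  obtain ⟨⟨x, s⟩, hx⟩ := IsLocalization.surj p.ideal.primeCompl (p.movLoc hγ a)
  change p.movLoc hγ a * algebraMap C.R p.Loc s.1 = algebraMap C.R p.Loc x at hx
  refine ⟨x, s.1, fun h => s.2 (p.mem_ideal.2 h), ?_, ?_⟩
  · have := congrArg (p.rsLoc hle) hx
    rw [map_mul, p.rsLoc_alg hle, p.rsLoc_alg hle, mul_comm] at this
    exact this
  · have := congrArg p.πL hx
    rw [map_mul, p.πL_alg, p.πL_alg, mul_comm] at this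
    exact this

/-- The moved branch is a branch of the same kind through the moved point. -/
theorem exists_branch_mov (hγ : C.Mov γ) : ∃ g' : C.Sheet,
    RingHom.ker (Ω.rs g' j) = RingHom.ker (p.movRs hle hγ) ∧
      RingHom.ker (Ω.rs g' j) ≤ (p.mov hγ).ideal := by
  set ψ := p.movRs hle hγ
  have hsub : RingHom.ker ψ ≤ (p.mov hγ).ideal := fun a ha => by
    rw [(p.mov hγ).mem_ideal]
    have h1 := p.movRs_value hle hγ a
    rw [show p.movRs hle hγ a = 0 from ha] at h1
    exact p.ev_unique hle h1 (p.EV g j).zero_mem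
  haveI : (RingHom.ker ψ).IsPrime := RingHom.ker_isPrime _
  obtain ⟨l, hl⟩ := Ω.exists_ker_le (RingHom.ker ψ) (by
    rw [RingHom.mem_ker, show ψ (q : C.R) = ((q : ℕ) : LaurentSeries k) from map_natCast ψ q,
      ← map_natCast (Ω.rs g j) q]
    exact Ω.red_natCast _)
  have hlk : RingHom.ker (Ω.rs (C.sheet l) (C.kind l)) = Ω.ker (C.rep l) :=
    (congrArg RingHom.ker (Ω.red_rep l)).symm
  rw [← hlk] at hl
  set g' := C.sheet l
  set j' := C.kind l
  -- the kind
  have hside : ∀ b, (C.kroot j' b = none → C.kroot j b = none) ∧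
      (C.kroot j' b ≠ none → C.kroot j b ≠ none) := fun b => by
    obtain ⟨e, e', he, hw, hv⟩ := p.mov_side hγ b
    have he' : Ω.rs g j e ≠ 0 ∧ Ω.rs g j e' ≠ 0 :=
      mul_ne_zero_iff.1 (by rw [← map_mul, he, map_one]; exact one_ne_zero)
    have hψw : ψ (C.wR b) = Ω.rs g j e * Ω.rs g j (C.wR b) := by
      simp only [ψ, movRs, RingHom.comp_apply, hw, p.rsLoc_alg hle, map_mul]
    have hψv : ψ (C.vR b) = Ω.rs g j e' * Ω.rs g j (C.vR b) := by
      simp only [ψ, movRs, RingHom.comp_apply, hv, p.rsLoc_alg hle, map_mul]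
    have hnu : Ω.nu ≠ 0 := div_ne_zero Ω.ee_ne (pow_ne_zero _ Ω.ee_ne)
    have hom : Ω.om ≠ 0 := by rw [← Ω.nu_pow]; exact pow_ne_zero _ hnu
    refine ⟨fun hn => ?_, fun hn => ?_⟩
    · by_contra hj
      have h0 : ψ (C.vR b) = 0 :=
        hl (RingHom.mem_ker.2 ((Ω.rs_side g' j' b).1 hn).2.1)
      rw [hψv, ((Ω.rs_side g j b).2 hj).2.2] at h0
      exact mul_ne_zero he'.2 hnu h0
    · intro hj
      have h0 : ψ (C.wR b) = 0 :=
        hl (RingHom.mem_ker.2 ((Ω.rs_side g' j' b).2 hn).2.1)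
      rw [hψw, ((Ω.rs_side g j b).1 hj).2.2] at h0
      exact mul_ne_zero he'.1 hom h0
  obtain rfl : j' = j := by
    have h0 := hside false
    have h1 := hside true
    revert h0 h1
    generalize j' = i
    fin_cases i <;> fin_cases j <;> simp [Ctx.kroot]
  -- incomparability over the line
  refine ⟨g', eq_of_le_of_not_lt hl fun hlt => ?_, hl.trans hsub⟩
  haveI : Algebra.IsIntegral C.U C.R := ⟨C.isIntegral_U Ω.fixed⟩
  haveI : (RingHom.ker (Ω.rs g' j')).IsPrime := RingHom.ker_isPrime _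
  obtain ⟨u, hu, hu'⟩ := SetLike.exists_of_lt (Ideal.IsIntegral.comap_lt_comap (R := C.U) (A := C.R) hlt)
  refine hu' (RingHom.mem_ker.2 ?_)
  show Ω.rs g' j' (u : C.R) = 0
  obtain ⟨u', hu'U, huu⟩ := C.line_mov γ u.2
  have h1 : Ω.rs g j' u' = 0 := by
    have h2 : ψ (u : C.R) = 0 := hu
    rwa [show ψ (u : C.R) = Ω.rs g j' u' by
      simp only [ψ, movRs, RingHom.comp_apply, p.movLoc_of_coe hγ huu, p.rsLoc_alg hle]] at h2
  obtain ⟨v, hv⟩ := Ω.dvd_of_red_U hu'U h1
  have hdR : C.evR C.dltW ∈ C.U := C.evR_mem_U _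
  obtain ⟨P, s, hP⟩ := C.exists_U_form hu'U
  have hvinv : ∀ δ ∈ CongruenceSubgroup.Gamma M0, compg δ (v : ℍ → ℂ) = v := fun δ hδ => by
      have hq : ((q : C.R) : ℍ → ℂ) = fun _ => (q : ℂ) := by
        funext τ; simp
      have huinv : compg δ (u' : ℍ → ℂ) = u' := by
        have h3 := congrArg (fun z : C.R => (z : ℍ → ℂ)) hP
        have hev : ∀ Q : Polynomial C.W, compg δ (C.evR Q : ℍ → ℂ) = C.evR Q := fun Q => by
          have := congrArg Subtype.val (C.trComp_evT hδ (Q.map C.inc))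
          rw [← C.incl_evR] at this
          exact this
        have h4 : compg δ ((u' : ℍ → ℂ) * ((C.evR C.dltW ^ s : C.R) : ℍ → ℂ)) =
            (u' : ℍ → ℂ) * ((C.evR C.dltW ^ s : C.R) : ℍ → ℂ) := by
          have h5 : (u' : ℍ → ℂ) * ((C.evR C.dltW ^ s : C.R) : ℍ → ℂ) = (C.evR P : ℍ → ℂ) := h3
          rw [h5]
          exact hev P
        rw [map_mul, ← map_pow, hev] at h4
        funext τ
        refine mul_right_cancel₀ ?_ (congrFun h4 τ)
        have h6 := congrArg (fun z : C.R => (z : ℍ → ℂ) τ)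
          (congrArg (· ^ s) C.evR_dltW_mul_dR)
        simp only [one_pow, mul_pow] at h6
        rw [← map_pow C.evR, Subring.coe_mul, Pi.mul_apply, Subring.coe_one, Pi.one_apply] at h6
        exact left_ne_zero_of_mul_eq_one h6
      funext τ
      refine mul_left_cancel₀ (Nat.cast_ne_zero.2 (NeZero.ne q) : (q : ℂ) ≠ 0) ?_
      have e : ∀ x : ℍ, (u' : ℍ → ℂ) x = (q : ℂ) * (v : ℍ → ℂ) x := fun x => by
        rw [hv, Subring.coe_mul, Pi.mul_apply, hq]
      rw [← e]
      show (q : ℂ) * (v : ℍ → ℂ) (δ • τ) = _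
      rw [← e]
      exact congrFun huinv τ
  have hvU : ∃ w ∈ C.U, compg γ⁻¹ (v : ℍ → ℂ) = w := by
    refine C.line_mov γ⁻¹ ?_
    obtain ⟨x, hx, hx'⟩ := C.exists_mem_U (Subring.inclusion C.R_le v) hvinv fun i => by
      rw [C.ser_incl]
      exact C.coeff_embAt_one Ω.fixed v i
    exact (Subring.inclusion_injective C.R_le hx') ▸ hx
  obtain ⟨w, -, hw⟩ := hvU
  have huq : (u : C.R) = (q : C.R) * w := Subtype.ext (by
    rw [Subring.coe_mul, ← hw, show ((u : C.R) : ℍ → ℂ) = compg γ⁻¹ (u' : ℍ → ℂ) by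
      rw [← huu, compg_compg, mul_inv_cancel, compg_one], hv, Subring.coe_mul, map_mul]
    congr 1)
  rw [huq, map_mul, show Ω.rs g' j' (q : C.R) = 0 from Ω.red_natCast _, zero_mul]

end Pt

end FLTAgent.Carayol
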