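import Fermat.Agent.Carayol.StableFrac
import Fermat.Agent.Carayol.Invariant

/-!
# Translates of the auxiliary cover by elements normalising it

An element of `SL(2, ℤ)` which is upper triangular modulo the auxiliary level `N'` and diagonal
modulo `q` normalises the stabiliser of the triple. The translates of the coordinate, of the two
isogenous coordinates and of their slopes lie in the cover.
-/

set_option autoImplicit false
set_option linter.unusedSectionVars false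
set_option linter.style.haveILetI false

noncomputable section

open UpperHalfPlane hiding I I_re I_im
open Filter Topology Complex Function FLTAgent.ModEq FLTAgent.GoodModel ModularCurve
open scoped MatrixGroups Manifold Classical

namespace FLTAgent.Carayol

theorem den_mul_mov (σ γ : SL(2, ℤ)) (τ : ℍ) : den (σ * γ) τ = den σ (γ • τ) * den γ τ := by
  have hg : ((γ 1 0 : ℤ) : ℂ) * τ + (γ 1 1 : ℤ) ≠ 0 := den_ne_zero γ τ
  simp only [den, Matrix.SpecialLinearGroup.coe_mul, Matrix.mul_apply, Fin.sum_univ_two,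
    coe_sl_smul' γ]
  push_cast
  field_simp
  ring

/-- Composition with multiplication by `q`. -/
def affHom (q : ℕ) [NeZero q] : (ℍ → ℂ) →+* (ℍ → ℂ) :=
  RingHom.pi fun τ => Pi.evalRingHom (fun _ : ℍ => ℂ) (affPt q 0 1 τ)

theorem affHom_apply (q : ℕ) [NeZero q] (f : ℍ → ℂ) (τ : ℍ) :
    affHom q f τ = f (affPt q 0 1 τ) := rfl

namespace Ctx

variable {q M0 N' : ℕ} [NeZero M0] [NeZero N'] [NeZero q] [Fact q.Prime] (C : Ctx q M0 N')

/-- The elements normalising the cover. -/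
structure Mov (_C : Ctx q M0 N') (γ : SL(2, ℤ)) : Prop where
  dN : (N' : ℤ) ∣ γ 1 0
  q01 : (q : ℤ) ∣ γ 0 1
  q10 : (q : ℤ) ∣ γ 1 0

variable {C}

theorem Mov.mul {γ γ' : SL(2, ℤ)} (h : C.Mov γ) (h' : C.Mov γ') : C.Mov (γ * γ') := by
  have e10 : (γ * γ') 1 0 = γ 1 0 * γ' 0 0 + γ 1 1 * γ' 1 0 := by
    simp [Matrix.SpecialLinearGroup.coe_mul, Matrix.mul_apply, Fin.sum_univ_two]
  have e01 : (γ * γ') 0 1 = γ 0 0 * γ' 0 1 + γ 0 1 * γ' 1 1 := by
    simp [Matrix.SpecialLinearGroup.coe_mul, Matrix.mul_apply, Fin.sum_univ_two]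
  exact ⟨e10 ▸ dvd_add (dvd_mul_of_dvd_left h.dN _) (dvd_mul_of_dvd_right h'.dN _),
    e01 ▸ dvd_add (dvd_mul_of_dvd_right h'.q01 _) (dvd_mul_of_dvd_left h.q01 _),
    e10 ▸ dvd_add (dvd_mul_of_dvd_left h.q10 _) (dvd_mul_of_dvd_right h'.q10 _)⟩

theorem Mov.one : C.Mov 1 := ⟨by simp, by simp, by simp⟩

theorem Mov.inv {γ : SL(2, ℤ)} (h : C.Mov γ) : C.Mov γ⁻¹ := by
  have e10 : γ⁻¹ 1 0 = -γ 1 0 := by
    simp [Matrix.SpecialLinearGroup.coe_inv, Matrix.adjugate_fin_two]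
  have e01 : γ⁻¹ 0 1 = -γ 0 1 := by
    simp [Matrix.SpecialLinearGroup.coe_inv, Matrix.adjugate_fin_two]
  exact ⟨by rw [e10]; exact dvd_neg.2 h.dN, by rw [e01]; exact dvd_neg.2 h.q01,
    by rw [e10]; exact dvd_neg.2 h.q10⟩

theorem conj_mem (γ : SL(2, ℤ)) {δ : SL(2, ℤ)} (hδ : δ ∈ CongruenceSubgroup.Gamma M0) :
    γ * δ * γ⁻¹ ∈ CongruenceSubgroup.Gamma M0 :=
  (CongruenceSubgroup.Gamma_normal M0).conj_mem δ hδ γ

variable (C)

theorem vmul_conj {γ δ : SL(2, ℤ)} (hγ : C.Mov γ) (hδ : δ ∈ CongruenceSubgroup.Gamma M0)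
    (hc : ((M0 * N' : ℕ) : ℤ) ∣ δ 1 0) :
    VEq (M0 * N') (vmul ((0, 1) : Vec) (γ * δ * γ⁻¹)) (vmul ((0, 1) : Vec) δ) := by
  obtain ⟨h00, h01, h10, h11⟩ := CongruenceSubgroup.Gamma_mem.mp hδ
  obtain ⟨c, hc⟩ := hc
  obtain ⟨g, hg⟩ := hγ.dN
  obtain ⟨b, hb⟩ : (M0 : ℤ) ∣ δ 0 1 := (ZMod.intCast_zmod_eq_zero_iff_dvd _ _).1 h01
  obtain ⟨e, he⟩ : (M0 : ℤ) ∣ δ 0 0 - δ 1 1 := (ZMod.intCast_zmod_eq_zero_iff_dvd _ _).1 (by
    push_cast; rw [h00, h11, sub_self])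
  have hdet := det_eq γ
  constructor <;> rw [ZMod.intCast_eq_intCast_iff_dvd_sub] <;>
    simp only [vmul, Matrix.SpecialLinearGroup.coe_mul, Matrix.SpecialLinearGroup.coe_inv,
      Matrix.adjugate_fin_two, Matrix.mul_apply, Fin.sum_univ_two, Matrix.of_apply,
      Matrix.cons_val', Matrix.cons_val_zero, Matrix.cons_val_one, Matrix.empty_val',
      Matrix.cons_val_fin_one]
  · refine ⟨c - γ 1 1 * γ 1 1 * c - γ 1 1 * g * e + g * γ 1 0 * b, ?_⟩
    push_cast at hc ⊢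
    linear_combination (1 - γ 1 1 * γ 1 1) * hc - (γ 1 1 * γ 1 0) * he + (γ 1 0 ^ 2) * hb +
      ((M0 : ℤ) * b * γ 1 0 - γ 1 1 * M0 * e) * hg
  · refine ⟨γ 0 1 * g * e - γ 0 0 * g * b + γ 0 1 * γ 1 1 * c, ?_⟩
    push_cast at hc ⊢
    linear_combination (-δ 1 1) * hdet + (γ 0 1 * γ 1 0) * he - (γ 0 0 * γ 1 0) * hb +
      (γ 0 1 * γ 1 1) * hc + (γ 0 1 * (M0 : ℤ) * e - γ 0 0 * (M0 : ℤ) * b) * hg

theorem fix_conj {γ δ : SL(2, ℤ)} (hγ : C.Mov γ) (hδ : δ ∈ CongruenceSubgroup.Gamma M0) :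
    (compg δ C.eta = C.eta → compg (γ * δ * γ⁻¹) C.eta = C.eta) ∧
      (compg δ C.sX = C.sX → compg (γ * δ * γ⁻¹) C.sX = C.sX) ∧
      (compg δ (C.rX (some 0)) = C.rX (some 0) →
        compg (γ * δ * γ⁻¹) (C.rX (some 0)) = C.rX (some 0)) := by
  have hk := conj_mem γ hδ
  have hnz := (level_nz (n := M0 * N') C.hM rfl).2.2.2.2
  refine ⟨fun he => ?_, fun hx => ?_, fun hz => ?_⟩
  · have hv := C.vmul_conj hγ hδ (C.dvd_of_fix_eta hδ he)
    rw [eta, f0, compg_fvv (n := M0 * N') rfl hδ] at he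
    rw [eta, f0, compg_fvv (n := M0 * N') rfl hk]
    refine (fvv_congr_iff C.hM rfl (hnz.vmul _) hnz).2 ?_
    rcases (fvv_congr_iff C.hM rfl (hnz.vmul δ) hnz).1 he with e | e
    · exact Or.inl ⟨hv.1.trans e.1, hv.2.trans e.2⟩
    · exact Or.inr ⟨hv.1.trans e.1, hv.2.trans e.2⟩
  · rw [C.fix_sX_iff hδ] at hx
    rw [C.fix_sX_iff hk, show (γ * δ * γ⁻¹) 1 0 = γ 1 0 * (δ 0 0 * γ 1 1 - δ 0 1 * γ 1 0) +
      γ 1 1 * (δ 1 0 * γ 1 1 - δ 1 1 * γ 1 0) by
        simp [Matrix.SpecialLinearGroup.coe_mul, Matrix.SpecialLinearGroup.coe_inv,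
          Matrix.adjugate_fin_two, Matrix.mul_apply, Fin.sum_univ_two]
        ring]
    exact dvd_add (dvd_mul_of_dvd_left hγ.q10 _) (dvd_mul_of_dvd_right
      (dvd_sub (dvd_mul_of_dvd_left hx _) (dvd_mul_of_dvd_right hγ.q10 _)) _)
  · rw [C.fix_rX0_iff hδ] at hz
    rw [C.fix_rX0_iff hk, show (γ * δ * γ⁻¹) 0 1 = γ 0 0 * (δ 0 1 * γ 0 0 - δ 0 0 * γ 0 1) +
      γ 0 1 * (δ 1 1 * γ 0 0 - δ 1 0 * γ 0 1) by
        simp [Matrix.SpecialLinearGroup.coe_mul, Matrix.SpecialLinearGroup.coe_inv,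
          Matrix.adjugate_fin_two, Matrix.mul_apply, Fin.sum_univ_two]
        ring]
    exact dvd_add (dvd_mul_of_dvd_right
      (dvd_sub (dvd_mul_of_dvd_left hz _) (dvd_mul_of_dvd_right hγ.q01 _)) _)
      (dvd_mul_of_dvd_left hγ.q01 _)

theorem triple_conj {γ δ : SL(2, ℤ)} (hγ : C.Mov γ) (hδ : δ ∈ CongruenceSubgroup.Gamma M0)
    (h : C.triple δ = C.triple 1) : C.triple (γ * δ * γ⁻¹) = C.triple 1 := by
  simp only [triple, compg_one, Prod.mk.injEq] at h ⊢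
  obtain ⟨h1, h2, h3⟩ := C.fix_conj hγ hδ
  exact ⟨h1 h.1, h2 h.2.1, h3 h.2.2⟩

/-- Translates by normalising elements only depend on the triple. -/
theorem stab_mov {γ : SL(2, ℤ)} (hγ : C.Mov γ) (a : C.R) :
    C.Stab (compg γ (a : ℍ → ℂ)) := by
  intro γ₁ γ₂ h₁ h₂ h
  set δ := γ₂ * γ₁⁻¹ with hδdef
  have hδ : δ ∈ CongruenceSubgroup.Gamma M0 := mul_mem h₂ (inv_mem h₁)
  have ht : C.triple δ = C.triple 1 := by
    simp only [triple, Prod.mk.injEq] at h ⊢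
    refine ⟨?_, ?_, ?_⟩ <;> rw [hδdef, ← compg_compg]
    · rw [← h.1, compg_compg, mul_inv_cancel]
    · rw [← h.2.1, compg_compg, mul_inv_cancel]
    · rw [← h.2.2, compg_compg, mul_inv_cancel]
  have hfix := (C.compg_congr (conj_mem γ hδ) (one_mem _) (C.triple_conj hγ hδ ht) a).trans
    (compg_one _)
  have h2 : compg δ (compg γ (a : ℍ → ℂ)) = compg γ (a : ℍ → ℂ) := by
    conv_rhs => rw [← hfix]
    rw [compg_compg, compg_compg, inv_mul_cancel_right]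
  conv_lhs => rw [← h2]
  rw [compg_compg, hδdef, inv_mul_cancel_right]

/-- Invariant functions of level `M₀` lie in the ring of the line. -/
theorem exists_U_of_level {φ : ℍ → ℂ} (hφ : φ ∈ trRing C.W M0)
    (hinv : ∀ δ ∈ CongruenceSubgroup.Gamma M0, compg δ φ = φ) :
    ∃ u ∈ C.U, (u : ℍ → ℂ) = φ := by
  have hφS := mem_trRing_of_level C.hWS (k := N' * q) (n := M0 * (N' * q)) rfl hφ
  obtain ⟨G, hG⟩ := mem_trRing.mp hφ 1
  rw [compg_one] at hG
  have hser : ser ⟨φ, hφS⟩ = qExpand C.S (N' * q) (coeffMap C.inc G) :=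
    sPairs_unique (ser_spec _) (sPairs_refine rfl (sPairs_mono C.hWS hG))
  obtain ⟨u, hu, hu'⟩ := C.exists_mem_U ⟨φ, hφS⟩ hinv fun k => by
    rw [hser, ← coeffMap_qExpand, coeffMap_coeff]
    exact ⟨_, rfl⟩
  exact ⟨u, hu, congrArg Subtype.val hu'⟩

include C in
theorem compg_invariant (γ : SL(2, ℤ)) {φ : ℍ → ℂ}
    (hinv : ∀ δ ∈ CongruenceSubgroup.Gamma M0, compg δ φ = φ) :
    ∀ δ ∈ CongruenceSubgroup.Gamma M0, compg δ (compg γ φ) = compg γ φ := fun δ hδ => by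
  conv_rhs => rw [← hinv _ (conj_mem γ hδ)]
  rw [compg_compg, compg_compg, inv_mul_cancel_right]

theorem T_inv : ∀ δ ∈ CongruenceSubgroup.Gamma M0, compg δ C.T = C.T := fun _ hδ =>
  funext fun τ => C.T_pm (Or.inl hδ) τ

theorem dlt_inv_inv : ∀ δ ∈ CongruenceSubgroup.Gamma M0,
    compg δ (fun τ => (C.dlt τ)⁻¹) = fun τ => (C.dlt τ)⁻¹ := fun δ hδ => funext fun τ => by
  simp only [compg_apply, dlt, C.T_pm (Or.inl hδ)]

/-- The translate of the differential, normalised. -/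
def thR (σ : SL(2, ℤ)) : ℍ → ℂ := fun τ => C.co.Θ (σ • τ) / den σ τ ^ 2 / C.co.Θ τ

theorem thR_ne (σ : SL(2, ℤ)) (τ : ℍ) : C.thR σ τ ≠ 0 :=
  div_ne_zero (div_ne_zero (C.co.Θ_ne _) (pow_ne_zero 2 (den_ne σ τ))) (C.co.Θ_ne τ)

theorem thR_inv_mem (σ : SL(2, ℤ)) :
    C.thR σ ∈ trRing C.W M0 ∧ (fun τ => (C.thR σ τ)⁻¹) ∈ trRing C.W M0 := by
  have key : ∀ ρ : SL(2, ℤ), ∃ U : (LaurentSeries C.W)ˣ,
      (compg ρ (C.thR σ), (U : LaurentSeries C.W)) ∈ sPairs C.W M0 := fun ρ => by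
    obtain ⟨U1, h1⟩ := C.co.Θ_unit (σ * ρ)
    obtain ⟨U2, h2⟩ := C.co.Θ_unit ρ
    have n2 : ∀ τ, C.co.Θ (ρ • τ) / den ρ τ ^ 2 ≠ 0 := fun τ =>
      div_ne_zero (C.co.Θ_ne _) (pow_ne_zero 2 (den_ne ρ τ))
    refine ⟨U1 * U2⁻¹, ?_⟩
    have h := (sPairs C.W M0).mul_mem h1 (sPairs_inv U2 h2 n2)
    rw [Units.val_mul]
    convert h using 1
    refine Prod.ext (funext fun τ => ?_) rfl
    have e1 := den_ne σ (ρ • τ)
    have e2 := den_ne ρ τ
    have e3 := C.co.Θ_ne (ρ • τ)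
    simp only [compg_apply, thR, Prod.fst_mul, Pi.mul_apply, den_mul_mov, mul_smul]
    field_simp
  refine ⟨mem_trRing.mpr fun ρ => ?_, mem_trRing.mpr fun ρ => ?_⟩
  · obtain ⟨U, hU⟩ := key ρ
    exact ⟨_, hU⟩
  · obtain ⟨U, hU⟩ := key ρ
    exact ⟨_, sPairs_inv U hU fun τ => C.thR_ne σ _⟩

theorem thR_invariant (σ : SL(2, ℤ)) :
    ∀ δ ∈ CongruenceSubgroup.Gamma M0, compg δ (C.thR σ) = C.thR σ := fun δ hδ => funext fun τ => by
  have hk := conj_mem σ hδ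
  have e : σ * δ = σ * δ * σ⁻¹ * σ := (inv_mul_cancel_right _ _).symm
  have h1 : C.co.Θ (σ • δ • τ) = den (σ * δ * σ⁻¹) (σ • τ) ^ 2 * C.co.Θ (σ • τ) := by
    have := C.co.Θ_weight _ hk (σ • τ)
    rwa [← mul_smul (σ * δ * σ⁻¹), inv_mul_cancel_right, mul_smul] at this
  have h2 : den σ (δ • τ) * den δ τ = den (σ * δ * σ⁻¹) (σ • τ) * den σ τ := by
    rw [← den_mul_mov, ← den_mul_mov, inv_mul_cancel_right]
  have e1 := den_ne σ τ
  have e2 := den_ne σ (δ • τ)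
  have e3 := den_ne δ τ
  have e4 := C.co.Θ_ne τ
  have h3 : den (σ * δ * σ⁻¹) (σ • τ) = den σ (δ • τ) * den δ τ / den σ τ := by
    rw [h2, mul_div_cancel_right₀ _ e1]
  simp only [compg_apply, thR, h1, C.co.Θ_weight δ hδ τ, h3]
  field_simp

/-- The composite of multiplication by `q` and a representative of a root. -/
def sideHom (b : Bool) : (ℍ → ℂ) →+* (ℍ → ℂ) := (compg (C.gr (C.sb b))).comp (affHom q)

theorem sideHom_mem (b : Bool) {u : C.R} (hu : u ∈ C.U) : C.sideHom b (u : ℍ → ℂ) ∈ C.R := by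
  set S0 : Subring C.R := C.R.comap ((C.sideHom b).comp C.R.subtype)
  suffices h : C.U ≤ S0 from h hu
  refine Subring.closure_le.2 ?_
  rintro x (⟨P, rfl⟩ | rfl)
  · show C.evR P ∈ S0
    induction P using Polynomial.induction_on' with
    | add P Q hP hQ => rw [map_add]; exact add_mem hP hQ
    | monomial i w =>
      rw [← Polynomial.C_mul_X_pow_eq_monomial, map_mul, map_pow]
      refine mul_mem ?_ (pow_mem ?_ i)
      · show C.sideHom b ((C.evR (Polynomial.C w) : C.R) : ℍ → ℂ) ∈ C.R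
        rw [Ctx.evR, Polynomial.coe_eval₂RingHom, Polynomial.eval₂_C]
        exact (C.cW w).2
      · show C.sideHom b ((C.evR Polynomial.X : C.R) : ℍ → ℂ) ∈ C.R
        rw [Ctx.evR, Polynomial.coe_eval₂RingHom, Polynomial.eval₂_X]
        exact (C.xR b).2
  · exact (C.uR b).2

include C in
/-- The matrix on the other side of multiplication by `q`. -/
theorem exists_aff_conj {γ : SL(2, ℤ)} (hc : (q : ℤ) ∣ γ 1 0) :
    ∃ δ : SL(2, ℤ), ∀ τ : ℍ, affPt q 0 1 (γ • τ) = δ • affPt q 0 1 τ ∧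
      den δ (affPt q 0 1 τ) = den γ τ := by
  obtain ⟨c', hc'⟩ := hc
  obtain ⟨δ, d00, d01, d10, d11⟩ : ∃ δ : SL(2, ℤ),
      δ 0 0 = γ 0 0 ∧ δ 0 1 = q * γ 0 1 ∧ δ 1 0 = c' ∧ δ 1 1 = γ 1 1 :=
    ⟨⟨!![γ 0 0, q * γ 0 1; c', γ 1 1], by
      rw [Matrix.det_fin_two_of]
      linear_combination (det_eq γ) + γ 0 1 * hc'⟩, rfl, rfl, rfl, rfl⟩
  refine ⟨δ, fun τ => ⟨?_, ?_⟩⟩
  · refine UpperHalfPlane.ext ?_
    rw [coe_sl_smul' δ, d00, d01, d10, d11, coe_affPt, coe_affPt, coe_sl_smul' γ]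
    have hden : ((γ 1 0 : ℤ) : ℂ) * τ + (γ 1 1 : ℤ) ≠ 0 := den_ne_zero γ τ
    have hc'' : ((γ 1 0 : ℤ) : ℂ) = q * c' := by exact_mod_cast hc'
    rw [hc''] at hden ⊢
    have : (c' : ℂ) * ((q : ℂ) * τ) + (γ 1 1 : ℤ) ≠ 0 := by convert hden using 1; ring
    push_cast
    simp only [add_zero, div_one]
    field_simp
  · simp only [den, d10, d11, coe_affPt]
    rw [show ((γ 1 0 : ℤ) : ℂ) = q * c' by exact_mod_cast hc']
    push_cast
    ring

/-- The translates of the functions of a side. -/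
theorem side_mov {γ : SL(2, ℤ)} (hγ : C.Mov γ) (b : Bool) :
    compg γ (C.xR b : ℍ → ℂ) ∈ C.R ∧ compg γ (C.uR b : ℍ → ℂ) ∈ C.R ∧
      ∃ e e' : C.R, e * e' = 1 ∧ compg γ (C.wR b : ℍ → ℂ) = (e * C.wR b : C.R) ∧
        compg γ (C.vR b : ℍ → ℂ) = (e' * C.vR b : C.R) := by
  set g := C.gr (C.sb b) with hg
  set γ' := g * γ * g⁻¹ with hγ'
  have hmove : ∀ f : ℍ → ℂ, compg γ (compg g f) = compg g (compg γ' f) := fun f => by
    rw [compg_compg, compg_compg, hγ', inv_mul_cancel_right]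
  have hc : (q : ℤ) ∣ γ' 1 0 := by
    cases b
    · have : g = 1 := rfl
      simpa [hγ', this] using hγ.q10
    · rw [← ZMod.intCast_zmod_eq_zero_iff_dvd, hγ', hg]
      show (((C.gr (some 0) * γ * (C.gr (some 0))⁻¹) 1 0 : ℤ) : ZMod q) = 0
      rw [C.conj_apply10, (ZMod.intCast_zmod_eq_zero_iff_dvd _ _).2 hγ.q01, mul_zero]
  obtain ⟨δ, hδ⟩ := C.exists_aff_conj hc
  obtain ⟨uT, huT, huT'⟩ := C.exists_U_of_level (compg_mem_trRing C.T_mem0 δ)
    (C.compg_invariant δ C.T_inv)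
  obtain ⟨uD, huD, huD'⟩ := C.exists_U_of_level (compg_mem_trRing C.dlt_inv_mem0 δ)
    (C.compg_invariant δ C.dlt_inv_inv)
  obtain ⟨u2, hu2, hu2'⟩ := C.exists_U_of_level (C.thR_inv_mem δ).1 (C.thR_invariant δ)
  obtain ⟨v2, hv2, hv2'⟩ := C.exists_U_of_level (C.thR_inv_mem δ).2 fun σ hσ => funext fun τ => by
    have := congrFun (C.thR_invariant δ σ hσ) τ
    simp only [compg_apply] at this ⊢
    rw [this]
  obtain ⟨u1, hu1, hu1'⟩ := C.exists_U_of_level (C.thR_inv_mem γ').1 (C.thR_invariant γ')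
  obtain ⟨v1, hv1, hv1'⟩ := C.exists_U_of_level (C.thR_inv_mem γ').2 fun σ hσ => funext fun τ => by
    have := congrFun (C.thR_invariant γ' σ hσ) τ
    simp only [compg_apply] at this ⊢
    rw [this]
  refine ⟨?_, ?_, ?_⟩
  · show compg γ (compg g C.sX) ∈ C.R
    have h1 : compg g (compg γ' C.sX) = C.sideHom b (uT : ℍ → ℂ) := by
      rw [huT']
      funext τ
      simp only [sideHom, RingHom.comp_apply, compg_apply, affHom_apply, sX, ← hg, (hδ _).1]
    rw [hmove, h1]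
    exact C.sideHom_mem b huT
  · show compg γ (compg g C.sU) ∈ C.R
    have h1 : compg g (compg γ' C.sU) = C.sideHom b (uD : ℍ → ℂ) := by
      rw [huD']
      funext τ
      simp only [sideHom, RingHom.comp_apply, compg_apply, affHom_apply, sU, ← hg, (hδ _).1]
    rw [hmove, h1]
    exact C.sideHom_mem b huD
  · have hcomp : ∀ u : C.R, u ∈ C.U → compg g (u : ℍ → ℂ) = u := fun u hu => by
      have hgm : g ∈ CongruenceSubgroup.Gamma M0 := C.gr_mem0 _
      set S0 : Subring C.R := RingHom.eqLocus ((compg g).comp C.R.subtype) C.R.subtype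
      suffices h : C.U ≤ S0 from h hu
      refine Subring.closure_le.2 ?_
      rintro x (⟨P, rfl⟩ | rfl)
      · show C.evR P ∈ S0
        induction P using Polynomial.induction_on' with
        | add P Q hP hQ => rw [map_add]; exact add_mem hP hQ
        | monomial i w =>
          rw [← Polynomial.C_mul_X_pow_eq_monomial, map_mul, map_pow]
          refine mul_mem ?_ (pow_mem ?_ i)
          · show compg g ((C.evR (Polynomial.C w) : C.R) : ℍ → ℂ) = _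
            rw [Ctx.evR, Polynomial.coe_eval₂RingHom, Polynomial.eval₂_C]
            rfl
          · show compg g ((C.evR Polynomial.X : C.R) : ℍ → ℂ) = _
            rw [Ctx.evR, Polynomial.coe_eval₂RingHom, Polynomial.eval₂_X]
            exact C.T_inv g hgm
      · exact C.dlt_inv_inv g hgm
    refine ⟨u1 * ⟨_, C.sideHom_mem b hv2⟩, v1 * ⟨_, C.sideHom_mem b hu2⟩, ?_, ?_, ?_⟩
    · refine Subtype.ext (funext fun τ => ?_)
      show (u1 : ℍ → ℂ) τ * C.sideHom b (v2 : ℍ → ℂ) τ *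
        ((v1 : ℍ → ℂ) τ * C.sideHom b (u2 : ℍ → ℂ) τ) = 1
      simp only [hu1', hv1', sideHom, RingHom.comp_apply, compg_apply, affHom_apply, hu2', hv2']
      have e1 := C.thR_ne γ' τ
      have e2 := C.thR_ne δ (affPt q 0 1 (g • τ))
      simp only [← hg]
      field_simp
    all_goals
      funext τ
      have a1 := congrFun (hcomp u1 hu1) τ
      have a2 := congrFun (hcomp v1 hv1) τ
      simp only [compg_apply, hu1', hv1'] at a1 a2
    · show compg γ (compg g C.sW) τ =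
        (u1 : ℍ → ℂ) τ * C.sideHom b (v2 : ℍ → ℂ) τ * compg g C.sW τ
      rw [hmove, congrFun hu1' τ, ← a1]
      simp only [sideHom, RingHom.comp_apply, compg_apply, affHom_apply, hv2', sW, ← hg,
        thR, (hδ _).1, (hδ _).2]
      have e1 := C.co.Θ_ne (g • τ)
      have e2 := C.co.Θ_ne (affPt q 0 1 (g • τ))
      have e3 := den_ne γ' (g • τ)
      field_simp
    · show compg γ (compg g C.sV) τ =
        (v1 : ℍ → ℂ) τ * C.sideHom b (u2 : ℍ → ℂ) τ * compg g C.sV τ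
      rw [hmove, show (v1 : ℍ → ℂ) τ = (C.thR γ' τ)⁻¹ from congrFun hv1' τ, ← a2]
      simp only [sideHom, RingHom.comp_apply, compg_apply, affHom_apply, hu2', sV, ← hg,
        thR, (hδ _).1, (hδ _).2]
      have e1 := C.co.Θ_ne (g • τ)
      have e2 := C.co.Θ_ne (affPt q 0 1 (g • τ))
      have e3 := den_ne γ' (g • τ)
      field_simp

/-- The translates of the coordinate. -/
theorem line_mov (γ : SL(2, ℤ)) {u : C.R} (hu : u ∈ C.U) :
    ∃ u' ∈ C.U, compg γ (u : ℍ → ℂ) = u' := by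
  set f : C.R →+* (ℍ → ℂ) := (compg γ).comp C.R.subtype
  suffices h : C.U ≤ (C.U.map C.R.subtype).comap f by
    obtain ⟨u', hu', e⟩ := h hu
    exact ⟨u', hu', e.symm⟩
  refine Subring.closure_le.2 ?_
  rintro x (⟨P, rfl⟩ | rfl)
  · show C.evR P ∈ (C.U.map C.R.subtype).comap f
    induction P using Polynomial.induction_on' with
    | add P Q hP hQ => rw [map_add]; exact add_mem hP hQ
    | monomial i w =>
      rw [← Polynomial.C_mul_X_pow_eq_monomial, map_mul, map_pow]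
      refine mul_mem ?_ (pow_mem ?_ i)
      · refine ⟨C.evR (Polynomial.C w), C.evR_mem_U _, ?_⟩
        rw [Ctx.evR, Polynomial.coe_eval₂RingHom, Polynomial.eval₂_C]
        rfl
      · obtain ⟨u', hu', e⟩ := C.exists_U_of_level (compg_mem_trRing C.T_mem0 γ)
          (C.compg_invariant γ C.T_inv)
        refine ⟨u', hu', ?_⟩
        rw [Ctx.evR, Polynomial.coe_eval₂RingHom, Polynomial.eval₂_X]
        exact e
  · obtain ⟨u', hu', e⟩ := C.exists_U_of_level (compg_mem_trRing C.dlt_inv_mem0 γ)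
      (C.compg_invariant γ C.dlt_inv_inv)
    exact ⟨u', hu', e⟩

end Ctx

end FLTAgent.Carayol
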