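import Fermat.Agent.Entry.Descent.Classes
import Fermat.Agent.Entry.Gluing.Count

/-!
# Functions of the cover fixed by the normalising elements are functions of level `q²M'`

A quotient of functions of the cover fixed by all normalising elements becomes, after composition
with `τ ↦ q τ`, a quotient of functions invariant under `Γ₀(q²M')`.
-/

set_option autoImplicit false
set_option linter.unusedSectionVars false
set_option linter.style.haveILetI false
set_option synthInstance.maxHeartbeats 400000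
set_option maxHeartbeats 1000000

noncomputable section

open UpperHalfPlane hiding I I_re I_im
open Function AlgebraicCurve ModularCurve FLTAgent.ModEq FLTAgent.GoodModel
open CongruenceSubgroup (Gamma Gamma0)
open scoped MatrixGroups Manifold Classical

namespace FLTAgent.Carayol

local notation "QA" => AlgebraicClosure ℚ

namespace Pull

variable {q M0 M' : ℕ} [NeZero M0] [NeZero M'] [NeZero q] [Fact q.Prime]
variable {C : Ctx q M0 M'} (P : Pull C M')

/-- A translate on the functions with algebraic coefficients. -/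
abbrev tr (γ : SL(2, ℤ)) : P.Fn →+* P.Fn := trComp γ

theorem coe_tr (γ : SL(2, ℤ)) (f : P.Fn) : (P.tr γ f : ℍ → ℂ) = compg γ (f : ℍ → ℂ) := rfl

theorem tr_tr (σ γ : SL(2, ℤ)) (f : P.Fn) : P.tr σ (P.tr γ f) = P.tr (γ * σ) f :=
  Subtype.ext (compg_compg σ γ _)

theorem big_one_tr (γ : SL(2, ℤ)) (f : P.Fn) : P.big 1 (P.tr γ f) = P.big γ f := by
  have e : trComp 1 (trComp γ f) = trComp γ f :=
    Subtype.ext (show compg 1 (compg γ (f : ℍ → ℂ)) = _ from compg_one _)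
  simp only [Pull.big, RingHom.comp_apply, tr, e]

theorem fn_ne {f : P.Fn} (hf : f ≠ 0) (γ : SL(2, ℤ)) : P.big γ f ≠ 0 := fun h =>
  hf (P.big_injective γ (h.trans (map_zero _).symm))

theorem tr_ne {f : P.Fn} (hf : f ≠ 0) (γ : SL(2, ℤ)) : P.tr γ f ≠ 0 := fun h =>
  P.fn_ne hf γ (by rw [← P.big_one_tr, h, map_zero])

theorem isDomain_Fn : IsDomain P.Fn := (P.big_injective 1).isDomain _

/-- The functions which only depend on the triple. -/
def tripFn : Subring P.Fn where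
  carrier := {f | ∀ δ ∈ Gamma M0, ∀ δ' ∈ Gamma M0, C.triple δ = C.triple δ' →
    compg δ (f : ℍ → ℂ) = compg δ' (f : ℍ → ℂ)}
  zero_mem' := fun _ _ _ _ _ => rfl
  one_mem' := fun _ _ _ _ _ => rfl
  add_mem' := fun {a b} ha hb δ h δ' h' e => by
    rw [Subring.coe_add, map_add, map_add, ha δ h δ' h' e, hb δ h δ' h' e]
  mul_mem' := fun {a b} ha hb δ h δ' h' e => by
    rw [Subring.coe_mul, map_mul, map_mul, ha δ h δ' h' e, hb δ h δ' h' e]
  neg_mem' := fun {a} ha δ h δ' h' e => by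
    rw [Subring.coe_neg, map_neg, map_neg, ha δ h δ' h' e]

/-- The elements of the field of the cover as quotients. -/
theorem exists_tripFn_div {x : LaurentSeries ℂ} (hx : x ∈ P.Kc) :
    ∃ a ∈ P.tripFn, ∃ b ∈ P.tripFn, b ≠ 0 ∧ x * P.big 1 b = P.big 1 a := by
  rw [Pull.Kc, Subfield.mem_closure_iff] at hx
  have hcl : Subring.closure (Set.range (fun c => HahnSeries.C (P.κ c)) ∪ Set.range (P.eps 1)) ≤
      P.tripFn.map (P.big 1) := by
    refine Subring.closure_le.2 ?_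
    rintro _ (⟨c, rfl⟩ | ⟨a, rfl⟩)
    · exact ⟨P.cst c, fun _ _ _ _ _ => rfl, P.big_cst 1 c⟩
    · exact ⟨P.ι a, fun δ h δ' h' e => C.compg_congr h h' e a, rfl⟩
  obtain ⟨y, hy, z, hz, rfl⟩ := hx
  obtain ⟨a, ha, rfl⟩ := hcl hy
  obtain ⟨b, hb, rfl⟩ := hcl hz
  rcases eq_or_ne b 0 with rfl | hb0
  · exact ⟨0, zero_mem _, 1, one_mem _, fun h => one_ne_zero
      (congrFun (congrArg (fun f : P.Fn => (f : ℍ → ℂ)) h) UpperHalfPlane.I), by simp⟩
  · exact ⟨a, ha, b, hb, hb0, div_mul_cancel₀ _ (P.fn_ne hb0 1)⟩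

theorem tr_conjIdx {γ : SL(2, ℤ)} (hγ : C.Mov γ) {f : P.Fn} (hf : f ∈ P.tripFn) (l : C.Idx) :
    P.tr (C.rep (C.conjIdx γ l) * γ) f = P.tr (γ * C.rep l) f := by
  refine Subtype.ext ?_
  rw [coe_tr, coe_tr, ← compg_compg γ]
  rw [hf _ (C.rep_mem _) _ (Ctx.conj_mem γ (C.rep_mem l)) (C.triple_rep _), compg_compg,
    inv_mul_cancel_right]

theorem tr_of_map_eq {γ γ' : SL(2, ℤ)} (hγ : C.Mov γ) (hγ' : C.Mov γ') {f : P.Fn}
    (hf : f ∈ P.tripFn)
    (h : Matrix.SpecialLinearGroup.map (Int.castRingHom (ZMod (M0 * M'))) γ =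
      Matrix.SpecialLinearGroup.map (Int.castRingHom (ZMod (M0 * M'))) γ') :
    P.tr γ f = P.tr γ' f := by
  have hd : γ' * γ⁻¹ ∈ Gamma (M0 * M') := by
    rw [CongruenceSubgroup.Gamma, MonoidHom.mem_ker, map_mul, map_inv, h]
    exact mul_inv_cancel _
  have hm := hγ'.mul hγ.inv
  have h0 : γ' * γ⁻¹ ∈ Gamma M0 := Ctx.mem_gamma0_of_mem hd
  have ht : C.triple (γ' * γ⁻¹) = C.triple 1 := by
    simp only [Ctx.triple, compg_one, Prod.mk.injEq]
    exact ⟨C.eta_inv hd, (C.fix_sX_iff h0).2 hm.q10, (C.fix_rX0_iff h0).2 hm.q01⟩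
  refine Subtype.ext ?_
  rw [coe_tr, coe_tr]
  conv_lhs => rw [← compg_one ((f : P.Fn) : ℍ → ℂ), ← hf _ h0 _ (one_mem _) ht]
  rw [compg_compg, inv_mul_cancel_right]

/-- An invariant function after composition with multiplication by `q`. -/
theorem exists_scaled (ζ : (P.κ.range)ˣ) (hζ : ((ζ : P.κ.range) : ℂ) = zetaN (M0 * (M' * q) * q))
    (a : P.Fn) (ha : ∀ γ, C.Mov γ → P.tr γ a = a) :
    ∃ (z : LaurentSeries QA) (f : X0Fn.W0 (q * M' * q)), P.theta z = P.big 1 a ∧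
      X0Fn.expW (q * M' * q) f = X0Fn.iota (N := q * M' * q) P.κ z := by
  haveI : NeZero (q * (M0 * M')) := ⟨mul_ne_zero (NeZero.ne _) (mul_ne_zero (NeZero.ne _) (NeZero.ne _))⟩
  haveI : NeZero (1 * q) := ⟨by rw [one_mul]; exact NeZero.ne q⟩
  haveI : NeZero (M0 * (M' * q) * q) := ⟨mul_ne_zero (mul_ne_zero (NeZero.ne _)
    (mul_ne_zero (NeZero.ne _) (NeZero.ne _))) (NeZero.ne _)⟩
  have hl : M0 * (M' * q) = q * (M0 * M') := by ring
  have hTmov : C.Mov (ModularGroup.T ^ ((q : ℕ) : ℤ)) := by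
    refine ⟨?_, ?_, ?_⟩ <;> rw [ModularGroup.coe_T_zpow] <;> simp
  -- the expansion in `e(τ/q)`
  obtain ⟨G0, hG0⟩ := mem_trRing.mp a.2 1
  rw [compg_one] at hG0
  set ζ1 : (P.κ.range)ˣ := ζ ^ q
  obtain ⟨G1, hG1, hG10⟩ := Lowering.P3.Levels.sPairs_lower (N := q) (l := M0 * M') ζ1
    (show (((ζ ^ q : (P.κ.range)ˣ) : P.κ.range) : ℂ) = zetaN (q * (M0 * M')) by
      rw [Units.val_pow_eq_pow_val, SubmonoidClass.coe_pow, hζ, ← zetaN_pow (a := q * (M0 * M')) (b := q)]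
      simp only [hl])
    (φ := (a : ℍ → ℂ)) (G := G0) (by simpa only [hl] using hG0)
    fun τ => congrFun (congrArg Subtype.val (ha _ hTmov)) τ
  set φ : ℍ → ℂ := fun τ => (a : ℍ → ℂ) (affPt q 0 1 τ)
  obtain ⟨hmd, hexp⟩ := mem_sPairs.mp (Lowering.P3.Levels.sPairs_affPt_mul q hG1)
  have h1 : HasExp 1 φ (sIncl P.κ.range G1) := by
    refine Lowering.P3.Levels.hasExp_of_qExpand (N := 1) (l := q) ?_
    rw [sIncl, coeffMap_qExpand] at hexp
    rw [one_mul]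
    exact hexp
  -- invariance
  have hinv : ∀ g ∈ Gamma0 (q * M' * q), compg g φ = φ := by
    intro g hg
    have hc : ((q * M' * q : ℕ) : ℤ) ∣ g 1 0 :=
      (ZMod.intCast_zmod_eq_zero_iff_dvd _ _).1 (CongruenceSubgroup.Gamma0_mem.mp hg)
    obtain ⟨e, he⟩ := hc
    push_cast at he
    obtain ⟨δ, d00, d01, d10, d11⟩ : ∃ δ : SL(2, ℤ), δ 0 0 = g 0 0 ∧ δ 0 1 = q * g 0 1 ∧
        δ 1 0 = q * M' * e ∧ δ 1 1 = g 1 1 :=
      ⟨⟨!![g 0 0, q * g 0 1; q * M' * e, g 1 1], by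
        rw [Matrix.det_fin_two_of]
        linear_combination (det_eq g) + g 0 1 * he⟩, rfl, rfl, rfl, rfl⟩
    have hδ : C.Mov δ := ⟨by rw [d10]; exact dvd_mul_of_dvd_left (dvd_mul_left _ _) _,
      by rw [d01]; exact dvd_mul_right _ _,
      by rw [d10]; exact dvd_mul_of_dvd_left (dvd_mul_right _ _) _⟩
    funext τ
    have hp : affPt q 0 1 (g • τ) = δ • affPt q 0 1 τ := by
      refine UpperHalfPlane.ext ?_
      rw [coe_sl_smul' δ, d00, d01, d10, d11, coe_affPt, coe_affPt, coe_sl_smul' g]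
      have hden : ((g 1 0 : ℤ) : ℂ) * τ + (g 1 1 : ℤ) ≠ 0 := den_ne_zero g τ
      rw [show ((g 1 0 : ℤ) : ℂ) = q * M' * q * e by exact_mod_cast he] at hden ⊢
      push_cast
      simp only [add_zero, div_one]
      field_simp
    show (a : ℍ → ℂ) (affPt q 0 1 (g • τ)) = (a : ℍ → ℂ) (affPt q 0 1 τ)
    rw [hp]
    exact congrFun (congrArg Subtype.val (ha δ hδ)) _
  -- membership in the ring of level `q²M'`
  have hφtr : φ ∈ DeligneSerre.modRing P.κ.range (q * M' * q) :=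
    Lowering.P3.Levels.compMul_mem (l := q) (N := M0 * (M' * q)) (e := M0)
      ⟨M0, by ring⟩ (by ring) ζ hζ a.2 fun γ hγ τ =>
        congrFun (hinv γ (Lowering.P3.Levels.Gamma_le_Gamma0' _ hγ)) τ
  have hperl : ∀ g : SL(2, ℤ), (fun τ => φ (g • τ)) ∈ X0Fn.PerL ((q * M' * q : ℕ) : ℝ) := by
    intro g
    obtain ⟨G3, hG3⟩ := mem_trRing.mp hφtr.1 g
    refine Mazur.mem_PerL_of_hasExp (mem_sPairs.mp hG3).1 (fun τ => ?_) (mem_sPairs.mp hG3).2
    have e : ((q * M' * q : ℕ) : ℝ) +ᵥ τ =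
        (ModularGroup.T ^ (((q * M' * q : ℕ)) : ℤ)) • τ := by
      rw [UpperHalfPlane.modular_T_zpow_smul]
      simp
    rw [e]
    exact Model.periodic_of_gamma0 hinv g τ
  set f : X0Fn.W0 (q * M' * q) := ⟨φ, hmd, fun γ hγ τ => congrFun (hinv γ hγ) τ, hperl⟩
  obtain ⟨z, hz⟩ := coeffMap_range P.κ P.κ.injective (G := sIncl P.κ.range G1) fun i => by
    rw [sIncl, coeffMap_coeff]
    obtain ⟨c, hc⟩ := (G1.coeff i).2
    exact ⟨c, hc⟩
  refine ⟨z, f, ?_, ?_⟩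
  · rw [Pull.theta, RingHom.comp_apply, hz]
    refine ((P.big_spec 1 a).unique ?_).symm
    have h2 := (mem_sPairs.mp hG0).2
    rw [← hG10, sIncl, coeffMap_qExpand] at h2
    rw [compg_one]
    exact h2
  · refine (Mazur.hasExp_expL (N := q * M' * q) ⟨φ, X0Fn.W0_le_PerL f.2⟩).unique ?_
    rw [X0Fn.iota, RingHom.comp_apply, hz]
    exact hasExp_refine h1 (q * M' * q) (q * M' * q) (one_mul _)

/-- A quotient fixed by the normalising elements comes from level `q²M'`. -/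
theorem exists_theta_eq (ζ : (P.κ.range)ˣ) (hζ : ((ζ : P.κ.range) : ℂ) = zetaN (M0 * (M' * q) * q))
    {a b : P.Fn} (ha : a ∈ P.tripFn) (hb : b ∈ P.tripFn) (hb0 : b ≠ 0)
    (h : ∀ γ, C.Mov γ → P.tr γ a * b = P.tr γ b * a) :
    ∃ z : modularFunctionFieldBar (q * M' * q), P.Theta 1 z * P.big 1 b = P.big 1 a := by
  haveI := P.isDomain_Fn
  letI : Fintype C.MovCls := Fintype.ofFinite _
  set x1 : C.MovCls := ⟨1, 1, Ctx.Mov.one, map_one _⟩
  set R : P.Fn := ∏ x ∈ Finset.univ.erase x1, P.tr (C.movRep x) b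
  have hx1 : P.tr (C.movRep x1) b = b := by
    rw [P.tr_of_map_eq (C.mov_movRep x1) Ctx.Mov.one hb (by rw [C.map_movRep, map_one])]
    exact Subtype.ext (compg_one _)
  have hbR : b * R = ∏ x : C.MovCls, P.tr (C.movRep x) b := by
    rw [← Finset.mul_prod_erase Finset.univ _ (Finset.mem_univ x1), hx1]
  have hR : R ≠ 0 := Finset.prod_ne_zero_iff.2 fun x _ => P.tr_ne hb0 _
  have hB : ∀ γ, C.Mov γ → P.tr γ (b * R) = b * R := fun γ hγ => by
    rw [hbR, map_prod]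
    refine Fintype.prod_equiv (C.movPerm hγ) _ _ fun x => ?_
    rw [P.tr_tr]
    refine P.tr_of_map_eq ((C.mov_movRep x).mul hγ) (C.mov_movRep _) hb ?_
    rw [map_mul, C.map_movRep, C.map_movRep]
    rfl
  have hA : ∀ γ, C.Mov γ → P.tr γ (a * R) = a * R := fun γ hγ => by
    have h1 := hB γ hγ
    rw [map_mul] at h1 ⊢
    refine mul_left_cancel₀ (mul_ne_zero (P.tr_ne hb0 γ) hb0) ?_
    linear_combination (P.tr γ b * P.tr γ R) * h γ hγ + (P.tr γ b * a) * h1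
  obtain ⟨za, fa, hza, hfa⟩ := P.exists_scaled ζ hζ _ hA
  obtain ⟨zb, fb, hzb, hfb⟩ := P.exists_scaled ζ hζ _ hB
  have hzb0 : zb ≠ 0 := fun h0 => P.fn_ne (mul_ne_zero hb0 hR) 1 (by rw [← hzb, h0, map_zero])
  have hfb0 : fb ≠ 0 := fun h0 => hzb0 (X0Fn.iota_injective P.κ (by
    rw [← hfb, h0, map_zero, map_zero]))
  have hmem : za / zb ∈ modularFunctionFieldBar (q * M' * q) :=
    TorsionHom.mem_XF_of_W0 (N := q * M' * q) P.κ (A := fa) hfb0 (by
      rw [hfa, hfb, ← map_mul, div_mul_cancel₀ _ hzb0])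
  refine ⟨⟨_, hmem⟩, mul_right_cancel₀ (P.fn_ne hR 1) ?_⟩
  rw [P.Theta_one, mul_assoc, ← map_mul, ← map_mul (P.big 1) a, ← hza, ← hzb, ← map_mul,
    div_mul_cancel₀ _ hzb0]

end Pull

end FLTAgent.Carayol
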