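import Fermat.Agent.Entry.Descent.Value
import Fermat.Agent.Carayol.Finite

/-!
# The invariant and its isogenous translate on the branches; points of the cover

At a supersingular point one branch separates `j τ` from the `q`-th power of `j (q τ)` and another
one `j (q τ)` from the `q`-th power of `j τ`. A supersingular point is determined by its
coordinate and its level structure.
-/

set_option autoImplicit false
set_option linter.unusedSectionVars false
set_option linter.style.haveILetI false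

noncomputable section

open UpperHalfPlane hiding I I_re I_im
open Filter Topology Complex Function FLTAgent.ModEq FLTAgent.GoodModel ModularCurve
open scoped MatrixGroups Manifold Classical

namespace FLTAgent.Carayol

theorem order_qExpand_mul {R : Type*} [CommRing R] (d : ℕ) [NeZero d] (x : LaurentSeries R) :
    (qExpand R d x).order = (d : ℤ) * x.order := by
  rcases eq_or_ne x 0 with rfl | hx
  · simp
  have h0 : (qExpand R d x).coeff ((d : ℤ) * x.order) ≠ 0 := by
    rw [qExpand_coeff_mul]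
    exact HahnSeries.coeff_order_eq_zero.not.mpr hx
  refine le_antisymm (HahnSeries.order_le_of_coeff_ne_zero h0) ?_
  have h2 := HahnSeries.coeff_order_eq_zero.not.mpr (HahnSeries.ne_zero_of_coeff_ne_zero h0)
  by_cases hd : (d : ℤ) ∣ (qExpand R d x).order
  · obtain ⟨i, hi⟩ := hd
    rw [hi, qExpand_coeff_mul] at h2
    rw [hi]
    exact mul_le_mul_of_nonneg_left (HahnSeries.order_le_of_coeff_ne_zero h2) (by positivity)
  · exact absurd (qExpand_coeff_of_not_dvd d x hd) h2

theorem order_jqModC_field (k : Type*) [Field k] : (jqModC k).order = -1 := by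
  have hc : PowerSeries.constantCoeff (jNum.map (Int.castRingHom k)) = 1 := by
    rw [← PowerSeries.coeff_zero_eq_constantCoeff_apply, PowerSeries.coeff_map,
      PowerSeries.coeff_zero_eq_constantCoeff_apply, constantCoeff_jNum, map_one]
  have h0 : (jqModC k).coeff (-1) = 1 := by
    rw [jqModC, HahnSeries.coeff_single_mul, sub_self, one_mul, show (0 : ℤ) = ((0 : ℕ) : ℤ) from rfl,
      HahnSeries.ofPowerSeries_apply_coeff, PowerSeries.coeff_zero_eq_constantCoeff_apply, hc]
  refine le_antisymm (HahnSeries.order_le_of_coeff_ne_zero (by rw [h0]; exact one_ne_zero)) ?_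
  by_contra hlt
  refine HahnSeries.coeff_order_eq_zero.not.mpr (HahnSeries.ne_zero_of_coeff_ne_zero
    (x := jqModC k) (g := -1) (by rw [h0]; exact one_ne_zero)) ?_
  rw [jqModC, HahnSeries.coeff_single_mul, one_mul, ofPowerSeries_coeff_of_neg]
  rw [← jqModC]
  omega

variable {q M0 N' : ℕ} [NeZero M0] [NeZero N'] [NeZero q] [Fact q.Prime]
variable {C : Ctx q M0 N'} {M' : ℕ} [NeZero M'] (P : Pull C M')

namespace Pull

include P in
/-- The invariant and its translate lie in the cover, as the same rational expression. -/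
theorem exists_jR : ∃ (u v : C.R) (Q : Polynomial C.W) (s : ℕ),
    (∀ τ, (u : ℍ → ℂ) τ = jd q q τ) ∧ (∀ τ, (v : ℍ → ℂ) τ = jd q (q * q) τ) ∧
      u * C.evR C.dltW ^ s = C.evR Q ∧
      v * C.dltW.eval₂ C.cW (C.xR false) ^ s = Q.eval₂ C.cW (C.xR false) := by
  have hd : q ∣ q * q * M' := dvd_mul_of_dvd_left (dvd_mul_right q q) _
  obtain ⟨Q, s, hQ⟩ := C.exists_poly_W ⟨jd q q, C.jd_mem P.hN hd⟩
    (fun γ _ => funext fun τ => by
      simp only [compg_apply]
      rw [jd_qq, jd_qq, jFun_smul])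
    (fun k => by
      haveI : NeZero (q * (M0 * N')) := ⟨mul_ne_zero (NeZero.ne _) (NeZero.ne _)⟩
      rw [C.ser_jd P.hN hd, show jAt (1 : C.Sˣ) (q * (M0 * N')) = coeffMap C.inc (jAt 1 (q * (M0 * N'))) by
        rw [coeffMap_jAt, map_one], coeffMap_coeff]
      exact ⟨_, rfl⟩)
  have hx : (C.xR false : ℍ → ℂ) = C.sX := by
    simp [Ctx.xR, Ctx.sb, Ctx.rX, Ctx.gr, compg_one]
  -- evaluation of polynomials at the two coordinates
  have hev : ∀ (R : Polynomial C.W) (τ : ℍ),
      (C.evR R : ℍ → ℂ) τ = (R.map C.W.subtype).eval (C.T τ) := fun R τ => by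
    rw [Polynomial.eval_map, Ctx.evR, Polynomial.coe_eval₂RingHom]
    exact Polynomial.hom_eval₂ R C.cW ((Pi.evalRingHom (fun _ : ℍ => ℂ) τ).comp C.R.subtype) C.yR
  have hevx : ∀ (R : Polynomial C.W) (τ : ℍ),
      ((R.eval₂ C.cW (C.xR false) : C.R) : ℍ → ℂ) τ = (R.map C.W.subtype).eval (C.T (affPt q 0 1 τ)) := by
    intro R τ
    rw [Polynomial.eval_map]
    have h := Polynomial.hom_eval₂ R C.cW ((Pi.evalRingHom (fun _ : ℍ => ℂ) τ).comp C.R.subtype)
      (C.xR false)
    refine h.trans ?_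
    show R.eval₂ _ ((C.xR false : ℍ → ℂ) τ) = _
    rw [hx]
    rfl
  have hfun : ∀ τ, jFun τ * C.dlt τ ^ s = (Q.map C.W.subtype).eval (C.T τ) := fun τ => by
    have h := congrArg (fun z : trRing C.S (M0 * (N' * q)) => (z : ℍ → ℂ) τ) hQ
    rw [C.evT_apply, Polynomial.map_map] at h
    rw [← jd_qq (q := q) τ]
    refine Eq.trans ?_ h
    show _ = jd q q τ * ((C.evT C.dltS : ℍ → ℂ) ^ s) τ
    rw [Pi.pow_apply, C.evT_dltS]
  have hdlt : ∀ τ, (C.dltW.map C.W.subtype).eval (C.T τ) = C.dlt τ := fun τ => by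
    simp [Ctx.dltW, Ctx.dlt, Polynomial.map_prod, Polynomial.eval_prod]
  have hu : C.evR C.dltW * C.dR = 1 := C.evR_dltW_mul_dR
  have hv := C.dltW_x_mul_uR false
  refine ⟨C.evR Q * C.dR ^ s, Q.eval₂ C.cW (C.xR false) * C.uR false ^ s, Q, s, fun τ => ?_,
    fun τ => ?_, by rw [mul_assoc, ← mul_pow, mul_comm C.dR, hu, one_pow, mul_one],
    by rw [mul_assoc, ← mul_pow, mul_comm (C.uR false), hv, one_pow, mul_one]⟩
  · have h1 := congrArg (fun z : C.R => (z : ℍ → ℂ) τ) hu
    simp only [Subring.coe_mul, Subring.coe_one, Pi.mul_apply, Pi.one_apply] at h1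
    simp only [Subring.coe_mul, SubmonoidClass.coe_pow, Pi.mul_apply, Pi.pow_apply]
    rw [hev] at h1 ⊢
    rw [hdlt] at h1
    rw [← hfun, jd_qq, mul_assoc, ← mul_pow, h1, one_pow, mul_one]
  · have h1 := congrArg (fun z : C.R => (z : ℍ → ℂ) τ) hv
    simp only [Subring.coe_mul, Subring.coe_one, Pi.mul_apply, Pi.one_apply] at h1
    simp only [Subring.coe_mul, SubmonoidClass.coe_pow, Pi.mul_apply, Pi.pow_apply]
    rw [hevx] at h1 ⊢
    rw [hdlt] at h1
    rw [← hfun, mul_assoc, ← mul_pow, h1, one_pow, mul_one, jd]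
    congr 1
    refine UpperHalfPlane.ext ?_
    rw [coe_affPt, coe_affPt]
    have hq : (q : ℂ) ≠ 0 := Nat.cast_ne_zero.mpr (NeZero.ne q)
    push_cast
    field_simp
    ring

end Pull

namespace Res

variable {k : Type} [Field k] (Ω : Res C k)

include P in
/-- The invariant and its translate are separated on the first two kinds of branches. -/
theorem rs_sep {u v : C.R} {Q : Polynomial C.W} {s : ℕ} (hu : ∀ τ, (u : ℍ → ℂ) τ = jd q q τ)
    (h1 : u * C.evR C.dltW ^ s = C.evR Q)
    (h2 : v * C.dltW.eval₂ C.cW (C.xR false) ^ s = Q.eval₂ C.cW (C.xR false)) (g : C.Sheet) :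
    Ω.rs g 0 (u - v ^ q) ≠ 0 ∧ Ω.rs g 1 (v - u ^ q) ≠ 0 := by
  haveI := Ω.charK
  set E := qExpand k q
  let ev : LaurentSeries k → LaurentSeries k := fun y =>
    (Q.map Ω.φW).eval₂ HahnSeries.C y * ((C.dltW.map Ω.φW).eval₂ HahnSeries.C y ^ s)⁻¹
  have hE : ∀ y, E (ev y) = ev (E y) := fun y => by
    have hC : ∀ R : Polynomial k, E (R.eval₂ HahnSeries.C y) = R.eval₂ HahnSeries.C (E y) := fun R => by
      rw [Polynomial.hom_eval₂]
      congr 1
      refine RingHom.ext fun c => ?_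
      rw [RingHom.comp_apply, HahnSeries.C_apply, qExpand_single, mul_zero]
    simp only [ev, map_mul, map_inv₀, map_pow, hC]
  have hq1 : Ω.bb ^ q = E Ω.bb := by
    have h := (Ω.qExpand_base (G := coeffMap Ω.φW C.co.H) Ω.frob_H).1
    rw [show Ω.bb = qExpand k N' (coeffMap Ω.φW C.co.H) from rfl, ← h, qExpand_qExpand]
    exact qExpand_congr (mul_comm _ _) _
  have hq2 : Ω.bb ^ (q ^ 2) = E (Ω.bb ^ q) := by
    have h := (Ω.qExpand_base (G := coeffMap Ω.φW C.co.H) Ω.frob_H)
    rw [show Ω.bb = qExpand k N' (coeffMap Ω.φW C.co.H) from rfl, ← h.2, ← h.1, qExpand_qExpand]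
  -- evaluations
  have hval : ∀ (j : Fin 3) (x w i : C.R) (y : LaurentSeries k), Ω.rs g j x = y →
      w * C.dltW.eval₂ C.cW x ^ s = Q.eval₂ C.cW x → C.dltW.eval₂ C.cW x * i = 1 →
      Ω.rs g j w = ev y := by
    intro j x w i y hy hw hi
    have hR : ∀ R : Polynomial C.W,
        Ω.rs g j (R.eval₂ C.cW x) = (R.map Ω.φW).eval₂ HahnSeries.C y := fun R => by
      rw [Polynomial.eval₂_map, Polynomial.hom_eval₂, hy]
      congr 1
      exact RingHom.ext fun c => Ω.red_cW _ c
    have hne : Ω.rs g j (C.dltW.eval₂ C.cW x) ≠ 0 :=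
      left_ne_zero_of_mul_eq_one (by rw [← map_mul, hi, map_one])
    have h := congrArg (Ω.rs g j) hw
    rw [map_mul, map_pow] at h
    show _ = _ * _
    rw [← hR, ← hR, ← h, mul_assoc, mul_inv_cancel₀ (pow_ne_zero s hne), mul_one]
  have hU : ∀ j, Ω.rs g j u = E (ev Ω.bb) := fun j => by
    rw [hE, ← hq1]
    exact hval j C.yR u C.dR _ (Ω.red_yR (C.gm_mem g j)) h1 C.evR_dltW_mul_dR
  have hV0 : Ω.rs g 0 v = E (E (ev Ω.bb)) := by
    rw [hE, hE, ← hq1, ← hq2]
    exact hval 0 _ v _ _ ((Ω.rs_side g 0 false).1 rfl).1 h2 (C.dltW_x_mul_uR false)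
  have hV1 : Ω.rs g 1 v = ev Ω.bb :=
    hval 1 _ v _ _ ((Ω.rs_side g 1 false).2 (by simp [Ctx.kroot])).1 h2 (C.dltW_x_mul_uR false)
  -- the order of the invariant
  have hqd : q ∣ q * q * M' := dvd_mul_of_dvd_left (dvd_mul_right q q) _
  haveI : NeZero (q * (M0 * N')) := ⟨mul_ne_zero (NeZero.ne _) (NeZero.ne _)⟩
  have ho : (E (ev Ω.bb)).order = -((q * (M0 * N') : ℕ) : ℤ) := by
    rw [← hU 0]
    have e : trComp (C.gm g 0) (Subring.inclusion C.R_le u) =
        (⟨jd q q, C.jd_mem P.hN hqd⟩ : trRing C.S (M0 * (N' * q))) :=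
      Subtype.ext (funext fun τ => by
        show (u : ℍ → ℂ) (C.gm g 0 • τ) = jd q q τ
        rw [hu, Pull.jd_qq, Pull.jd_qq, jFun_smul])
    rw [Res.rs, Res.red, RingHom.comp_apply, C.embAt_apply, e, C.ser_jd P.hN hqd, Res.rd,
      coeffMap_jAt, map_one, jAt_one_left, jqNModC, order_qExpand_mul, order_jqModC_field, mul_neg,
      mul_one]
  have hX : ev Ω.bb ≠ 0 := fun h => by
    rw [h, map_zero, HahnSeries.order_zero] at ho
    have := NeZero.ne (q * (M0 * N'))
    omega
  set o := (ev Ω.bb).order with hodef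
  rw [order_qExpand_mul, ← hodef] at ho
  have ho0 : o ≠ 0 := fun h => by
    rw [h, mul_zero] at ho
    have := NeZero.ne (q * (M0 * N'))
    omega
  have hq : (2 : ℤ) ≤ q := by exact_mod_cast (Fact.out : q.Prime).two_le
  constructor
  · rw [map_sub, map_pow, hU, hV0, sub_ne_zero]
    intro h
    have h' := congrArg HahnSeries.order h
    rw [HahnSeries.order_pow, order_qExpand_mul, order_qExpand_mul, order_qExpand_mul, ← hodef,
      nsmul_eq_mul] at h'
    have h3 : o * ((q : ℤ) * ((q : ℤ) * q - 1)) = 0 := by linear_combination -h'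
    rcases mul_eq_zero.1 h3 with h4 | h4
    · exact ho0 h4
    · rcases mul_eq_zero.1 h4 with h5 | h5 <;> nlinarith
  · rw [map_sub, map_pow, hU, hV1, sub_ne_zero]
    intro h
    have h' := congrArg HahnSeries.order h
    rw [HahnSeries.order_pow, order_qExpand_mul, ← hodef, nsmul_eq_mul] at h'
    have h3 : o * ((q : ℤ) * q - 1) = 0 := by linear_combination -h'
    rcases mul_eq_zero.1 h3 with h4 | h4
    · exact ho0 h4
    · nlinarith

end Res

namespace Pt

variable {k : Type} [Field k] [IsAlgClosed k] [IsNoetherianRing C.W] {Ω : Res C k}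

/-- Branches of all kinds pass through a supersingular point. -/
theorem exists_branches (p : Pt Ω) (E : Eqs Ω) (hss : p.π E.OmR = 0) :
    ∃ g : C.Sheet, ∀ j, RingHom.ker (Ω.rs g j) ≤ p.ideal := by
  obtain ⟨l, hl⟩ := Ω.exists_ker_le p.ideal (p.mem_ideal.2 p.π_q)
  have hlk : RingHom.ker (Ω.rs (C.sheet l) (C.kind l)) = Ω.ker (C.rep l) :=
    (congrArg RingHom.ker (Ω.red_rep l)).symm
  rw [← hlk] at hl
  refine ⟨C.sheet l, fun j a ha => p.mem_ideal.2 ?_⟩
  have h := p.ev_transfer hl E hss j a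
  rw [RingHom.mem_ker.1 ha] at h
  exact p.ev_unique hl h (p.EV _ _).zero_mem

/-- A supersingular point is determined by its coordinate and its level structure. -/
theorem eq_of_coord (p p' : Pt Ω) (E : Eqs Ω) (hss : p.π E.OmR = 0) (hss' : p'.π E.OmR = 0)
    (hy : p.π C.yR = p'.π C.yR) (he : p.π C.etaR = p'.π C.etaR) : p.π = p'.π := by
  have hcW : ∀ w, p.π (C.cW w) = p'.π (C.cW w) := fun w => by rw [p.π_cW, p'.π_cW]
  have hev : ∀ (R : Polynomial C.W) (x : C.R), p.π x = p'.π x →
      p.π (R.eval₂ C.cW x) = p'.π (R.eval₂ C.cW x) := fun R x hx => by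
    rw [Polynomial.hom_eval₂, Polynomial.hom_eval₂, hx,
      show p.π.comp C.cW = p'.π.comp C.cW from RingHom.ext hcW]
  have hinv : ∀ {a b : C.R}, a * b = 1 → p.π a = p'.π a → p.π b = p'.π b := fun {a b} h hab => by
    have h1 : p.π a * p.π b = 1 := by rw [← map_mul, h, map_one]
    have h2 : p'.π a * p'.π b = 1 := by rw [← map_mul, h, map_one]
    rw [hab] at h1
    exact mul_left_cancel₀ (left_ne_zero_of_mul_eq_one h2) (h1.trans h2.symm)
  have hx : ∀ b, p.π (C.xR b) = p'.π (C.xR b) := fun b => by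
    rw [(E.π_L p hss b).2, (E.π_L p' hss' b).2, hy]
  refine RingHom.ext fun a => C.mem_subring_of (RingHom.eqLocus p.π p'.π) hcW hy ?_ he ?_
    (fun b => ⟨hx b, ?_, ?_, ?_⟩) a
  · exact hinv C.evR_dltW_mul_dR (hev _ _ hy)
  · obtain ⟨-, n2⟩ := E.node
    have hb : p.π (bv C.cW C.yR C.etaR (Polynomial.derivative E.N)) =
        p'.π (bv C.cW C.yR C.etaR (Polynomial.derivative E.N)) := by
      rw [bv_eq_eval_map, ← Polynomial.eval₂_at_apply, ← Polynomial.eval₂_at_apply, Polynomial.eval₂_map,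
        Polynomial.eval₂_map, he]
      congr 1
      exact RingHom.ext fun R => hev R _ hy
    have h1 := congrArg p.π n2
    have h2 := congrArg p'.π n2
    rw [map_mul, hb, map_pow, show p.π (C.evR C.dltW) = p'.π (C.evR C.dltW) from hev _ _ hy] at h1
    rw [map_mul, map_pow] at h2
    show p.π C.rhoR = p'.π C.rhoR
    refine mul_left_cancel₀ (fun h0 => ?_) (h1.trans h2.symm)
    rw [h0, zero_mul] at h2
    exact pow_ne_zero _ p'.π_dlt h2.symm
  · show p.π (C.wR b) = p'.π (C.wR b)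
    rw [(p.side_zero E hss b).1, (p'.side_zero E hss' b).1]
  · show p.π (C.vR b) = p'.π (C.vR b)
    rw [(p.side_zero E hss b).2, (p'.side_zero E hss' b).2]
  · exact hinv (C.dltW_x_mul_uR b) (hev _ _ (hx b))

end Pt

end FLTAgent.Carayol
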