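import Fermat.Agent.Entry.Descent.Move
import Fermat.Agent.Carayol.Descend

/-!
# Values at a point of quotients of functions of the cover

A quotient of functions of the cover which is integral over them has a value in every local ring
over `q`; the pairs (expansion, value) form a ring.
-/

set_option autoImplicit false
set_option linter.unusedSectionVars false
set_option linter.style.haveILetI false

noncomputable section

open UpperHalfPlane hiding I I_re I_im
open Filter Topology Complex Function FLTAgent.ModEq FLTAgent.GoodModel ModularCurve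
open scoped MatrixGroups Manifold Classical

namespace FLTAgent.Carayol

variable {q M0 N' : ℕ} [NeZero M0] [NeZero N'] [NeZero q] [Fact q.Prime]
variable {C : Ctx q M0 N'} {M' : ℕ} [NeZero M'] (P : Pull C M')

namespace Pull

/-- The expansion at infinity of a function of the big ring. -/
def lev : trRing C.S (M0 * (N' * q)) →+* LaurentSeries ℂ :=
  (P.big 1).comp (Subring.inclusion (sPairs_le_of_le P.hS))

theorem lev_incl (a : C.R) : P.lev (Subring.inclusion C.R_le a) = P.eps 1 a := rfl

theorem lev_injective : Injective P.lev :=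
  (P.big_injective 1).comp (Subring.inclusion_injective _)

theorem lev_spec (φ : trRing C.S (M0 * (N' * q))) :
    HasExp (M0 * (N' * q)) (φ : ℍ → ℂ) (P.lev φ) := by
  have h := P.big_spec 1 (Subring.inclusion (sPairs_le_of_le P.hS) φ)
  rwa [compg_one] at h

end Pull

namespace Pt

variable {k : Type} [Field k] [IsAlgClosed k] [IsNoetherianRing C.W]
variable {Ω : Res C k} (p : Pt Ω)

/-- Quotients of functions of the cover together with their values in the local ring. -/
def valPairs : Subring (LaurentSeries ℂ × p.Loc) where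
  carrier := {x | ∃ a d : C.R, d ≠ 0 ∧ P.eps 1 d * x.1 = P.eps 1 a ∧
    algebraMap C.R p.Loc d * x.2 = algebraMap C.R p.Loc a}
  zero_mem' := ⟨0, 1, one_ne_zero, by simp, by simp⟩
  one_mem' := ⟨1, 1, one_ne_zero, by simp, by simp⟩
  add_mem' := by
    rintro x y ⟨a, d, hd, h1, h2⟩ ⟨a', d', hd', h1', h2'⟩
    refine ⟨a * d' + a' * d, d * d', mul_ne_zero hd hd', ?_, ?_⟩
    · rw [Prod.fst_add, map_mul, map_add, map_mul, map_mul, ← h1, ← h1']; ring
    · rw [Prod.snd_add, map_mul (algebraMap C.R p.Loc), map_add (algebraMap C.R p.Loc),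
        map_mul (algebraMap C.R p.Loc), map_mul (algebraMap C.R p.Loc), ← h2, ← h2']
      ring
  mul_mem' := by
    rintro x y ⟨a, d, hd, h1, h2⟩ ⟨a', d', hd', h1', h2'⟩
    refine ⟨a * a', d * d', mul_ne_zero hd hd', ?_, ?_⟩
    · rw [Prod.fst_mul, map_mul, map_mul, ← h1, ← h1']; ring
    · rw [Prod.snd_mul, map_mul (algebraMap C.R p.Loc), map_mul (algebraMap C.R p.Loc), ← h2, ← h2']
      ring
  neg_mem' := by
    rintro x ⟨a, d, hd, h1, h2⟩
    exact ⟨-a, d, hd, by rw [Prod.fst_neg, map_neg]; linear_combination -h1,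
      by rw [Prod.snd_neg, map_neg (algebraMap C.R p.Loc)]; linear_combination -h2⟩

theorem val_self (a : C.R) : (P.eps 1 a, algebraMap C.R p.Loc a) ∈ p.valPairs P :=
  ⟨a, 1, one_ne_zero, by simp, by simp⟩

theorem val_unique {X : LaurentSeries ℂ} {z z' : p.Loc} (h : (X, z) ∈ p.valPairs P)
    (h' : (X, z') ∈ p.valPairs P) : z = z' := by
  obtain ⟨a, d, hd, h1, h2⟩ := h
  obtain ⟨a', d', hd', h1', h2'⟩ := h'
  have hx : a * d' = a' * d := P.eps_injective 1 (by
    rw [map_mul, map_mul, ← h1, ← h1']; ring)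
  refine mul_left_cancel₀ (p.loc_alg_ne (mul_ne_zero hd hd')) ?_
  have h3 := congrArg (algebraMap C.R p.Loc) hx
  rw [map_mul (algebraMap C.R p.Loc) a, map_mul (algebraMap C.R p.Loc) a', ← h2, ← h2'] at h3
  rw [map_mul (algebraMap C.R p.Loc)]
  linear_combination h3

/-- Integral quotients have values. -/
theorem exists_val {X : LaurentSeries ℂ} {a d : C.R} (hd : d ≠ 0) (hX : P.eps 1 d * X = P.eps 1 a)
    {Q : Polynomial C.R} (hQ : Q.Monic) (h0 : Q.eval₂ (P.eps 1) X = 0) :
    ∃ z, (X, z) ∈ p.valPairs P := by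
  haveI := p.isNoetherian_loc
  haveI := p.ufd_loc
  haveI := p.isIntegrallyClosed_loc
  have heq : (Polynomial.scaleRoots Q d).eval a = 0 := by
    refine P.eps_injective 1 ?_
    rw [map_zero, ← Polynomial.eval₂_at_apply, ← hX]
    exact Polynomial.scaleRoots_eval₂_eq_zero _ h0
  obtain ⟨z, hz⟩ := exists_quot_of_scaleRoots (algebraMap C.R p.Loc) (p.loc_alg_ne hd) hQ heq
  exact ⟨z, a, d, hd, hX, hz⟩

/-- The value of a translate. -/
theorem val_mov {γ : SL(2, ℤ)} (hγ : C.Mov γ) (a : C.R) :
    (P.lev (C.movEl γ a), p.movLoc hγ a) ∈ p.valPairs P := by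
  obtain ⟨a', d, hd, h⟩ := C.exists_mov_frac Ω.fixed hγ a
  refine ⟨a', d, hd, ?_, p.movLoc_spec hγ h⟩
  rw [← P.lev_incl, ← P.lev_incl, ← map_mul, h]

/-- A value with vanishing reduction on a branch through the point vanishes. -/
theorem πL_eq_zero_of_rsLoc {g : C.Sheet} {j : Fin 3} (hle : RingHom.ker (Ω.rs g j) ≤ p.ideal)
    {z : p.Loc} (hz : p.rsLoc hle z = 0) : p.πL z = 0 := by
  obtain ⟨⟨x, s⟩, hx⟩ := IsLocalization.surj p.ideal.primeCompl z
  change z * algebraMap C.R p.Loc s.1 = algebraMap C.R p.Loc x at hx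
  have h1 : Ω.rs g j x = 0 := by
    rw [← p.rsLoc_alg hle, ← hx, map_mul, hz, zero_mul]
  have h2 : p.π x = 0 := p.mem_ideal.1 (hle (RingHom.mem_ker.2 h1))
  have h3 := congrArg p.πL hx
  rw [map_mul, p.πL_alg, p.πL_alg, h2, mul_eq_zero] at h3
  exact h3.resolve_right fun h => s.2 (p.mem_ideal.2 h)

end Pt

end FLTAgent.Carayol
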